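import Fermat.Agent.S20.CosetBasic

set_option autoImplicit false

namespace Fermat.Agent.S20.Combinatorics

open CongruenceSubgroup Matrix MatrixGroups

/-- The index of a subgroup is the cardinality of the range of any complete coset invariant. -/
theorem index_eq_card_range {G X : Type*} [Group G] (H : Subgroup G) (f : G → X)
    (hf : ∀ a b, f a = f b ↔ a⁻¹ * b ∈ H) : H.index = Nat.card (Set.range f) := by
  rw [Subgroup.index_eq_card]
  let F : G ⧸ H → Set.range f := fun q =>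
    Quotient.liftOn' q (fun a => (⟨f a, a, rfl⟩ : Set.range f)) (fun a b hab => by
      apply Subtype.ext
      exact (hf a b).mpr (QuotientGroup.leftRel_apply.mp hab))
  refine Nat.card_congr (Equiv.ofBijective F ⟨?_, ?_⟩)
  · intro q₁ q₂
    induction q₁ using QuotientGroup.induction_on
    induction q₂ using QuotientGroup.induction_on
    intro h
    exact QuotientGroup.eq.mpr ((hf _ _).mp (congrArg Subtype.val h))
  · rintro ⟨_, a, rfl⟩
    exact ⟨(a : G ⧸ H), rfl⟩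

theorem Gamma0_le_of_dvd {M M' : ℕ} (h : M ∣ M') : Gamma0 M' ≤ Gamma0 M := by
  intro g hg
  rw [Gamma0_mem, ZMod.intCast_zmod_eq_zero_iff_dvd] at hg ⊢
  exact (Int.natCast_dvd_natCast.mpr h).trans hg

/-- A complete invariant for the cosets of `Γ₀(pN)` in `Γ₀(N)`: the point `(a : c/N)` of the
projective line over `𝔽_p`. -/
noncomputable def cosetInv (N p : ℕ) [Fact p.Prime] (h : Gamma0 N) : Option (ZMod p) :=
  open scoped Classical in
  if (p : ℤ) ∣ (h : SL(2, ℤ)) 0 0 then none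
  else some ((((h : SL(2, ℤ)) 1 0 / (N : ℤ) : ℤ) : ZMod p) / (((h : SL(2, ℤ)) 0 0 : ℤ) : ZMod p))

theorem cosetInv_eq_iff {N p : ℕ} (hN : N ≠ 0) [Fact p.Prime] (h h' : Gamma0 N) :
    cosetInv N p h = cosetInv N p h' ↔ h⁻¹ * h' ∈ (Gamma0 (p * N)).subgroupOf (Gamma0 N) := by
  have hN' : (N : ℤ) ≠ 0 := by exact_mod_cast hN
  obtain ⟨c, hc⟩ : (N : ℤ) ∣ (h : SL(2, ℤ)) 1 0 := by
    have := h.2; rwa [Gamma0_mem, ZMod.intCast_zmod_eq_zero_iff_dvd] at this
  obtain ⟨c', hc'⟩ : (N : ℤ) ∣ (h' : SL(2, ℤ)) 1 0 := by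
    have := h'.2; rwa [Gamma0_mem, ZMod.intCast_zmod_eq_zero_iff_dvd] at this
  have hcop := isCoprime_col (h : SL(2, ℤ))
  have hcop' := isCoprime_col (h' : SL(2, ℤ))
  set a := (h : SL(2, ℤ)) 0 0 with ha
  set a' := (h' : SL(2, ℤ)) 0 0 with ha'
  have hmem : h⁻¹ * h' ∈ (Gamma0 (p * N)).subgroupOf (Gamma0 N) ↔
      ((a : ZMod p) * (c' : ZMod p) - (c : ZMod p) * (a' : ZMod p) = 0) := by
    rw [Subgroup.mem_subgroupOf, Subgroup.coe_mul, Subgroup.coe_inv, Gamma0_mem,
      ZMod.intCast_zmod_eq_zero_iff_dvd, inv_mul_apply_one_zero, ← ha, ← ha', hc, hc']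
    have : a * (↑N * c') - ↑N * c * a' = (N : ℤ) * (a * c' - c * a') := by ring
    rw [this]
    push_cast
    rw [mul_comm (p : ℤ) (N : ℤ), mul_dvd_mul_iff_left hN', ← ZMod.intCast_zmod_eq_zero_iff_dvd]
    push_cast
    rfl
  have hpc : ∀ {x y z : ℤ}, IsCoprime x y → y = (N : ℤ) * z → (x : ZMod p) = 0 →
      (z : ZMod p) ≠ 0 := by
    intro x y z hxy hy hx hz
    rw [ZMod.intCast_zmod_eq_zero_iff_dvd] at hx hz
    have h1 : (p : ℤ) ∣ y := hy ▸ hz.mul_left _
    have := hxy.isUnit_of_dvd' hx h1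
    exact (Nat.prime_iff_prime_int.mp (Fact.out : p.Prime)).not_isUnit this
  rw [hmem]
  unfold cosetInv
  rw [← ha, ← ha', hc, hc', Int.mul_ediv_cancel_left _ hN', Int.mul_ediv_cancel_left _ hN']
  simp only [← ZMod.intCast_zmod_eq_zero_iff_dvd]
  by_cases h1 : (a : ZMod p) = 0 <;> by_cases h2 : (a' : ZMod p) = 0
  · simp [h1, h2]
  · have := hpc hcop hc h1
    simp [h1, h2, this]
  · have := hpc hcop' hc' h2
    simp [h1, h2, this]
  · simp only [h1, h2, if_false, Option.some.injEq]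
    rw [div_eq_div_iff h1 h2, sub_eq_zero]
    constructor
    · intro h; linear_combination -h
    · intro h; linear_combination -h

theorem exists_cosetInv_eq_some {N p : ℕ} (hN : N ≠ 0) [Fact p.Prime] (t : ZMod p) :
    ∃ h : Gamma0 N, cosetInv N p h = some t := by
  have hN' : (N : ℤ) ≠ 0 := by exact_mod_cast hN
  obtain ⟨g, hg0, hg1⟩ := exists_col (a := 1) (c := (N : ℤ) * (t.val : ℤ)) isCoprime_one_left
  have hg : g ∈ Gamma0 N := by
    rw [Gamma0_mem, ZMod.intCast_zmod_eq_zero_iff_dvd, hg1]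
    exact dvd_mul_right _ _
  refine ⟨⟨g, hg⟩, ?_⟩
  unfold cosetInv
  have h1 : ¬ (p : ℤ) ∣ 1 := by
    intro h
    exact (Nat.prime_iff_prime_int.mp (Fact.out : p.Prime)).not_isUnit (isUnit_of_dvd_one h)
  simp only [hg0, hg1, h1, if_false, Int.mul_ediv_cancel_left _ hN']
  simp

theorem exists_cosetInv_eq_none {N p : ℕ} [Fact p.Prime] (hpN : ¬ p ∣ N) :
    ∃ h : Gamma0 N, cosetInv N p h = none := by
  have hcop : IsCoprime (p : ℤ) (N : ℤ) :=
    Nat.isCoprime_iff_coprime.mpr ((Nat.Prime.coprime_iff_not_dvd Fact.out).mpr hpN)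
  obtain ⟨g, hg0, hg1⟩ := exists_col hcop
  have hg : g ∈ Gamma0 N := by
    rw [Gamma0_mem, ZMod.intCast_zmod_eq_zero_iff_dvd, hg1]
  refine ⟨⟨g, hg⟩, ?_⟩
  unfold cosetInv
  simp [hg0]

theorem cosetInv_ne_none {N p : ℕ} [Fact p.Prime] (hpN : p ∣ N) (h : Gamma0 N) :
    cosetInv N p h ≠ none := by
  have h1 : ¬ (p : ℤ) ∣ (h : SL(2, ℤ)) 0 0 := by
    intro h0
    have h2 : (N : ℤ) ∣ (h : SL(2, ℤ)) 1 0 := by
      have := h.2; rwa [Gamma0_mem, ZMod.intCast_zmod_eq_zero_iff_dvd] at this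
    have h3 : (p : ℤ) ∣ (h : SL(2, ℤ)) 1 0 := (Int.natCast_dvd_natCast.mpr hpN).trans h2
    exact (Nat.prime_iff_prime_int.mp (Fact.out : p.Prime)).not_isUnit
      ((isCoprime_col (h : SL(2, ℤ))).isUnit_of_dvd' h0 h3)
  unfold cosetInv
  simp [h1]

theorem relIndex_Gamma0_of_not_dvd {N p : ℕ} (hN : N ≠ 0) (hp : p.Prime) (hpN : ¬ p ∣ N) :
    (Gamma0 (p * N)).relIndex (Gamma0 N) = p + 1 := by
  have : Fact p.Prime := ⟨hp⟩
  rw [Subgroup.relIndex, index_eq_card_range _ (cosetInv N p) (cosetInv_eq_iff hN)]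
  have : Set.range (cosetInv N p) = Set.univ := by
    rw [Set.eq_univ_iff_forall]
    rintro (_ | t)
    · exact exists_cosetInv_eq_none hpN
    · exact exists_cosetInv_eq_some hN t
  rw [this, Nat.card_univ, Nat.card_eq_fintype_card, Fintype.card_option, ZMod.card]

theorem relIndex_Gamma0_of_dvd {N p : ℕ} (hN : N ≠ 0) (hp : p.Prime) (hpN : p ∣ N) :
    (Gamma0 (p * N)).relIndex (Gamma0 N) = p := by
  have : Fact p.Prime := ⟨hp⟩
  rw [Subgroup.relIndex, index_eq_card_range _ (cosetInv N p) (cosetInv_eq_iff hN)]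
  have : Set.range (cosetInv N p) = Set.range (some : ZMod p → Option (ZMod p)) := by
    ext x
    constructor
    · rintro ⟨h, rfl⟩
      obtain ⟨t, ht⟩ := Option.ne_none_iff_exists.mp (cosetInv_ne_none hpN h)
      exact ⟨t, ht⟩
    · rintro ⟨t, rfl⟩
      exact exists_cosetInv_eq_some hN t
  rw [this, Nat.card_range_of_injective (Option.some_injective _), Nat.card_zmod]

open ModularCurve

theorem dedekindPsi_mul_of_dvd {N p : ℕ} (hN : N ≠ 0) (hp : p.Prime) (hpN : p ∣ N) :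
    dedekindPsi (p * N) = p * dedekindPsi N := by
  unfold dedekindPsi
  have hS : (p * N).divisors.filter Squarefree = N.divisors.filter Squarefree := by
    ext d
    simp only [Finset.mem_filter, Nat.mem_divisors]
    constructor
    · rintro ⟨⟨hd, -⟩, hsq⟩
      refine ⟨⟨?_, hN⟩, hsq⟩
      by_cases hpd : p ∣ d
      · obtain ⟨d', rfl⟩ := hpd
        obtain ⟨N', rfl⟩ := hpN
        have hd' : d' ∣ p * N' := Nat.dvd_of_mul_dvd_mul_left hp.pos hd
        have hcop : Nat.Coprime d' p := ((Nat.squarefree_mul_iff).mp hsq).1.symm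
        exact Nat.mul_dvd_mul_left p (hcop.dvd_of_dvd_mul_left hd')
      · exact ((Nat.Prime.coprime_iff_not_dvd hp).mpr hpd).symm.dvd_of_dvd_mul_left hd
    · rintro ⟨⟨hd, -⟩, hsq⟩
      exact ⟨⟨hd.mul_left p, mul_ne_zero hp.ne_zero hN⟩, hsq⟩
  rw [hS, Finset.mul_sum]
  refine Finset.sum_congr rfl fun d hd => ?_
  exact Nat.mul_div_assoc p (Nat.dvd_of_mem_divisors (Finset.mem_filter.mp hd).1)

theorem dedekindPsi_mul_of_not_dvd {N p : ℕ} (hN : N ≠ 0) (hp : p.Prime) (hpN : ¬ p ∣ N) :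
    dedekindPsi (p * N) = (p + 1) * dedekindPsi N := by
  unfold dedekindPsi
  rw [← Finset.sum_filter_add_sum_filter_not ((p * N).divisors.filter Squarefree)
    (fun d => p ∣ d)]
  have h1 : ∑ d ∈ ((p * N).divisors.filter Squarefree).filter (fun d => ¬ p ∣ d), p * N / d =
      p * ∑ d ∈ N.divisors.filter Squarefree, N / d := by
    have hS : ((p * N).divisors.filter Squarefree).filter (fun d => ¬ p ∣ d) =
        N.divisors.filter Squarefree := by
      ext d
      simp only [Finset.mem_filter, Nat.mem_divisors]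
      constructor
      · rintro ⟨⟨⟨hd, -⟩, hsq⟩, hpd⟩
        exact ⟨⟨((Nat.Prime.coprime_iff_not_dvd hp).mpr hpd).symm.dvd_of_dvd_mul_left hd, hN⟩,
          hsq⟩
      · rintro ⟨⟨hd, -⟩, hsq⟩
        exact ⟨⟨⟨hd.mul_left p, mul_ne_zero hp.ne_zero hN⟩, hsq⟩, fun h => hpN (h.trans hd)⟩
    rw [hS, Finset.mul_sum]
    refine Finset.sum_congr rfl fun d hd => ?_
    exact Nat.mul_div_assoc p (Nat.dvd_of_mem_divisors (Finset.mem_filter.mp hd).1)
  have h2 : ∑ d ∈ ((p * N).divisors.filter Squarefree).filter (fun d => p ∣ d), p * N / d =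
      ∑ d ∈ N.divisors.filter Squarefree, N / d := by
    symm
    refine Finset.sum_nbij' (fun e => p * e) (fun d => d / p) ?_ ?_ ?_ ?_ ?_
    · intro e he
      simp only [Finset.mem_filter, Nat.mem_divisors] at he ⊢
      obtain ⟨⟨hd, -⟩, hsq⟩ := he
      refine ⟨⟨⟨Nat.mul_dvd_mul_left p hd, mul_ne_zero hp.ne_zero hN⟩, ?_⟩, dvd_mul_right _ _⟩
      rw [Nat.squarefree_mul_iff]
      exact ⟨(Nat.Prime.coprime_iff_not_dvd hp).mpr fun h => hpN (h.trans hd),
        hp.prime.squarefree, hsq⟩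
    · intro d hd
      simp only [Finset.mem_filter, Nat.mem_divisors] at hd ⊢
      obtain ⟨⟨⟨hd, -⟩, hsq⟩, ⟨e, rfl⟩⟩ := hd
      rw [Nat.mul_div_cancel_left _ hp.pos]
      exact ⟨⟨Nat.dvd_of_mul_dvd_mul_left hp.pos hd, hN⟩, ((Nat.squarefree_mul_iff).mp hsq).2.2⟩
    · intro e _
      exact Nat.mul_div_cancel_left _ hp.pos
    · intro d hd
      simp only [Finset.mem_filter] at hd
      exact Nat.mul_div_cancel' hd.2
    · intro e _
      exact (Nat.mul_div_mul_left _ _ hp.pos).symm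
  rw [h1, h2]
  ring

theorem index_Gamma0 (N : ℕ) (hN : N ≠ 0) : (Gamma0 N).index = dedekindPsi N := by
  induction N using induction_on_primes with
  | zero => exact absurd rfl hN
  | one =>
    have : Gamma0 1 = ⊤ := by
      ext g
      simp only [Gamma0_mem, Subgroup.mem_top, iff_true]
      exact Subsingleton.elim _ _
    rw [this, Subgroup.index_top, dedekindPsi_one]
  | prime_mul p N hp ih =>
    have hN' : N ≠ 0 := right_ne_zero_of_mul hN
    rw [← Subgroup.relIndex_mul_index (Gamma0_le_of_dvd (Dvd.intro_left p rfl)), ih hN']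
    by_cases hpN : p ∣ N
    · rw [relIndex_Gamma0_of_dvd hN' hp hpN, dedekindPsi_mul_of_dvd hN' hp hpN]
    · rw [relIndex_Gamma0_of_not_dvd hN' hp hpN, dedekindPsi_mul_of_not_dvd hN' hp hpN]

/-- The index of `Γ₀(N)` in `SL(2,ℤ)` is the Dedekind psi function. -/
theorem card_quotient (N : ℕ) [NeZero N] :
    Nat.card (SL(2, ℤ) ⧸ CongruenceSubgroup.Gamma0 N) = ModularCurve.dedekindPsi N := by
  rw [← Subgroup.index_eq_card]
  exact index_Gamma0 N (NeZero.ne N)

end Fermat.Agent.S20.Combinatorics
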