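import Fermat.Agent.S20.Defs

/-!
# S20, task M: counting dimensions from a free homogeneous basis (owner: helper47)
-/

set_option autoImplicit false

open UpperHalfPlane ModularForm Matrix.SpecialLinearGroup Module
open scoped MatrixGroups ModularForm Manifold

namespace Fermat.Agent.S20

noncomputable section

/-- Level one spaces are finite dimensional. -/
instance instFiniteDimensionalR (k : ℤ) : FiniteDimensional ℂ (R k) :=
  LinearEquiv.finiteDimensional (Requiv k)

/-- Abstract counting lemma: if `V` is "freely generated" by the `G j` with coefficients in the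
finite dimensional spaces `U j`, then `dim V = ∑ dim U j`. -/
theorem finrank_of_free {ι X : Type} [Fintype ι] (V : Submodule ℂ (X → ℂ))
    (U : ι → Submodule ℂ (X → ℂ)) [∀ j, FiniteDimensional ℂ (U j)] (G : ι → X → ℂ)
    (hmem : ∀ j, ∀ a ∈ U j, a * G j ∈ V)
    (hspan : ∀ f ∈ V, ∃ A : ι → X → ℂ, (∀ j, A j ∈ U j) ∧ f = ∑ j, A j * G j)
    (hindep : ∀ A : ι → X → ℂ, (∀ j, A j ∈ U j) → ∑ j, A j * G j = 0 → ∀ j, A j = 0) :
    FiniteDimensional ℂ V ∧ finrank ℂ V = ∑ j, finrank ℂ (U j) := by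
  classical
  let L : (∀ j, U j) →ₗ[ℂ] V :=
    { toFun := fun A => ⟨∑ j, (A j : X → ℂ) * G j,
        Submodule.sum_mem _ fun j _ => hmem j _ (A j).2⟩
      map_add' := by
        intro A B
        ext x
        simp [add_mul, Finset.sum_add_distrib]
      map_smul' := by
        intro c A
        ext x
        simp [Finset.mul_sum] }
  have hinj : Function.Injective L := by
    rw [← LinearMap.ker_eq_bot, LinearMap.ker_eq_bot']
    intro A hA
    have h0 : ∑ j, (A j : X → ℂ) * G j = 0 := congrArg Subtype.val hA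
    have := hindep (fun j => (A j : X → ℂ)) (fun j => (A j).2) h0
    funext j
    exact Subtype.ext (this j)
  have hsurj : Function.Surjective L := by
    rintro ⟨f, hf⟩
    obtain ⟨A, hA, rfl⟩ := hspan f hf
    exact ⟨fun j => ⟨A j, hA j⟩, rfl⟩
  let e : (∀ j, U j) ≃ₗ[ℂ] V := LinearEquiv.ofBijective L ⟨hinj, hsurj⟩
  refine ⟨LinearEquiv.finiteDimensional e, ?_⟩
  rw [← LinearEquiv.finrank_eq e, Module.finrank_pi_fintype]

variable {Γ : Subgroup SL(2, ℤ)} [Γ.FiniteIndex]

/-- Task M. -/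
theorem finrank_MF {wt : Q Γ → ℤ} {F : Q Γ → ℍ → ℂ} (hB : IsFreeBasis Γ wt F) (w : ℤ) :
    FiniteDimensional ℂ (MF Γ w) ∧ finrank ℂ (MF Γ w) = ∑ j, finrank ℂ (R (w - wt j)) := by
  refine finrank_of_free (MF Γ w) (fun j => R (w - wt j)) F ?_ (hB.span w) (hB.indep w)
  intro j a ha
  have := mul_mem_MF (R_le_MF (Γ := Γ) ha) (hB.mem j)
  rwa [sub_add_cancel] at this

/-- The analogous statement for cusp forms, from an abstract "dual basis". -/
theorem finrank_CF_of_free {wt : Q Γ → ℤ} {G : Q Γ → ℍ → ℂ} (w : ℤ)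
    (hG : ∀ j, G j ∈ CF Γ (12 - wt j))
    (hspan : ∀ g ∈ CF Γ w, ∃ B : Q Γ → ℍ → ℂ, (∀ j, B j ∈ R (w + wt j - 12)) ∧
      g = ∑ j, B j * G j)
    (hindep : ∀ B : Q Γ → ℍ → ℂ, (∀ j, B j ∈ R (w + wt j - 12)) → ∑ j, B j * G j = 0 →
      ∀ j, B j = 0) :
    FiniteDimensional ℂ (CF Γ w) ∧ finrank ℂ (CF Γ w) = ∑ j, finrank ℂ (R (w + wt j - 12)) := by
  refine finrank_of_free (CF Γ w) (fun j => R (w + wt j - 12)) G ?_ hspan hindep
  intro j a ha
  have := mul_mem_CF (R_le_MF (Γ := Γ) ha) (hG j)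
  have e : w + wt j - 12 + (12 - wt j) = w := by ring
  rwa [e] at this

end

end Fermat.Agent.S20
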