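import Fermat.Agent.S20.CuspEll

/-!
# S20, task I3 (owner helper110)

* `finrank_MF_eq_CF_add` : `dim M_w(Γ) = dim S_w(Γ) + #(T-orbits on SL₂(ℤ)/Γ)` as soon as the
  map `ell` is onto;
* `local_duality` : a cusp form whose trace pairings with all forms of weight `w` have vanishing
  `M`-th `q_M`-coefficient is divisible by `Δ` (in the space of cusp forms).
-/

set_option autoImplicit false
set_option linter.unusedSectionVars false

open UpperHalfPlane ModularForm Matrix.SpecialLinearGroup Module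
open scoped MatrixGroups ModularForm Manifold

namespace Fermat.Agent.S20

noncomputable section

variable {Γ : Subgroup SL(2, ℤ)} [Γ.FiniteIndex]

namespace CuspDual

omit [Γ.FiniteIndex] in
lemma vec_add' (k : ℤ) (f g : ℍ → ℂ) (q : Q Γ) : vec k (f + g) q = vec k f q + vec k g q :=
  SlashAction.add_slash _ _ _ _

omit [Γ.FiniteIndex] in
lemma vec_smul' (k : ℤ) (c : ℂ) (f : ℍ → ℂ) (q : Q Γ) : vec k (c • f) q = c • vec k f q :=
  ModularForm.SL_smul_slash _ _ _ _

omit [Γ.FiniteIndex] in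
lemma vec_mdiff' {k : ℤ} {f : ℍ → ℂ} (hf : MDiff f) (q : Q Γ) : MDiff (vec k f q) :=
  hf.slash k _

omit [Γ.FiniteIndex] in
lemma vec_bdd' {k : ℤ} {f : ℍ → ℂ} (hf : f ∈ MF Γ k) (q : Q Γ) :
    IsBoundedAtImInfty (vec k f q) := hf.2.2 _

omit [Γ.FiniteIndex] in
lemma vec_zero_at' {k : ℤ} {f : ℍ → ℂ} (hf : f ∈ CF Γ k) (q : Q Γ) :
    IsZeroAtImInfty (vec k f q) := hf.2.2 _

omit [Γ.FiniteIndex] in
lemma mem_CF_of_vec' {k : ℤ} {f : ℍ → ℂ} (hf : f ∈ MF Γ k)
    (h : ∀ q : Q Γ, IsZeroAtImInfty (vec k f q)) : f ∈ CF Γ k :=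
  ⟨hf.1, hf.2.1, fun γ => by
    have := h ((γ⁻¹ : SL(2, ℤ)) : Q Γ)
    rwa [vec_mk hf.2.1, inv_inv] at this⟩

/-- vanishing at `i∞` is vanishing of the constant coefficient. -/
lemma isZeroAtImInfty_iff_coeff_zero {h : ℝ} (hh : 0 < h) {φ : ℍ → ℂ}
    (hper : Function.Periodic (φ ∘ ofComplex) (h : ℂ)) (hhol : MDiff φ)
    (hbdd : IsBoundedAtImInfty φ) :
    IsZeroAtImInfty φ ↔ (qExpansion h φ).coeff 0 = 0 := by
  have han := analyticAt_cuspFunction_zero hh hper hhol hbdd
  rw [qExpansion_coeff_zero hh han hper]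
  constructor
  · exact fun h => h.valueAtInfty_eq_zero
  · intro h0
    have e : (cuspFunction h φ ∘ fun τ : ℍ ↦ Function.Periodic.qParam h τ) = φ :=
      funext fun τ => eq_cuspFunction τ hh.ne' hper
    have t := han.continuousAt.tendsto.comp (qParam_tendsto_atImInfty hh)
    rw [e, cuspFunction_apply_zero hh han hper, h0] at t
    exact t

section invariants

variable {G X : Type*} [Group G] [MulAction G X] (t : G)

/-- functions on `X` invariant under `t`. -/
def invSub : Submodule ℂ (X → ℂ) where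
  carrier := {v | ∀ x, v (t⁻¹ • x) = v x}
  add_mem' := fun {a b} ha hb x => by simp [ha x, hb x]
  zero_mem' := fun x => rfl
  smul_mem' := fun c a ha x => by simp [ha x]

lemma mem_invSub {v : X → ℂ} : v ∈ invSub (X := X) t ↔ ∀ x, v (t⁻¹ • x) = v x := Iff.rfl

lemma invSub_zpow {v : X → ℂ} (hv : v ∈ invSub (X := X) t) (n : ℤ) (x : X) :
    v (t ^ n • x) = v x := by
  have h1 : ∀ x, v (t • x) = v x := fun x => by
    have := hv (t • x)
    rw [inv_smul_smul] at this
    exact this.symm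
  induction n using Int.induction_on generalizing x with
  | zero => simp
  | succ n ih => rw [zpow_add_one, mul_smul, ih, h1]
  | pred n ih => rw [zpow_sub_one, mul_smul, ih]; exact hv x

/-- `t`-invariant functions are the functions on the orbit space. -/
def invSubEquiv :
    (MulAction.orbitRel.Quotient (Subgroup.zpowers t) X → ℂ) ≃ₗ[ℂ] invSub (X := X) t where
  toFun u := ⟨fun x => u (Quotient.mk'' x), fun x => by
    have : (Quotient.mk'' (t⁻¹ • x) : MulAction.orbitRel.Quotient (Subgroup.zpowers t) X) =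
        Quotient.mk'' x :=
      Quotient.sound' ⟨⟨t⁻¹, Subgroup.inv_mem _ (Subgroup.mem_zpowers t)⟩, rfl⟩
    show u (Quotient.mk'' (t⁻¹ • x)) = u (Quotient.mk'' x)
    rw [this]⟩
  map_add' _ _ := rfl
  map_smul' _ _ := rfl
  invFun v := fun o => Quotient.liftOn' o v.1 (by
    rintro a b ⟨⟨g, hg⟩, rfl⟩
    obtain ⟨n, rfl⟩ := Subgroup.mem_zpowers_iff.mp hg
    exact invSub_zpow t v.2 n b)
  left_inv u := by
    funext o
    induction o using Quotient.inductionOn' with
    | h x => rfl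
  right_inv v := rfl

lemma finrank_invSub [Finite X] :
    finrank ℂ (invSub (X := X) t) =
      Nat.card (MulAction.orbitRel.Quotient (Subgroup.zpowers t) X) := by
  classical
  have : Fintype (MulAction.orbitRel.Quotient (Subgroup.zpowers t) X) := Fintype.ofFinite _
  rw [← (invSubEquiv (X := X) t).finrank_eq, Module.finrank_fintype_fun_eq_card,
    Nat.card_eq_fintype_card]

end invariants

section cusp

variable {M : ℕ} [NeZero M] (hM : ∀ q : Q Γ, (ModularGroup.T ^ M) • q = q)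
include hM

lemma vec_an {w : ℤ} {f : ℍ → ℂ} (hf : f ∈ MF Γ w) (q : Q Γ) :
    AnalyticAt ℂ (cuspFunction (M : ℝ) (vec w f q)) 0 :=
  analyticAt_cuspFunction_zero (Nat.cast_pos.mpr (NeZero.pos M)) (vec_periodic hM hf.2.1 q)
    (vec_mdiff' hf.1 q) (vec_bdd' hf q)

lemma coef_add' {w : ℤ} {f g : ℍ → ℂ} (hf : f ∈ MF Γ w) (hg : g ∈ MF Γ w) (n : ℕ) :
    coef (Γ := Γ) M w (f + g) n = coef M w f n + coef M w g n := by
  funext q
  simp only [coef, Pi.add_apply]
  rw [vec_add', qExpansion_add (vec_an hM hf q) (vec_an hM hg q), map_add]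

lemma coef_smul' {w : ℤ} {f : ℍ → ℂ} (hf : f ∈ MF Γ w) (c : ℂ) (n : ℕ) :
    coef (Γ := Γ) M w (c • f) n = c • coef M w f n := by
  funext q
  simp only [coef, Pi.smul_apply]
  rw [vec_smul', qExpansion_smul (vec_an hM hf q), map_smul]

/-- the vector of constant terms, as a linear map. -/
def c0 (w : ℤ) : MF Γ w →ₗ[ℂ] (Q Γ → ℂ) where
  toFun f := coef M w f.1 0
  map_add' f g := coef_add' hM f.2 g.2 0
  map_smul' c f := coef_smul' hM f.2 c 0

lemma c0_apply (w : ℤ) (f : MF Γ w) : c0 hM w f = coef M w f.1 0 := rfl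

lemma range_c0 {w : ℤ} (hsurj : ∀ v : Q Γ → ℂ, ∃ f ∈ MF Γ w, ell M w f = v) :
    LinearMap.range (c0 hM w) = invSub (X := Q Γ) ModularGroup.T := by
  apply le_antisymm
  · rintro _ ⟨f, rfl⟩ q
    have := coef_T hM f.2 0 q
    simp only [Nat.cast_zero, mul_zero, zero_div, Complex.exp_zero, one_mul] at this
    exact this
  · intro v hv
    obtain ⟨f, hf, hfv⟩ := hsurj v
    have := (coef_eq_zero_of_ell hM hf (m := 0) (NeZero.pos M) (fun q => by simpa using hv q)
      hfv).1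
    exact ⟨⟨f, hf⟩, this⟩

lemma mem_ker_c0 {w : ℤ} (f : MF Γ w) : f ∈ LinearMap.ker (c0 hM w) ↔ f.1 ∈ CF Γ w := by
  rw [LinearMap.mem_ker, c0_apply]
  constructor
  · intro h
    refine mem_CF_of_vec' f.2 fun q => ?_
    rw [isZeroAtImInfty_iff_coeff_zero (Nat.cast_pos.mpr (NeZero.pos M))
      (vec_periodic hM f.2.2.1 q) (vec_mdiff' f.2.1 q) (vec_bdd' f.2 q)]
    exact congrFun h q
  · intro h
    funext q
    exact (isZeroAtImInfty_iff_coeff_zero (Nat.cast_pos.mpr (NeZero.pos M))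
      (vec_periodic hM f.2.2.1 q) (vec_mdiff' f.2.1 q) (vec_bdd' f.2 q)).mp (vec_zero_at' h q)

lemma ker_c0 (w : ℤ) : LinearMap.ker (c0 hM w) = (CF Γ w).submoduleOf (MF Γ w) := by
  ext f
  rw [mem_ker_c0]
  rfl

end cusp

lemma exp_conj_aux {M : ℕ} [NeZero M] {n : ℕ} (hn : n ≤ M) :
    (starRingEnd ℂ) (Complex.exp (2 * Real.pi * Complex.I * n / M)) =
      Complex.exp (2 * Real.pi * Complex.I * ((M - n : ℕ) : ℂ) / M) := by
  have hM0 : (M : ℂ) ≠ 0 := Nat.cast_ne_zero.mpr (NeZero.ne M)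
  rw [← Complex.exp_conj, Nat.cast_sub hn]
  have : 2 * Real.pi * Complex.I * ((M : ℂ) - n) / M =
      (starRingEnd ℂ) (2 * Real.pi * Complex.I * n / M) + 2 * Real.pi * Complex.I := by
    simp only [map_mul, map_div₀, Complex.conj_ofReal, Complex.conj_I, map_natCast, map_ofNat]
    field_simp
    ring
  rw [this, Complex.exp_add, Complex.exp_two_pi_mul_I, mul_one]

end CuspDual

section cusp

variable {M : ℕ} [NeZero M] (hM : ∀ q : Q Γ, (ModularGroup.T ^ M) • q = q)
include hM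

open CuspDual

theorem finrank_MF_eq_CF_add {w : ℤ} [FiniteDimensional ℂ (MF Γ w)]
    (hsurj : ∀ v : Q Γ → ℂ, ∃ f ∈ MF Γ w, ell M w f = v) :
    finrank ℂ (MF Γ w) = finrank ℂ (CF Γ w) +
      Nat.card (MulAction.orbitRel.Quotient (Subgroup.zpowers ModularGroup.T) (Q Γ)) := by
  have h := LinearMap.finrank_range_add_finrank_ker (c0 hM w)
  rw [range_c0 hM hsurj, ker_c0, finrank_invSub,
    (Submodule.submoduleOfEquivOfLe (CF_le_MF (Γ := Γ) (k := w))).finrank_eq] at h
  exact h.symm.trans (add_comm _ _)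

theorem local_duality {w w' : ℤ} (hsurj : ∀ v : Q Γ → ℂ, ∃ f ∈ MF Γ w, ell M w f = v)
    {g : ℍ → ℂ} (hg : g ∈ CF Γ w')
    (h : ∀ f ∈ MF Γ w, (qExpansion (M : ℝ) (trP Γ w w' f g)).coeff M = 0) :
    ∃ g' ∈ CF Γ (w' - 12), g = Dl * g' := by
  have hgM : g ∈ MF Γ w' := CF_le_MF hg
  apply div_Dl_mem_CF hM hgM
  have b0 : coef (Γ := Γ) M w' g 0 = 0 := (mem_ker_c0 hM ⟨g, hgM⟩).mpr hg
  intro n hn
  rcases Nat.eq_zero_or_pos n with rfl | hpos
  · exact b0
  obtain ⟨f, hf, hfv⟩ := hsurj (fun q => (starRingEnd ℂ) (coef M w' g n q))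
  have hlt : M - n < M := by omega
  obtain ⟨h1, h2⟩ := coef_eq_zero_of_ell hM hf hlt (fun q => by
    rw [coef_T hM hgM n q, map_mul, exp_conj_aux hn]) hfv
  have h3 := h f hf
  rw [coeff_trP hM hf hgM M, Finset.sum_eq_single (M - n, n)] at h3
  · simp only [h1] at h3
    have h4 : ∑ q : Q Γ, Complex.normSq (coef M w' g n q) = 0 := by
      have : ((∑ q : Q Γ, Complex.normSq (coef M w' g n q) : ℝ) : ℂ) = 0 := by
        rw [← h3, Complex.ofReal_sum]
        exact Finset.sum_congr rfl fun q _ => Complex.normSq_eq_conj_mul_self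
      exact_mod_cast this
    funext q
    have h5 := (Finset.sum_eq_zero_iff_of_nonneg (fun q _ => Complex.normSq_nonneg _)).mp h4 q
      (Finset.mem_univ q)
    exact Complex.normSq_eq_zero.mp h5
  · rintro ⟨p1, p2⟩ hp hne
    rw [Finset.HasAntidiagonal.mem_antidiagonal] at hp
    simp only at hp
    rcases Nat.lt_or_ge p1 M with hlt1 | hge1
    · have hne1 : p1 ≠ M - n := by
        rintro rfl
        exact hne (by congr 1; omega)
      simp [h2 p1 hlt1 hne1]
    · have : p2 = 0 := by omega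
      subst this
      simp [b0]
  · intro hnot
    exact absurd (Finset.HasAntidiagonal.mem_antidiagonal.mpr (Nat.sub_add_cancel hn)) hnot

end cusp

end

end Fermat.Agent.S20
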