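import Mathlib

/-!
# S20: interface file (owner: helper20)

Everything is phrased with plain functions `ℍ → ℂ` and submodules of `ℍ → ℂ`, so that no
casts between weights are ever needed.
-/

set_option autoImplicit false

open UpperHalfPlane ModularForm Matrix.SpecialLinearGroup
open scoped MatrixGroups ModularForm Manifold

namespace Fermat.Agent.S20

noncomputable section

/-- Functions underlying modular forms of weight `k` for `Γ ≤ SL(2,ℤ)`. -/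
def MF (Γ : Subgroup SL(2, ℤ)) (k : ℤ) : Submodule ℂ (ℍ → ℂ) where
  carrier := {f | MDiff f ∧ (∀ γ ∈ Γ, f ∣[k] γ = f) ∧
    ∀ γ : SL(2, ℤ), IsBoundedAtImInfty (f ∣[k] γ)}
  add_mem' := by
    rintro f g ⟨hf1, hf2, hf3⟩ ⟨hg1, hg2, hg3⟩
    refine ⟨hf1.add hg1, fun γ hγ => ?_, fun γ => ?_⟩
    · rw [SlashAction.add_slash, hf2 γ hγ, hg2 γ hγ]
    · rw [SlashAction.add_slash]; exact (hf3 γ).add (hg3 γ)
  zero_mem' := by
    refine ⟨mdifferentiable_const, fun γ _ => SlashAction.zero_slash _ _, fun γ => ?_⟩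
    rw [SlashAction.zero_slash]
    exact zero_form_isBoundedAtImInfty
  smul_mem' := by
    rintro c f ⟨hf1, hf2, hf3⟩
    refine ⟨hf1.const_smul c, fun γ hγ => ?_, fun γ => ?_⟩
    · rw [ModularForm.SL_smul_slash, hf2 γ hγ]
    · rw [ModularForm.SL_smul_slash]; exact (hf3 γ).const_smul_left c

/-- Functions underlying cusp forms of weight `k` for `Γ ≤ SL(2,ℤ)`. -/
def CF (Γ : Subgroup SL(2, ℤ)) (k : ℤ) : Submodule ℂ (ℍ → ℂ) where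
  carrier := {f | MDiff f ∧ (∀ γ ∈ Γ, f ∣[k] γ = f) ∧
    ∀ γ : SL(2, ℤ), IsZeroAtImInfty (f ∣[k] γ)}
  add_mem' := by
    rintro f g ⟨hf1, hf2, hf3⟩ ⟨hg1, hg2, hg3⟩
    refine ⟨hf1.add hg1, fun γ hγ => ?_, fun γ => ?_⟩
    · rw [SlashAction.add_slash, hf2 γ hγ, hg2 γ hγ]
    · rw [SlashAction.add_slash]; exact (hf3 γ).add (hg3 γ)
  zero_mem' := by
    refine ⟨mdifferentiable_const, fun γ _ => SlashAction.zero_slash _ _, fun γ => ?_⟩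
    rw [SlashAction.zero_slash]
    exact Filter.zero_zeroAtFilter _
  smul_mem' := by
    rintro c f ⟨hf1, hf2, hf3⟩
    refine ⟨hf1.const_smul c, fun γ hγ => ?_, fun γ => ?_⟩
    · rw [ModularForm.SL_smul_slash, hf2 γ hγ]
    · rw [ModularForm.SL_smul_slash]; exact (hf3 γ).smul c

variable {Γ : Subgroup SL(2, ℤ)} {k : ℤ} {f : ℍ → ℂ}

lemma mem_MF_iff : f ∈ MF Γ k ↔ MDiff f ∧ (∀ γ ∈ Γ, f ∣[k] γ = f) ∧
    ∀ γ : SL(2, ℤ), IsBoundedAtImInfty (f ∣[k] γ) := Iff.rfl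

lemma mem_CF_iff : f ∈ CF Γ k ↔ MDiff f ∧ (∀ γ ∈ Γ, f ∣[k] γ = f) ∧
    ∀ γ : SL(2, ℤ), IsZeroAtImInfty (f ∣[k] γ) := Iff.rfl

lemma CF_le_MF : CF Γ k ≤ MF Γ k := fun _ hf =>
  ⟨hf.1, hf.2.1, fun γ => (hf.2.2 γ).isBoundedAtImInfty⟩

/-- The bundled modular form attached to an element of `MF Γ k`. -/
def toModularForm (hf : f ∈ MF Γ k) : ModularForm (Γ : Subgroup (GL (Fin 2) ℝ)) k where
  toFun := f
  slash_action_eq' := by
    rintro _ ⟨γ, hγ, rfl⟩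
    exact hf.2.1 γ hγ
  holo' := hf.1
  bdd_at_cusps' := by
    intro c hc
    have hc' : IsCusp c 𝒮ℒ := hc.mono (Subgroup.map_le_range _ _)
    rw [OnePoint.isBoundedAt_iff_forall_SL2Z hc']
    exact fun γ _ => hf.2.2 γ

/-- The bundled cusp form attached to an element of `CF Γ k`. -/
def toCuspForm' (hf : f ∈ CF Γ k) : CuspForm (Γ : Subgroup (GL (Fin 2) ℝ)) k where
  toFun := f
  slash_action_eq' := by
    rintro _ ⟨γ, hγ, rfl⟩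
    exact hf.2.1 γ hγ
  holo' := hf.1
  zero_at_cusps' := by
    intro c hc
    have hc' : IsCusp c 𝒮ℒ := hc.mono (Subgroup.map_le_range _ _)
    rw [OnePoint.isZeroAt_iff_forall_SL2Z hc']
    exact fun γ _ => hf.2.2 γ

@[simp] lemma coe_toModularForm (hf : f ∈ MF Γ k) : ⇑(toModularForm hf) = f := rfl
@[simp] lemma coe_toCuspForm' (hf : f ∈ CF Γ k) : ⇑(toCuspForm' hf) = f := rfl

lemma coe_mem_MF [Γ.FiniteIndex] (F : ModularForm (Γ : Subgroup (GL (Fin 2) ℝ)) k) :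
    ⇑F ∈ MF Γ k :=
  ⟨F.holo', fun γ hγ => F.slash_action_eq' _ ⟨γ, hγ, rfl⟩,
    fun γ => ModularFormClass.bdd_at_infty_slash F γ⟩

lemma coe_mem_CF [Γ.FiniteIndex] (F : CuspForm (Γ : Subgroup (GL (Fin 2) ℝ)) k) :
    ⇑F ∈ CF Γ k :=
  ⟨F.holo', fun γ hγ => F.slash_action_eq' _ ⟨γ, hγ, rfl⟩,
    fun γ => CuspFormClass.zero_at_infty_slash F γ⟩

/-- `ModularForm Γ k ≃ MF Γ k`. -/
def MFequiv (Γ : Subgroup SL(2, ℤ)) [Γ.FiniteIndex] (k : ℤ) :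
    ModularForm (Γ : Subgroup (GL (Fin 2) ℝ)) k ≃ₗ[ℂ] MF Γ k where
  toFun F := ⟨⇑F, coe_mem_MF F⟩
  invFun f := toModularForm f.2
  map_add' _ _ := rfl
  map_smul' _ _ := rfl
  left_inv _ := rfl
  right_inv _ := rfl

/-- `CuspForm Γ k ≃ CF Γ k`. -/
def CFequiv (Γ : Subgroup SL(2, ℤ)) [Γ.FiniteIndex] (k : ℤ) :
    CuspForm (Γ : Subgroup (GL (Fin 2) ℝ)) k ≃ₗ[ℂ] CF Γ k where
  toFun F := ⟨⇑F, coe_mem_CF F⟩
  invFun f := toCuspForm' f.2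
  map_add' _ _ := rfl
  map_smul' _ _ := rfl
  left_inv _ := rfl
  right_inv _ := rfl

/-- Level one. -/
abbrev R (k : ℤ) : Submodule ℂ (ℍ → ℂ) := MF ⊤ k

lemma coe_mem_R (F : ModularForm 𝒮ℒ k) : ⇑F ∈ R k :=
  ⟨F.holo', fun γ _ => F.slash_action_eq' _ ⟨γ, rfl⟩,
    fun γ => ModularFormClass.bdd_at_infty_slash F γ⟩

/-- The bundled level-one form attached to an element of `R k`. -/
def toLevelOne (hf : f ∈ R k) : ModularForm 𝒮ℒ k where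
  toFun := f
  slash_action_eq' := by
    rintro _ ⟨γ, rfl⟩
    exact hf.2.1 γ trivial
  holo' := hf.1
  bdd_at_cusps' := by
    intro c hc
    rw [OnePoint.isBoundedAt_iff_forall_SL2Z hc]
    exact fun γ _ => hf.2.2 γ

@[simp] lemma coe_toLevelOne (hf : f ∈ R k) : ⇑(toLevelOne hf) = f := rfl

/-- `ModularForm 𝒮ℒ k ≃ R k`. -/
def Requiv (k : ℤ) : ModularForm 𝒮ℒ k ≃ₗ[ℂ] R k where
  toFun F := ⟨⇑F, coe_mem_R F⟩
  invFun f := toLevelOne f.2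
  map_add' _ _ := rfl
  map_smul' _ _ := rfl
  left_inv _ := rfl
  right_inv _ := rfl

lemma MF_anti {Γ' : Subgroup SL(2, ℤ)} (h : Γ ≤ Γ') : MF Γ' k ≤ MF Γ k := fun _ hf =>
  ⟨hf.1, fun γ hγ => hf.2.1 γ (h hγ), hf.2.2⟩

lemma R_le_MF : R k ≤ MF Γ k := MF_anti le_top

lemma mul_mem_MF {k l : ℤ} {f g : ℍ → ℂ} (hf : f ∈ MF Γ k) (hg : g ∈ MF Γ l) :
    f * g ∈ MF Γ (k + l) :=
  ⟨hf.1.mul hg.1, fun γ hγ => by rw [ModularForm.mul_slash_SL2, hf.2.1 γ hγ, hg.2.1 γ hγ],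
    fun γ => by rw [ModularForm.mul_slash_SL2]; exact (hf.2.2 γ).mul (hg.2.2 γ)⟩

lemma mul_mem_CF {k l : ℤ} {f g : ℍ → ℂ} (hf : f ∈ MF Γ k) (hg : g ∈ CF Γ l) :
    f * g ∈ CF Γ (k + l) :=
  ⟨hf.1.mul hg.1, fun γ hγ => by rw [ModularForm.mul_slash_SL2, hf.2.1 γ hγ, hg.2.1 γ hγ],
    fun γ => by
      rw [ModularForm.mul_slash_SL2]; exact (hf.2.2 γ).mul_zeroAtFilter (hg.2.2 γ)⟩

/-- The coset space. Left cosets `g Γ`, with the left `SL(2,ℤ)`-action of Mathlib. -/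
abbrev Q (Γ : Subgroup SL(2, ℤ)) : Type := SL(2, ℤ) ⧸ Γ

/-- The conjugate `f ∣[k] g⁻¹` attached to the coset `q = g Γ`. -/
def vec (k : ℤ) (f : ℍ → ℂ) (q : Q Γ) : ℍ → ℂ := f ∣[k] (q.out)⁻¹

lemma vec_mk (hf : ∀ γ ∈ Γ, f ∣[k] γ = f) (g : SL(2, ℤ)) :
    vec k f (g : Q Γ) = f ∣[k] g⁻¹ := by
  unfold vec
  obtain ⟨γ, hγ⟩ : ∃ γ : Γ, (g : Q Γ).out = g * γ := QuotientGroup.mk_out_eq_mul Γ g
  rw [hγ, mul_inv_rev, SlashAction.slash_mul, hf _ (inv_mem γ.2)]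

lemma vec_slash (hf : ∀ γ ∈ Γ, f ∣[k] γ = f) (q : Q Γ) (h : SL(2, ℤ)) :
    vec k f q ∣[k] h = vec k f (h⁻¹ • q) := by
  induction q using QuotientGroup.induction_on with
  | H g =>
    rw [vec_mk hf, ← SlashAction.slash_mul, MulAction.Quotient.smul_coe, vec_mk hf]
    simp [mul_inv_rev]

lemma vec_one (hf : ∀ γ ∈ Γ, f ∣[k] γ = f) : vec k f ((1 : SL(2, ℤ)) : Q Γ) = f := by
  rw [vec_mk hf]; simp

end

end Fermat.Agent.S20

namespace Fermat.Agent.S20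

noncomputable section

open UpperHalfPlane ModularForm Matrix.SpecialLinearGroup
open scoped MatrixGroups ModularForm Manifold

/-- `E₄`, `E₆`, `Δ` as plain functions. -/
def E4 : ℍ → ℂ := ⇑ModularForm.E₄
def E6 : ℍ → ℂ := ⇑ModularForm.E₆
def Dl : ℍ → ℂ := ModularForm.discriminant

instance instFintypeQ (Γ : Subgroup SL(2, ℤ)) [Γ.FiniteIndex] : Fintype (Q Γ) := Fintype.ofFinite _
instance instDecEqQ (Γ : Subgroup SL(2, ℤ)) : DecidableEq (Q Γ) := Classical.decEq _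

variable {Γ : Subgroup SL(2, ℤ)}

/-- The matrix `Φ(z)`, rows = cosets `q`, columns = members `j` of a family of forms. -/
def Phi {ι : Type} (wt : ι → ℤ) (F : ι → ℍ → ℂ) (z : ℍ) : Matrix (Q Γ) ι ℂ :=
  Matrix.of fun q j => vec (wt j) (F j) q z

/-- A free homogeneous basis of `⨁ MF Γ w` over `⨁ R w`, indexed by the coset space itself. -/
structure IsFreeBasis (Γ : Subgroup SL(2, ℤ)) [Γ.FiniteIndex]
    (wt : Q Γ → ℤ) (F : Q Γ → ℍ → ℂ) : Prop where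
  mem : ∀ j, F j ∈ MF Γ (wt j)
  span : ∀ w, ∀ f ∈ MF Γ w, ∃ A : Q Γ → ℍ → ℂ, (∀ j, A j ∈ R (w - wt j)) ∧ f = ∑ j, A j * F j
  indep : ∀ w (A : Q Γ → ℍ → ℂ), (∀ j, A j ∈ R (w - wt j)) → ∑ j, A j * F j = 0 → ∀ j, A j = 0
  det_ne : ∃ z, (Phi (Γ := Γ) wt F z).det ≠ 0

/-- The trace pairing `∑_q f_q g_q`. -/
def trP (Γ : Subgroup SL(2, ℤ)) [Γ.FiniteIndex] (k l : ℤ) (f g : ℍ → ℂ) : ℍ → ℂ :=
  ∑ q : Q Γ, vec k f q * vec l g q

/-- The vector of `n`-th coefficients of the `q_M`-expansions (`q_M = exp (2πiz/M)`) of the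
conjugates of `f`. -/
def coef (M : ℕ) (w : ℤ) (f : ℍ → ℂ) (n : ℕ) : Q Γ → ℂ :=
  fun q => (qExpansion (M : ℝ) (vec w f q)).coeff n

/-- `ℓ(f) = ∑_{n<M} a_n(f)`. -/
def ell (M : ℕ) (w : ℤ) (f : ℍ → ℂ) : Q Γ → ℂ := ∑ n ∈ Finset.range M, coef M w f n

/-- The elliptic point `ρ = e^{2πi/3}`, fixed by `S * T`. -/
def rho : ℍ := ⟨-1 / 2 + (Real.sqrt 3 / 2 : ℝ) * Complex.I, by simp⟩

end

end Fermat.Agent.S20
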