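import Mathlib

set_option autoImplicit false

open UpperHalfPlane hiding I
open Filter Topology Complex Derivative
open scoped MatrixGroups Real Manifold

namespace Fermat.Agent.S20.SerreDet

local notation "Δ" => ModularForm.discriminant

/-! ### Boundedness of the derivative at `i∞` -/

/-- Cauchy estimate on the unit disc around a point of `ℍ` of imaginary part `> 1`. -/
lemma norm_deriv_le_of_bound {g : ℍ → ℂ} (hg : MDiff g) {A M : ℝ} (hA : 0 ≤ A)
    (hM : ∀ z : ℍ, A ≤ z.im → ‖g z‖ ≤ M) (z : ℍ) (hz : A + 2 ≤ z.im) :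
    ‖deriv (g ∘ ofComplex) z‖ ≤ M := by
  have hsub : Metric.closedBall (z : ℂ) 1 ⊆ {w : ℂ | 0 < w.im} := by
    intro w hw
    have h1 : |(w - z).im| ≤ 1 := (Complex.abs_im_le_norm _).trans (by simpa [dist_eq_norm] using hw)
    have h2 := (abs_le.mp h1).1
    have h3 : z.im = (z : ℂ).im := rfl
    simp only [Complex.sub_im] at h2
    show 0 < w.im
    linarith
  have hd : DiffContOnCl ℂ (g ∘ ofComplex) (Metric.ball (z : ℂ) 1) :=
    ((UpperHalfPlane.mdifferentiable_iff.mp hg)).diffContOnCl_ball hsub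
  have := Complex.norm_deriv_le_of_forall_mem_sphere_norm_le (c := (z : ℂ)) (R := 1) (C := M)
    one_pos hd (fun w hw => by
      have hw' : w ∈ Metric.closedBall (z : ℂ) 1 := Metric.sphere_subset_closedBall hw
      have hpos := hsub hw'
      have h1 : |(w - z).im| ≤ 1 :=
        (Complex.abs_im_le_norm _).trans (by simpa [dist_eq_norm] using hw')
      have h2 := (abs_le.mp h1).1
      have h3 : z.im = (z : ℂ).im := rfl
      simp only [Complex.sub_im] at h2
      rw [Function.comp_apply, ofComplex_apply_of_im_pos hpos]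
      apply hM
      show A ≤ w.im
      linarith)
  simpa using this

lemma norm_D_le (g : ℍ → ℂ) (z : ℍ) : ‖D g z‖ ≤ ‖deriv (g ∘ ofComplex) z‖ := by
  unfold normalizedDerivOfComplex
  rw [norm_mul]
  have : ‖(2 * (π : ℂ) * I)⁻¹‖ ≤ 1 := by
    rw [norm_inv, norm_mul, norm_mul, Complex.norm_I, mul_one]
    simp only [Complex.norm_ofNat, Complex.norm_real, Real.norm_eq_abs, abs_of_pos Real.pi_pos]
    apply inv_le_one_of_one_le₀
    nlinarith [Real.pi_gt_three]
  calc _ ≤ 1 * ‖deriv (g ∘ ofComplex) z‖ := by gcongr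
    _ = _ := one_mul _

theorem isBoundedAtImInfty_D {g : ℍ → ℂ} (hg : MDiff g) (hb : IsBoundedAtImInfty g) :
    IsBoundedAtImInfty (D g) := by
  rw [UpperHalfPlane.isBoundedAtImInfty_iff] at hb ⊢
  obtain ⟨M, A, h⟩ := hb
  refine ⟨M, max A 0 + 2, fun z hz => (norm_D_le g z).trans ?_⟩
  exact norm_deriv_le_of_bound hg (le_max_right A 0)
    (fun w hw => h w ((le_max_left A 0).trans hw)) z hz

theorem isZeroAtImInfty_D {g : ℍ → ℂ} (hg : MDiff g) (hb : IsZeroAtImInfty g) :
    IsZeroAtImInfty (D g) := by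
  rw [UpperHalfPlane.isZeroAtImInfty_iff] at hb ⊢
  intro ε hε
  obtain ⟨A, h⟩ := hb ε hε
  refine ⟨max A 0 + 2, fun z hz => (norm_D_le g z).trans ?_⟩
  exact norm_deriv_le_of_bound hg (le_max_right A 0)
    (fun w hw => h w ((le_max_left A 0).trans hw)) z hz

theorem isBoundedAtImInfty_serreDerivative {g : ℍ → ℂ} (k : ℂ) (hg : MDiff g)
    (hb : IsBoundedAtImInfty g) : IsBoundedAtImInfty (serreDerivative k g) := by
  have h1 := isBoundedAtImInfty_D hg hb
  have h2 : IsBoundedAtImInfty (fun z => k * 12⁻¹ * EisensteinSeries.E2 z * g z) := by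
    have h3 : IsBoundedAtImInfty (fun _ : ℍ => k * 12⁻¹) := Filter.const_boundedAtFilter _ _
    exact (h3.mul EisensteinSeries.isBoundedAtImInfty_E2).mul hb
  exact h1.sub h2

theorem isZeroAtImInfty_serreDerivative {g : ℍ → ℂ} (k : ℂ) (hg : MDiff g)
    (hb : IsZeroAtImInfty g) : IsZeroAtImInfty (serreDerivative k g) := by
  have h1 := isZeroAtImInfty_D hg hb
  have h2 : IsZeroAtImInfty (fun z => k * 12⁻¹ * EisensteinSeries.E2 z * g z) := by
    have h3 : IsBoundedAtImInfty (fun _ : ℍ => k * 12⁻¹) := Filter.const_boundedAtFilter _ _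
    have h4 := (h3.mul EisensteinSeries.isBoundedAtImInfty_E2)
    exact h4.mul_zeroAtFilter hb
  have h5 := Tendsto.sub h1 h2
  rw [sub_zero] at h5
  exact h5


/-! ### Derivative of a determinant (column expansion) -/

section Det

variable {n : Type*} [Fintype n] [DecidableEq n]

/-- Jacobi's formula, column version. -/
lemma hasDerivAt_det (M : n → n → ℂ → ℂ) (M' : n → n → ℂ) (z : ℂ)
    (h : ∀ x i, HasDerivAt (M x i) (M' x i) z) :
    HasDerivAt (fun w => (Matrix.of fun x i => M x i w).det)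
      (∑ i₀, ((Matrix.of fun x i => M x i z).updateCol i₀ (fun x => M' x i₀)).det) z := by
  have h1 : ∀ σ : Equiv.Perm n, HasDerivAt (fun w => ∏ i, M (σ i) i w)
      (∑ i₀, (∏ i ∈ Finset.univ.erase i₀, M (σ i) i z) • M' (σ i₀) i₀) z := fun σ =>
    HasDerivAt.fun_finsetProd (u := Finset.univ) (f := fun i w => M (σ i) i w)
      (f' := fun i => M' (σ i) i) (fun i _ => h (σ i) i)
  have h2 : HasDerivAt (fun w => ∑ σ : Equiv.Perm n, ((Equiv.Perm.sign σ : ℤ) : ℂ) *
      ∏ i, M (σ i) i w)
      (∑ σ : Equiv.Perm n, ((Equiv.Perm.sign σ : ℤ) : ℂ) *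
        ∑ i₀, (∏ i ∈ Finset.univ.erase i₀, M (σ i) i z) • M' (σ i₀) i₀) z :=
    HasDerivAt.fun_sum fun σ _ => (h1 σ).const_mul _
  convert h2 using 1
  · funext w
    rw [Matrix.det_apply']
    rfl
  · simp_rw [Matrix.det_apply']
    rw [Finset.sum_comm]
    refine Finset.sum_congr rfl fun σ _ => ?_
    rw [Finset.mul_sum]
    refine Finset.sum_congr rfl fun i₀ _ => ?_
    congr 1
    rw [← Finset.mul_prod_erase Finset.univ _ (Finset.mem_univ i₀)]
    rw [Matrix.updateCol_self, smul_eq_mul, mul_comm]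
    congr 1
    refine Finset.prod_congr rfl fun i hi => ?_
    rw [Matrix.updateCol_ne (Finset.ne_of_mem_erase hi)]
    rfl


/-- The determinant of a frame `f i x` (`i` = index of the form = column, `x` = component = row). -/
noncomputable def detFun (f : n → n → ℍ → ℂ) : ℍ → ℂ :=
  fun z => (Matrix.of fun x i => f i x z).det

lemma detFun_apply (f : n → n → ℍ → ℂ) (z : ℍ) :
    detFun f z = (Matrix.of fun x i => f i x z).det := rfl

variable {f : n → n → ℍ → ℂ}

lemma hasDerivAt_detFun (hf : ∀ i x, MDiff (f i x)) (z : ℍ) :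
    HasDerivAt (detFun f ∘ ofComplex)
      (∑ i₀, ((Matrix.of fun x i => f i x z).updateCol i₀
        (fun x => deriv (f i₀ x ∘ ofComplex) z)).det) z := by
  have := hasDerivAt_det (fun x i => f i x ∘ ofComplex)
    (fun x i => deriv (f i x ∘ ofComplex) z) z
    (fun x i => (UpperHalfPlane.mdifferentiableAt_iff.mp (hf i x z)).hasDerivAt)
  simp only [Function.comp_apply, ofComplex_apply] at this
  exact this

lemma mdiff_detFun (hf : ∀ i x, MDiff (f i x)) : MDiff (detFun f) := fun z =>
  UpperHalfPlane.mdifferentiableAt_iff.mpr (hasDerivAt_detFun hf z).differentiableAt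

lemma D_detFun (hf : ∀ i x, MDiff (f i x)) (z : ℍ) :
    D (detFun f) z = ∑ i₀, ((Matrix.of fun x i => f i x z).updateCol i₀
        (fun x => D (f i₀ x) z)).det := by
  unfold normalizedDerivOfComplex
  rw [(hasDerivAt_detFun hf z).deriv, Finset.mul_sum]
  refine Finset.sum_congr rfl fun i₀ _ => ?_
  rw [← Matrix.det_updateCol_smul]
  rfl

/-- Serre derivative of a determinant: column expansion. -/
theorem serreDerivative_detFun (k : n → ℂ) (hf : ∀ i x, MDiff (f i x)) (z : ℍ) :
    serreDerivative (∑ i, k i) (detFun f) z =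
      ∑ i₀, ((Matrix.of fun x i => f i x z).updateCol i₀
        (fun x => serreDerivative (k i₀) (f i₀ x) z)).det := by
  rw [serreDerivative_apply, D_detFun hf z]
  have key : ∀ i₀, ((Matrix.of fun x i => f i x z).updateCol i₀
        (fun x => serreDerivative (k i₀) (f i₀ x) z)).det =
      ((Matrix.of fun x i => f i x z).updateCol i₀ (fun x => D (f i₀ x) z)).det
        - k i₀ * 12⁻¹ * EisensteinSeries.E2 z * detFun f z := by
    intro i₀
    have h1 : (fun x => serreDerivative (k i₀) (f i₀ x) z) =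
        (fun x => D (f i₀ x) z) + (-(k i₀ * 12⁻¹ * EisensteinSeries.E2 z)) •
          (fun x => (Matrix.of fun x i => f i x z) x i₀) := by
      funext x
      simp only [serreDerivative_apply, Pi.add_apply, Pi.smul_apply, Matrix.of_apply, smul_eq_mul]
      ring
    rw [h1, Matrix.det_updateCol_add, Matrix.det_updateCol_smul, Matrix.updateCol_eq_self,
      detFun_apply]
    ring
  simp_rw [key]
  rw [Finset.sum_sub_distrib, ← Finset.sum_mul, ← Finset.sum_mul, ← Finset.sum_mul]

/-- If the Serre derivatives of the columns are combinations of the columns, the Serre derivative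
of the determinant is the trace of the coefficient matrix times the determinant. -/
theorem serreDerivative_detFun_of_eq (k : n → ℂ) (hf : ∀ i x, MDiff (f i x))
    (B : n → n → ℍ → ℂ)
    (hB : ∀ i₀ x z, serreDerivative (k i₀) (f i₀ x) z = ∑ i, B i₀ i z * f i x z) (z : ℍ) :
    serreDerivative (∑ i, k i) (detFun f) z = (∑ i, B i i z) * detFun f z := by
  rw [serreDerivative_detFun k hf z, Finset.sum_mul]
  refine Finset.sum_congr rfl fun i₀ _ => ?_
  have := Matrix.det_updateCol_sum (Matrix.of fun x i => f i x z) i₀ (fun i => B i₀ i z)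
  simp only [Matrix.of_apply, smul_eq_mul] at this
  rw [detFun_apply, ← this]
  congr 2
  funext x
  exact hB i₀ x z

end Det

/-! ### Functions killed by the Serre derivative -/

lemma hasDerivAt_discriminant (z : ℍ) :
    HasDerivAt (Δ ∘ ofComplex) (2 * π * I * EisensteinSeries.E2 z * Δ z) z := by
  have hz : (z : ℂ) ∈ upperHalfPlaneSet := z.im_pos
  have hη : DifferentiableAt ℂ ModularForm.eta z :=
    ModularForm.differentiableAt_eta_of_mem_upperHalfPlaneSet hz
  have hne : ModularForm.eta z ≠ 0 := ModularForm.eta_ne_zero hz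
  have hlog := ModularForm.logDeriv_eta_eq_E2 z
  rw [logDeriv_apply, div_eq_iff hne] at hlog
  have h1 : HasDerivAt (fun w => ModularForm.eta w ^ 24)
      (24 * ModularForm.eta z ^ 23 * deriv ModularForm.eta z) z := by
    have := hη.hasDerivAt.fun_pow 24
    simpa using this
  have h2 : (Δ ∘ ofComplex) =ᶠ[𝓝 (z : ℂ)] fun w => ModularForm.eta w ^ 24 := by
    filter_upwards [isOpen_upperHalfPlaneSet.mem_nhds hz] with w hw
    simp [ModularForm.discriminant, ofComplex_apply_of_im_pos hw]
  refine (h1.congr_of_eventuallyEq h2).congr_deriv ?_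
  rw [hlog, ModularForm.discriminant]
  ring

theorem pow_twelve_eq_const_mul_discriminant_zpow {f : ℍ → ℂ} (hf : MDiff f) (K : ℤ)
    (h : ∀ z, serreDerivative (K : ℂ) f z = 0) :
    ∃ c : ℂ, ∀ z : ℍ, f z ^ 12 = c * Δ z ^ K := by
  have h2pi : (2 * (π : ℂ) * I) ≠ 0 := Complex.two_pi_I_ne_zero
  -- derivative of `f`
  have hF : ∀ z : ℍ, HasDerivAt (f ∘ ofComplex)
      (2 * π * I * ((K : ℂ) * 12⁻¹ * EisensteinSeries.E2 z * f z)) z := by
    intro z
    have h1 := (UpperHalfPlane.mdifferentiableAt_iff.mp (hf z)).hasDerivAt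
    have h2 := h z
    rw [serreDerivative_apply, sub_eq_zero, normalizedDerivOfComplex] at h2
    rw [← h2, ← mul_assoc, mul_inv_cancel₀ h2pi, one_mul]
    exact h1
  set G : ℂ → ℂ := fun w => (f ∘ ofComplex) w ^ 12 * (Δ ∘ ofComplex) w ^ (-K) with hG
  have hGd : ∀ z : ℍ, HasDerivAt G 0 z := by
    intro z
    have hne : (Δ ∘ ofComplex) (z : ℂ) ≠ 0 := by
      simpa using ModularForm.discriminant_ne_zero z
    have h1 := (hF z).fun_pow 12
    have h2 := (hasDerivAt_zpow (-K) ((Δ ∘ ofComplex) (z : ℂ)) (Or.inl hne)).comp (z : ℂ)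
      (hasDerivAt_discriminant z)
    have h3 := h1.fun_mul h2
    refine h3.congr_deriv ?_
    simp only [Function.comp_apply, ofComplex_apply] at hne ⊢
    rw [zpow_sub_one₀ hne]
    field_simp
    push_cast
    ring
  have hconst : ∀ z : ℍ, G z = G UpperHalfPlane.I := by
    intro z
    apply isOpen_upperHalfPlaneSet.is_const_of_deriv_eq_zero
      (convex_halfSpace_im_gt 0).isPreconnected
      (fun w hw => (hGd ⟨w, hw⟩).differentiableAt.differentiableWithinAt)
      (fun w hw => (hGd ⟨w, hw⟩).deriv) z.im_pos UpperHalfPlane.I.im_pos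
  refine ⟨G UpperHalfPlane.I, fun z => ?_⟩
  rw [← hconst z]
  have hne := ModularForm.discriminant_ne_zero z
  simp only [hG, Function.comp_apply, ofComplex_apply]
  rw [mul_assoc, ← zpow_add₀ hne]
  simp

/-- A holomorphic function killed by a Serre derivative is nowhere zero or identically zero. -/
theorem ne_zero_of_serreDerivative_eq_zero {f : ℍ → ℂ} (hf : MDiff f) (K : ℤ)
    (h : ∀ z, serreDerivative (K : ℂ) f z = 0) {z₀ : ℍ} (h₀ : f z₀ ≠ 0) (z : ℍ) : f z ≠ 0 := by
  obtain ⟨c, hc⟩ := pow_twelve_eq_const_mul_discriminant_zpow hf K h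
  have hc0 : c ≠ 0 := by
    rintro rfl
    have := hc z₀
    rw [zero_mul] at this
    exact h₀ (pow_eq_zero_iff (by norm_num) |>.mp this)
  intro hz
  have := hc z
  rw [hz, zero_pow (by norm_num)] at this
  exact (mul_ne_zero hc0 (zpow_ne_zero _ (ModularForm.discriminant_ne_zero z))) this.symm

end Fermat.Agent.S20.SerreDet
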