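import Mathlib
import Fermat.Agent.S20.Defs
import Fermat.Agent.S20.SerreDet

set_option autoImplicit false

open UpperHalfPlane ModularForm Matrix.SpecialLinearGroup Derivative
open scoped MatrixGroups ModularForm Manifold

namespace Fermat.Agent.S20

variable {Γ : Subgroup SL(2, ℤ)} {k : ℤ} {f : ℍ → ℂ}

lemma mdiff_slash (hf : MDiff f) (γ : SL(2, ℤ)) : MDiff (f ∣[k] γ) :=
  hf.slash k (γ : GL (Fin 2) ℝ)

lemma mdiff_vec (hf : MDiff f) (q : Q Γ) : MDiff (vec k f q) := mdiff_slash hf _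

/-- The Serre derivative maps `MF Γ k` to `MF Γ (k + 2)`. -/
theorem serre_mem_MF (hf : f ∈ MF Γ k) : serreDerivative (k : ℂ) f ∈ MF Γ (k + 2) := by
  refine ⟨serreDerivative_mdifferentiable _ hf.1,
    fun γ hγ => serreDerivative_slash_invariant hf.1 (hf.2.1 γ hγ), fun γ => ?_⟩
  rw [serreDerivative_slash_equivariant hf.1]
  exact SerreDet.isBoundedAtImInfty_serreDerivative _ (mdiff_slash hf.1 γ) (hf.2.2 γ)

theorem serre_mem_CF (hf : f ∈ CF Γ k) : serreDerivative (k : ℂ) f ∈ CF Γ (k + 2) := by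
  refine ⟨serreDerivative_mdifferentiable _ hf.1,
    fun γ hγ => serreDerivative_slash_invariant hf.1 (hf.2.1 γ hγ), fun γ => ?_⟩
  rw [serreDerivative_slash_equivariant hf.1]
  exact SerreDet.isZeroAtImInfty_serreDerivative _ (mdiff_slash hf.1 γ) (hf.2.2 γ)

lemma vec_serre (hf : MDiff f) (q : Q Γ) :
    vec (k + 2) (serreDerivative (k : ℂ) f) q = serreDerivative (k : ℂ) (vec k f q) := by
  unfold vec
  exact serreDerivative_slash_equivariant hf

/-- `vec` of (level one form) * (function). -/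
lemma vec_mul_of_mem_R {a b w : ℤ} {A : ℍ → ℂ} (hA : A ∈ R a) (hw : w = a + b) (g : ℍ → ℂ)
    (q : Q Γ) : vec w (A * g) q = A * vec b g q := by
  subst hw
  unfold vec
  rw [ModularForm.mul_slash_SL2, hA.2.1 _ trivial]

lemma vec_finset_sum {ι : Type*} (s : Finset ι) (w : ℤ) (g : ι → ℍ → ℂ) (q : Q Γ) :
    vec w (∑ i ∈ s, g i) q = ∑ i ∈ s, vec w (g i) q := by
  classical
  unfold vec
  induction s using Finset.induction_on with
  | empty => simp
  | insert a s ha ih => rw [Finset.sum_insert ha, Finset.sum_insert ha, SlashAction.add_slash, ih]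

lemma eq_zero_of_mem_R_two {g : ℍ → ℂ} (hg : g ∈ R 2) : g = 0 := by
  have h0 : Module.rank ℂ (ModularForm 𝒮ℒ 2) = 0 := ModularForm.levelOne_weight_two_rank_zero
  have h1 : toLevelOne hg = 0 := by
    have := rank_zero_iff_forall_zero.mp h0
    exact this _
  have h2 : ⇑(toLevelOne hg) = g := rfl
  rw [← h2, h1]
  rfl

/-- The determinant of a free basis vanishes nowhere on `ℍ`. -/
theorem IsFreeBasis.det_ne_zero [Γ.FiniteIndex] {wt : Q Γ → ℤ} {F : Q Γ → ℍ → ℂ}
    (hB : IsFreeBasis Γ wt F) (z : ℍ) : (Phi (Γ := Γ) wt F z).det ≠ 0 := by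
  classical
  -- coefficients of the Serre derivatives
  have hex : ∀ i₀, ∃ A : Q Γ → ℍ → ℂ, (∀ j, A j ∈ R (wt i₀ + 2 - wt j)) ∧
      serreDerivative (wt i₀ : ℂ) (F i₀) = ∑ j, A j * F j := fun i₀ =>
    hB.span _ _ (serre_mem_MF (hB.mem i₀))
  choose B hBmem hBeq using hex
  have hBdiag : ∀ i, B i i = 0 := fun i => by
    apply eq_zero_of_mem_R_two
    have := hBmem i i
    rwa [show wt i + 2 - wt i = 2 by ring] at this
  set f : Q Γ → Q Γ → ℍ → ℂ := fun i x => vec (wt i) (F i) x with hf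
  have hfm : ∀ i x, MDiff (f i x) := fun i x => mdiff_vec (hB.mem i).1 x
  have hBf : ∀ i₀ x z, serreDerivative ((fun i => (wt i : ℂ)) i₀) (f i₀ x) z =
      ∑ i, B i₀ i z * f i x z := by
    intro i₀ x z
    simp only [hf]
    rw [← vec_serre (hB.mem i₀).1, hBeq i₀, vec_finset_sum]
    simp only [Finset.sum_apply]
    refine Finset.sum_congr rfl fun j _ => ?_
    rw [vec_mul_of_mem_R (b := wt j) (hBmem i₀ j) (by ring)]
    rfl
  have hzero : ∀ z, serreDerivative (((∑ i, wt i : ℤ)) : ℂ) (SerreDet.detFun f) z = 0 := by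
    intro z
    have := SerreDet.serreDerivative_detFun_of_eq (fun i => (wt i : ℂ)) hfm B hBf z
    rw [Int.cast_sum, this]
    simp [hBdiag]
  obtain ⟨z₀, hz₀⟩ := hB.det_ne
  exact SerreDet.ne_zero_of_serreDerivative_eq_zero (SerreDet.mdiff_detFun hfm) _ hzero
    (z₀ := z₀) hz₀ z

/-- More precisely `det Φ ^ 12 = c Δ ^ K` with `c ≠ 0`. -/
theorem IsFreeBasis.det_pow_twelve [Γ.FiniteIndex] {wt : Q Γ → ℤ} {F : Q Γ → ℍ → ℂ}
    (hB : IsFreeBasis Γ wt F) :
    ∃ c : ℂ, c ≠ 0 ∧ ∀ z : ℍ, (Phi (Γ := Γ) wt F z).det ^ 12 =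
      c * ModularForm.discriminant z ^ (∑ i, wt i) := by
  classical
  have hex : ∀ i₀, ∃ A : Q Γ → ℍ → ℂ, (∀ j, A j ∈ R (wt i₀ + 2 - wt j)) ∧
      serreDerivative (wt i₀ : ℂ) (F i₀) = ∑ j, A j * F j := fun i₀ =>
    hB.span _ _ (serre_mem_MF (hB.mem i₀))
  choose B hBmem hBeq using hex
  have hBdiag : ∀ i, B i i = 0 := fun i => by
    apply eq_zero_of_mem_R_two
    have := hBmem i i
    rwa [show wt i + 2 - wt i = 2 by ring] at this
  set f : Q Γ → Q Γ → ℍ → ℂ := fun i x => vec (wt i) (F i) x with hf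
  have hfm : ∀ i x, MDiff (f i x) := fun i x => mdiff_vec (hB.mem i).1 x
  have hBf : ∀ i₀ x z, serreDerivative ((fun i => (wt i : ℂ)) i₀) (f i₀ x) z =
      ∑ i, B i₀ i z * f i x z := by
    intro i₀ x z
    simp only [hf]
    rw [← vec_serre (hB.mem i₀).1, hBeq i₀, vec_finset_sum]
    simp only [Finset.sum_apply]
    refine Finset.sum_congr rfl fun j _ => ?_
    rw [vec_mul_of_mem_R (b := wt j) (hBmem i₀ j) (by ring)]
    rfl
  have hzero : ∀ z, serreDerivative (((∑ i, wt i : ℤ)) : ℂ) (SerreDet.detFun f) z = 0 := by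
    intro z
    have := SerreDet.serreDerivative_detFun_of_eq (fun i => (wt i : ℂ)) hfm B hBf z
    rw [Int.cast_sum, this]
    simp [hBdiag]
  obtain ⟨c, hc⟩ := SerreDet.pow_twelve_eq_const_mul_discriminant_zpow
    (SerreDet.mdiff_detFun hfm) _ hzero
  refine ⟨c, ?_, hc⟩
  rintro rfl
  obtain ⟨z₀, hz₀⟩ := hB.det_ne
  have := hc z₀
  rw [zero_mul] at this
  exact hz₀ (pow_eq_zero_iff (by norm_num) |>.mp this)

end Fermat.Agent.S20
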