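import Fermat.Agent.S20.Defs

/-!
# S20, task I1: `q_M`-expansions of the conjugates (owner: helper270)
-/

set_option autoImplicit false

open UpperHalfPlane ModularForm Matrix.SpecialLinearGroup Module
open scoped MatrixGroups ModularForm Manifold

namespace Fermat.Agent.S20

noncomputable section

local notation "𝕢" => Function.Periodic.qParam

/-- Slashing with `T ^ n` is translation by `n`. -/
lemma slash_T_zpow_apply (w : ℤ) (φ : ℍ → ℂ) (n : ℤ) (z : ℍ) :
    (φ ∣[w] (ModularGroup.T ^ n)) z = φ ((n : ℝ) +ᵥ z) := by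
  rw [ModularForm.SL_slash_apply, modular_T_zpow_smul]
  have : denom (toGL ((map (Int.castRingHom ℝ)) (ModularGroup.T ^ n))) (z : ℂ) = 1 := by
    simp only [denom]
    have h10 : (ModularGroup.T ^ n : SL(2,ℤ)) 1 0 = 0 := by
      rw [ModularGroup.coe_T_zpow]; rfl
    have h11 : (ModularGroup.T ^ n : SL(2,ℤ)) 1 1 = 1 := by
      rw [ModularGroup.coe_T_zpow]; rfl
    simp [-map_zpow, h10, h11]
  rw [this, one_zpow, mul_one]

/-- Slashing with `T` is translation by `1`. -/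
lemma slash_T_apply (w : ℤ) (φ : ℍ → ℂ) (z : ℍ) :
    (φ ∣[w] ModularGroup.T) z = φ ((1 : ℝ) +ᵥ z) := by
  simpa using slash_T_zpow_apply w φ 1 z

/-- A function invariant under translation by a real number gives a periodic function on `ℂ`. -/
lemma periodic_comp_ofComplex_of_vadd {φ : ℍ → ℂ} {h : ℝ} (hφ : ∀ z : ℍ, φ (h +ᵥ z) = φ z) :
    Function.Periodic (φ ∘ ofComplex) (h : ℂ) := by
  intro w
  by_cases hw : 0 < w.im
  · have hw' : 0 < (w + h).im := by simpa using hw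
    simp only [Function.comp_apply, ofComplex_apply_of_im_pos hw', ofComplex_apply_of_im_pos hw]
    rw [← hφ ⟨w, hw⟩]
    congr 1
    ext
    simp [add_comm]
  · have hw1 : w.im ≤ 0 := not_lt.mp hw
    have hw' : (w + h).im ≤ 0 := by simpa using hw1
    simp [ofComplex_apply_of_im_nonpos hw', ofComplex_apply_of_im_nonpos hw1]

/-- uniqueness of `q`-expansion coefficients, for plain functions -/
lemma qExpansion_coeff_unique_fun {h : ℝ} {φ : ℍ → ℂ} {c : ℕ → ℂ} (hh : 0 < h)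
    (han : AnalyticAt ℂ (cuspFunction h φ) 0)
    (hf : ∀ τ : ℍ, HasSum (fun m ↦ c m • 𝕢 h τ ^ m) (φ τ)) (m : ℕ) :
    c m = (qExpansion h φ).coeff m := by
  let _ : FunLike (ℍ → ℂ) ℍ ℂ := ⟨id, fun _ _ h => h⟩
  exact qExpansion_coeff_unique (F := ℍ → ℂ) φ hh han hf m

/-- decay versus vanishing of coefficients, for a single function and a real period -/
theorem isBigO_iff_coeff_real {h : ℝ} (hh : 0 < h) {φ : ℍ → ℂ}
    (hper : Function.Periodic (φ ∘ ofComplex) (h : ℂ))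
    (hhol : MDiff φ) (hbdd : IsBoundedAtImInfty φ) (m : ℕ) :
    (∀ n < m, (qExpansion h φ).coeff n = 0) ↔
      φ =O[atImInfty] fun τ => Real.exp (-2 * Real.pi * m * τ.im / h) := by
  have han : AnalyticAt ℂ (cuspFunction h φ) 0 := analyticAt_cuspFunction_zero hh hper hhol hbdd
  have hq := qParam_tendsto_atImInfty hh
  have hnorm : ∀ τ : ℍ, ‖(𝕢 h τ) ^ m‖ = Real.exp (-2 * Real.pi * m * τ.im / h) := by
    intro τ
    rw [norm_pow, Function.Periodic.norm_qParam, ← Real.exp_nat_mul]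
    congr 1
    simp only [coe_im]
    ring
  have hcoef : (∀ n < m, (qExpansion h φ).coeff n = 0) ↔
      (m : ℕ∞) ≤ analyticOrderAt (cuspFunction h φ) 0 := by
    rw [natCast_le_analyticOrderAt_iff_iteratedDeriv_eq_zero han]
    refine forall₂_congr fun n _ => ?_
    rw [qExpansion_coeff, mul_eq_zero]
    simp [Nat.factorial_ne_zero]
  rw [hcoef]
  constructor
  · intro hm
    obtain ⟨g, hg, hev⟩ := (natCast_le_analyticOrderAt han).mp hm
    have h1 : (fun τ : ℍ => g (𝕢 h τ)) =O[atImInfty] (fun _ => (1 : ℝ)) :=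
      (hg.continuousAt.tendsto.comp hq).isBigO_one ℝ
    have h2 : ∀ᶠ τ : ℍ in atImInfty, φ τ = (𝕢 h τ) ^ m * g (𝕢 h τ) := by
      filter_upwards [hq.eventually hev] with τ hτ
      rw [← eq_cuspFunction τ hh.ne' hper, hτ]
      simp
    have h3 : (fun τ : ℍ => (𝕢 h τ) ^ m) =O[atImInfty]
        fun τ => Real.exp (-2 * Real.pi * m * τ.im / h) := by
      refine Asymptotics.IsBigO.of_norm_left ?_
      simp_rw [hnorm]
      exact Asymptotics.isBigO_refl _ _
    have h4 := h3.mul h1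
    simp only [mul_one] at h4
    exact (Asymptotics.isBigO_congr h2 (Filter.EventuallyEq.refl _ _)).mpr h4
  · intro hO
    by_contra hlt
    rw [not_le] at hlt
    have hne : analyticOrderAt (cuspFunction h φ) 0 ≠ ⊤ := ne_top_of_lt hlt
    obtain ⟨n, hn⟩ := ENat.ne_top_iff_exists.mp hne
    rw [← hn] at hlt
    have hnm : n < m := by exact_mod_cast hlt
    obtain ⟨g, hg, hg0, hev⟩ := (han.analyticOrderAt_eq_natCast).mp hn.symm
    -- `g (q τ) = φ τ / q ^ n` is `O (|q| ^ (m - n))`, hence tends to `0`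
    have h2 : ∀ᶠ τ : ℍ in atImInfty, φ τ = (𝕢 h τ) ^ n * g (𝕢 h τ) := by
      filter_upwards [hq.eventually hev] with τ hτ
      rw [← eq_cuspFunction τ hh.ne' hper, hτ]
      simp
    obtain ⟨C, hC⟩ := hO.bound
    have h5 : ∀ᶠ τ : ℍ in atImInfty, ‖g (𝕢 h τ)‖ ≤ C * ‖(𝕢 h τ) ^ (m - n)‖ := by
      filter_upwards [h2, hC] with τ h2τ hCτ
      rw [h2τ, Real.norm_of_nonneg (Real.exp_pos _).le, ← hnorm τ, norm_mul,
        ← Nat.sub_add_cancel hnm.le, pow_add, norm_mul, ← mul_assoc, mul_comm] at hCτ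
      have hpos : 0 < ‖(𝕢 h τ) ^ n‖ := by
        rw [norm_pos_iff]
        exact pow_ne_zero _ (Function.Periodic.qParam_ne_zero _)
      exact le_of_mul_le_mul_right hCτ hpos
    have h6 : Filter.Tendsto (fun τ : ℍ => C * ‖(𝕢 h τ) ^ (m - n)‖) atImInfty (nhds 0) := by
      have : Filter.Tendsto (fun τ : ℍ => (𝕢 h τ) ^ (m - n)) atImInfty (nhds 0) := by
        have := hq.pow (m - n)
        rwa [zero_pow (Nat.sub_ne_zero_of_lt hnm)] at this
      simpa using (this.norm).const_mul C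
    have h7 : Filter.Tendsto (fun τ : ℍ => g (𝕢 h τ)) atImInfty (nhds 0) :=
      squeeze_zero_norm' h5 h6
    have h8 : Filter.Tendsto (fun τ : ℍ => g (𝕢 h τ)) atImInfty (nhds (g 0)) :=
      hg.continuousAt.tendsto.comp hq
    exact hg0 (tendsto_nhds_unique h8 h7)

lemma cuspFunction_zero_fun (h : ℝ) : cuspFunction h 0 = 0 := by
  simpa [cuspFunction, Function.Periodic.cuspFunction]
    using! (tendsto_const_nhds.mono_left nhdsWithin_le_nhds).limUnder_eq

/-- analyticity of the cusp function of a finite sum, and additivity of `q`-expansions -/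
lemma qExpansion_sum_aux {h : ℝ} {ι : Type} (s : Finset ι) (φ : ι → ℍ → ℂ)
    (hφ : ∀ i ∈ s, AnalyticAt ℂ (cuspFunction h (φ i)) 0) :
    AnalyticAt ℂ (cuspFunction h (∑ i ∈ s, φ i)) 0 ∧
      qExpansion h (∑ i ∈ s, φ i) = ∑ i ∈ s, qExpansion h (φ i) := by
  classical
  induction s using Finset.induction_on with
  | empty =>
    simp only [Finset.sum_empty, qExpansion_zero, and_true, cuspFunction_zero_fun]
    exact analyticAt_const
  | insert a s ha ih =>
    have h1 := hφ a (Finset.mem_insert_self a s)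
    obtain ⟨h2, h3⟩ := ih fun i hi => hφ i (Finset.mem_insert_of_mem hi)
    rw [Finset.sum_insert ha, Finset.sum_insert ha]
    refine ⟨?_, ?_⟩
    · rw [cuspFunction_add h1.continuousAt h2.continuousAt]
      exact h1.add h2
    · rw [qExpansion_add h1 h2, h3]

variable {Γ : Subgroup SL(2, ℤ)}

/-- conjugates of holomorphic functions are holomorphic (local copy) -/
lemma cc_vec_mdiff {k : ℤ} {f : ℍ → ℂ} (hf : MDiff f) (q : Q Γ) : MDiff (vec k f q) :=
  hf.slash k _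

lemma cc_vec_bdd {k : ℤ} {f : ℍ → ℂ} (hf : f ∈ MF Γ k) (q : Q Γ) :
    IsBoundedAtImInfty (vec k f q) := hf.2.2 _

section cusp

variable {M : ℕ} [NeZero M] (hM : ∀ q : Q Γ, (ModularGroup.T ^ M) • q = q)

lemma cc_M_pos : (0 : ℝ) < (M : ℝ) := by exact_mod_cast Nat.pos_of_ne_zero (NeZero.ne M)

include hM

omit [NeZero M] in
lemma vec_vadd_period {w : ℤ} {f : ℍ → ℂ} (hf : ∀ γ ∈ Γ, f ∣[w] γ = f) (q : Q Γ) (z : ℍ) :
    vec w f q ((M : ℝ) +ᵥ z) = vec w f q z := by
  have h1 := vec_slash hf q (ModularGroup.T ^ (M : ℤ))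
  have h2 : (ModularGroup.T ^ (M : ℤ))⁻¹ • q = q := by
    rw [inv_smul_eq_iff, zpow_natCast, hM]
  rw [h2] at h1
  have h3 := slash_T_zpow_apply w (vec w f q) (M : ℤ) z
  rw [h1] at h3
  simpa using h3.symm

omit [NeZero M] in
/-- I1 -/
theorem vec_periodic {w : ℤ} {f : ℍ → ℂ} (hf : ∀ γ ∈ Γ, f ∣[w] γ = f) (q : Q Γ) :
    Function.Periodic (vec w f q ∘ ofComplex) ((M : ℝ) : ℂ) :=
  periodic_comp_ofComplex_of_vadd (vec_vadd_period hM hf q)

theorem vec_analyticAt {w : ℤ} {f : ℍ → ℂ} (hf : f ∈ MF Γ w) (q : Q Γ) :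
    AnalyticAt ℂ (cuspFunction (M : ℝ) (vec w f q)) 0 :=
  analyticAt_cuspFunction_zero cc_M_pos (vec_periodic hM hf.2.1 q) (cc_vec_mdiff hf.1 q)
    (cc_vec_bdd hf q)

theorem hasSum_coef {w : ℤ} {f : ℍ → ℂ} (hf : f ∈ MF Γ w) (q : Q Γ) (τ : ℍ) :
    HasSum (fun n : ℕ => coef M w f n q • 𝕢 (M : ℝ) τ ^ n) (vec w f q τ) :=
  hasSum_qExpansion cc_M_pos (vec_periodic hM hf.2.1 q) (cc_vec_mdiff hf.1 q) (cc_vec_bdd hf q) τ

theorem coef_T {w : ℤ} {f : ℍ → ℂ} (hf : f ∈ MF Γ w) (n : ℕ) (q : Q Γ) :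
    coef M w f n (ModularGroup.T⁻¹ • q) =
      Complex.exp (2 * Real.pi * Complex.I * n / M) * coef M w f n q := by
  have key : ∀ τ : ℍ, HasSum (fun n : ℕ =>
      (Complex.exp (2 * Real.pi * Complex.I * n / M) * coef M w f n q) • 𝕢 (M : ℝ) τ ^ n)
      (vec w f (ModularGroup.T⁻¹ • q) τ) := by
    intro τ
    have h1 : vec w f (ModularGroup.T⁻¹ • q) τ = vec w f q ((1 : ℝ) +ᵥ τ) := by
      rw [← vec_slash hf.2.1, slash_T_apply]
    rw [h1]
    convert hasSum_coef hM hf q ((1 : ℝ) +ᵥ τ) using 2 with n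
    have h2 : 𝕢 (M : ℝ) (((1 : ℝ) +ᵥ τ : ℍ) : ℂ) =
        Complex.exp (2 * Real.pi * Complex.I / M) * 𝕢 (M : ℝ) τ := by
      simp only [Function.Periodic.qParam, coe_vadd, ← Complex.exp_add]
      congr 1
      push_cast
      ring
    rw [h2, mul_pow, ← Complex.exp_nat_mul, smul_eq_mul, smul_eq_mul]
    have h3 : (n : ℂ) * (2 * Real.pi * Complex.I / M) = 2 * Real.pi * Complex.I * n / M := by ring
    rw [h3]
    ring
  exact (qExpansion_coeff_unique_fun cc_M_pos (vec_analyticAt hM hf _) key n).symm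

omit hM in
/-- decay versus vanishing of coefficients, for a single function -/
theorem isBigO_iff_coeff {φ : ℍ → ℂ} (hper : Function.Periodic (φ ∘ ofComplex) ((M : ℝ) : ℂ))
    (hhol : MDiff φ) (hbdd : IsBoundedAtImInfty φ) (m : ℕ) :
    (∀ n < m, (qExpansion (M : ℝ) φ).coeff n = 0) ↔
      φ =O[atImInfty] fun τ => Real.exp (-2 * Real.pi * m * τ.im / M) :=
  isBigO_iff_coeff_real cc_M_pos hper hhol hbdd m

omit [NeZero M] hM in
lemma cc_vec_add (k : ℤ) (f g : ℍ → ℂ) (q : Q Γ) :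
    vec k (f + g) q = vec k f q + vec k g q := SlashAction.add_slash _ _ _ _

omit [NeZero M] hM in
lemma cc_vec_smul (k : ℤ) (c : ℂ) (f : ℍ → ℂ) (q : Q Γ) :
    vec k (c • f) q = c • vec k f q := ModularForm.SL_smul_slash _ _ _ _

theorem coef_add {w : ℤ} {f g : ℍ → ℂ} (hf : f ∈ MF Γ w) (hg : g ∈ MF Γ w) (n : ℕ) :
    coef (Γ := Γ) M w (f + g) n = coef M w f n + coef M w g n := by
  funext q
  simp only [coef, Pi.add_apply, cc_vec_add]
  rw [qExpansion_add (vec_analyticAt hM hf q) (vec_analyticAt hM hg q), map_add]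

theorem coef_smul {w : ℤ} {f : ℍ → ℂ} (hf : f ∈ MF Γ w) (c : ℂ) (n : ℕ) :
    coef (Γ := Γ) M w (c • f) n = c • coef M w f n := by
  funext q
  simp only [coef, Pi.smul_apply, cc_vec_smul]
  rw [qExpansion_smul (vec_analyticAt hM hf q), PowerSeries.coeff_smul]

omit [NeZero M] hM in
theorem coef_zero_fun (w : ℤ) (n : ℕ) : coef (Γ := Γ) M w 0 n = 0 := by
  funext q
  have : vec w (0 : ℍ → ℂ) q = 0 := SlashAction.zero_slash _ _
  simp [coef, this, qExpansion_zero]

theorem ell_add {w : ℤ} {f g : ℍ → ℂ} (hf : f ∈ MF Γ w) (hg : g ∈ MF Γ w) :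
    ell (Γ := Γ) M w (f + g) = ell M w f + ell M w g := by
  simp only [ell, coef_add hM hf hg, Finset.sum_add_distrib]

theorem ell_smul {w : ℤ} {f : ℍ → ℂ} (hf : f ∈ MF Γ w) (c : ℂ) :
    ell (Γ := Γ) M w (c • f) = c • ell M w f := by
  simp only [ell, coef_smul hM hf, Finset.smul_sum]

/-- the zeroth coefficient is the value at infinity -/
theorem coef_zero_eq {w : ℤ} {f : ℍ → ℂ} (hf : f ∈ MF Γ w) (q : Q Γ) :
    coef M w f 0 q = valueAtInfty (vec w f q) :=
  qExpansion_coeff_zero cc_M_pos (vec_analyticAt hM hf q) (vec_periodic hM hf.2.1 q)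

/-- the conjugate tends to its zeroth coefficient -/
theorem tendsto_vec_coef_zero {w : ℤ} {f : ℍ → ℂ} (hf : f ∈ MF Γ w) (q : Q Γ) :
    Filter.Tendsto (vec w f q) atImInfty (nhds (coef M w f 0 q)) := by
  have h1 : coef M w f 0 q = cuspFunction (M : ℝ) (vec w f q) 0 := by
    simp [coef, qExpansion_coeff]
  have h2 : (cuspFunction (M : ℝ) (vec w f q) ∘ fun τ : ℍ ↦ 𝕢 (M : ℝ) τ) = vec w f q := by
    funext τ
    simpa using eq_cuspFunction τ (cc_M_pos (M := M)).ne' (vec_periodic hM hf.2.1 q)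
  rw [h1]
  simpa [h2] using (vec_analyticAt hM hf q).continuousAt.tendsto.comp
    (qParam_tendsto_atImInfty (cc_M_pos (M := M)))

theorem isZeroAtImInfty_vec_iff {w : ℤ} {f : ℍ → ℂ} (hf : f ∈ MF Γ w) (q : Q Γ) :
    IsZeroAtImInfty (vec w f q) ↔ coef M w f 0 q = 0 := by
  constructor
  · intro h
    exact tendsto_nhds_unique (tendsto_vec_coef_zero hM hf q) h
  · intro h
    have := tendsto_vec_coef_zero hM hf q
    rwa [h] at this

/-- decay of a conjugate versus vanishing of its coefficients -/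
theorem vec_isBigO_iff_coef {w : ℤ} {f : ℍ → ℂ} (hf : f ∈ MF Γ w) (q : Q Γ) (m : ℕ) :
    (∀ n < m, coef M w f n q = 0) ↔
      vec w f q =O[atImInfty] fun τ => Real.exp (-2 * Real.pi * m * τ.im / M) :=
  isBigO_iff_coeff (vec_periodic hM hf.2.1 q) (cc_vec_mdiff hf.1 q) (cc_vec_bdd hf q) m

theorem coeff_trP [Γ.FiniteIndex] {w w' : ℤ} {f g : ℍ → ℂ} (hf : f ∈ MF Γ w) (hg : g ∈ MF Γ w')
    (n : ℕ) :
    (qExpansion (M : ℝ) (trP Γ w w' f g)).coeff n =
      ∑ p ∈ Finset.HasAntidiagonal.antidiagonal n,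
        ∑ q : Q Γ, coef M w f p.1 q * coef M w' g p.2 q := by
  have h1 : ∀ q ∈ (Finset.univ : Finset (Q Γ)),
      AnalyticAt ℂ (cuspFunction (M : ℝ) (vec w f q * vec w' g q)) 0 := by
    intro q _
    rw [cuspFunction_mul (vec_analyticAt hM hf q).continuousAt (vec_analyticAt hM hg q).continuousAt]
    exact (vec_analyticAt hM hf q).mul (vec_analyticAt hM hg q)
  unfold trP
  rw [(qExpansion_sum_aux _ _ h1).2, map_sum, Finset.sum_comm]
  refine Finset.sum_congr rfl fun q _ => ?_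
  rw [qExpansion_mul (vec_analyticAt hM hf q) (vec_analyticAt hM hg q), PowerSeries.coeff_mul]
  rfl

end cusp

end

end Fermat.Agent.S20
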