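import Fermat.Agent.S20.Defs

/-!
# S20: facts on level one forms `R k` (owner: helper260)
-/

set_option autoImplicit false

open UpperHalfPlane ModularForm Matrix.SpecialLinearGroup Filter Topology
open scoped MatrixGroups ModularForm Manifold

namespace Fermat.Agent.S20.LevelOne

noncomputable section

variable {k : ℤ} {g : ℍ → ℂ}

lemma E4_mem : E4 ∈ R 4 := coe_mem_R ModularForm.E₄
lemma E6_mem : E6 ∈ R 6 := coe_mem_R ModularForm.E₆
lemma Dl_mem : Dl ∈ R 12 := by
  have := coe_mem_R (k := 12) (CuspForm.toModularFormₗ CuspForm.discriminant)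
  exact this

lemma Dl_ne_zero (z : ℍ) : Dl z ≠ 0 := discriminant_ne_zero z

lemma Dl_eq (z : ℍ) : Dl z = (E4 z ^ 3 - E6 z ^ 2) / 1728 := by
  exact discriminant_eq_E₄_cube_sub_E₆_sq z

lemma R_eq_bot_of_neg (hk : k < 0) : R k = ⊥ := by
  rw [eq_bot_iff]
  intro g hg
  exact ModularFormClass.levelOne_neg_weight_eq_zero hk (toLevelOne hg)

lemma R_eq_bot_of_odd (hk : Odd k) : R k = ⊥ := by
  rw [eq_bot_iff]
  intro g hg
  have := ModularForm.levelOne_odd_weight_eq_zero hk (toLevelOne hg)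
  have h2 := congrArg (fun F : ModularForm 𝒮ℒ k => (F : ℍ → ℂ)) this
  simpa using h2

lemma R_two_eq_bot : R 2 = ⊥ := by
  rw [eq_bot_iff]
  intro g hg
  have h := ModularForm.levelOne_weight_two_rank_zero
  rw [rank_zero_iff_forall_zero] at h
  have h2 := congrArg (fun F : ModularForm 𝒮ℒ 2 => (F : ℍ → ℂ)) (h (toLevelOne hg))
  simpa using h2

lemma const_mem_R_zero (c : ℂ) : (fun _ => c : ℍ → ℂ) ∈ R 0 :=
  coe_mem_R (ModularForm.const c)

lemma one_mem_R_zero : (1 : ℍ → ℂ) ∈ R 0 := const_mem_R_zero 1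

lemma exists_const_of_mem_R_zero (hg : g ∈ R 0) : ∃ c : ℂ, g = fun _ => c := by
  obtain ⟨c, hc⟩ := ModularFormClass.levelOne_weight_zero_const (toLevelOne hg)
  exact ⟨c, hc⟩

lemma tendsto_of_mem_R (hg : g ∈ R k) : Tendsto g atImInfty (𝓝 (valueAtInfty g)) := by
  set F := toLevelOne hg
  have hanal := ModularFormClass.analyticAt_cuspFunction_zero F one_pos one_mem_strictPeriods_SL
  have h1 : Tendsto g atImInfty (𝓝 (cuspFunction 1 F 0)) :=
    (hanal.continuousAt.tendsto.comp (qParam_tendsto_atImInfty one_pos)).congr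
      (fun τ ↦ SlashInvariantFormClass.eq_cuspFunction F τ one_mem_strictPeriods_SL one_ne_zero)
  have h2 : valueAtInfty g = cuspFunction 1 F 0 := h1.limUnder_eq
  rw [h2]; exact h1

lemma valueAtInfty_eq_coeff_zero (F : ModularForm 𝒮ℒ k) :
    valueAtInfty F = (qExpansion 1 F).coeff 0 :=
  (qExpansion_coeff_zero one_pos
      (ModularFormClass.analyticAt_cuspFunction_zero F one_pos one_mem_strictPeriods_SL)
      (SlashInvariantFormClass.periodic_comp_ofComplex F one_mem_strictPeriods_SL)).symm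

lemma tendsto_E4 : Tendsto E4 atImInfty (𝓝 1) := by
  have h := tendsto_of_mem_R E4_mem
  have h2 : valueAtInfty E4 = 1 := by
    rw [E4, valueAtInfty_eq_coeff_zero]
    exact EisensteinSeries.E_qExpansion_coeff_zero _ ⟨2, rfl⟩
  rwa [h2] at h

lemma tendsto_E6 : Tendsto E6 atImInfty (𝓝 1) := by
  have h := tendsto_of_mem_R E6_mem
  have h2 : valueAtInfty E6 = 1 := by
    rw [E6, valueAtInfty_eq_coeff_zero]
    exact EisensteinSeries.E_qExpansion_coeff_zero _ ⟨3, rfl⟩
  rwa [h2] at h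

lemma tendsto_Dl : Tendsto Dl atImInfty (𝓝 0) := discriminant_isZeroAtImInfty

/-- A level one form vanishing at infinity is divisible by `Δ`. -/
lemma exists_eq_Dl_mul (hg : g ∈ R k) (h0 : Tendsto g atImInfty (𝓝 0)) :
    ∃ s ∈ R (k - 12), g = Dl * s := by
  let G : CuspForm 𝒮ℒ k :=
    { toLevelOne hg with
      zero_at_cusps' := by
        intro c hc
        rw [OnePoint.isZeroAt_iff_forall_SL2Z hc]
        intro γ _
        have : (g ∣[k] γ) = g := hg.2.1 γ trivial
        change IsZeroAtImInfty (g ∣[k] γ)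
        rw [this]
        exact h0 }
  refine ⟨CuspForm.discriminantEquiv G, coe_mem_R _, ?_⟩
  ext z
  have := discriminant_mul_discriminantEquiv_apply G z
  exact this.symm

/-- monomials in `E4`, `E6` with limit one, lying in the ideal `(E4, E6)`. -/
lemma exists_H : ∀ n : ℕ, ∃ H ∈ R (2 * (n : ℤ) + 4), Tendsto H atImInfty (𝓝 1) ∧
    ∃ a ∈ R (2 * (n : ℤ) + 4 - 4), ∃ b ∈ R (2 * (n : ℤ) + 4 - 6), H = E4 * a + E6 * b := by
  intro n
  induction n using Nat.strong_induction_on with
  | _ n ih =>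
    match n, ih with
    | 0, _ =>
      refine ⟨E4, by simpa using E4_mem, tendsto_E4, 1, by simpa using one_mem_R_zero, 0,
        Submodule.zero_mem _, by simp⟩
    | 1, _ =>
      refine ⟨E6, by simpa using E6_mem, tendsto_E6, 0, Submodule.zero_mem _, 1,
        by simpa using one_mem_R_zero, by simp⟩
    | (m + 2), ih =>
      obtain ⟨H, hH, hlim, -⟩ := ih m (by omega)
      have hl : Tendsto (E4 * H) atImInfty (𝓝 1) := by
        have := tendsto_E4.mul hlim
        rw [one_mul] at this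
        exact this
      refine ⟨E4 * H, ?_, hl, H, ?_, 0, Submodule.zero_mem _, by simp⟩
      · have := mul_mem_MF E4_mem hH
        convert this using 2
        push_cast; ring
      · convert hH using 2
        push_cast; ring

lemma exists_H' (hk : 4 ≤ k) (he : Even k) : ∃ H ∈ R k, Tendsto H atImInfty (𝓝 1) ∧
    ∃ a ∈ R (k - 4), ∃ b ∈ R (k - 6), H = E4 * a + E6 * b := by
  obtain ⟨m, hm⟩ := he
  obtain ⟨n, hn⟩ : ∃ n : ℕ, k = 2 * (n : ℤ) + 4 := ⟨(m - 2).toNat, by omega⟩
  subst hn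
  exact exists_H n

/-- every level one form of nonzero weight lies in the ideal `(E4, E6)`. -/
lemma exists_decomp (hk : k ≠ 0) (hg : g ∈ R k) :
    ∃ a ∈ R (k - 4), ∃ b ∈ R (k - 6), g = E4 * a + E6 * b := by
  have triv : g = 0 → ∃ a ∈ R (k - 4), ∃ b ∈ R (k - 6), g = E4 * a + E6 * b := fun h =>
    ⟨0, Submodule.zero_mem _, 0, Submodule.zero_mem _, by simp [h]⟩
  rcases lt_or_ge k 0 with hneg | hpos
  · rw [R_eq_bot_of_neg hneg] at hg
    exact triv hg
  rcases Int.even_or_odd k with he | ho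
  swap
  · rw [R_eq_bot_of_odd ho] at hg
    exact triv hg
  by_cases h2 : k = 2
  · subst h2
    rw [R_two_eq_bot] at hg
    exact triv hg
  have h4 : 4 ≤ k := by
    obtain ⟨m, hm⟩ := he
    omega
  obtain ⟨H, hH, hlim, a, ha, b, hb, hHab⟩ := exists_H' h4 he
  set c := valueAtInfty g
  have hsub : g - c • H ∈ R k := Submodule.sub_mem _ hg (Submodule.smul_mem _ _ hH)
  have hlim0 : Tendsto (g - c • H) atImInfty (𝓝 0) := by
    have := (tendsto_of_mem_R hg).sub (hlim.const_smul c)
    rw [smul_eq_mul, mul_one, sub_self] at this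
    exact this
  obtain ⟨s, hs, hgs⟩ := exists_eq_Dl_mul hsub hlim0
  refine ⟨c • a + (1 / 1728 : ℂ) • (E4 * E4 * s), ?_, c • b - (1 / 1728 : ℂ) • (E6 * s), ?_, ?_⟩
  · refine Submodule.add_mem _ (Submodule.smul_mem _ _ ha) (Submodule.smul_mem _ _ ?_)
    have := mul_mem_MF (mul_mem_MF E4_mem E4_mem) hs
    convert this using 2
    ring
  · refine Submodule.sub_mem _ (Submodule.smul_mem _ _ hb) (Submodule.smul_mem _ _ ?_)
    have := mul_mem_MF E6_mem hs
    convert this using 2
    ring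
  · have h1 : g = c • H + Dl * s := by rw [← hgs]; ring
    rw [h1, hHab]
    ext z
    simp only [Pi.add_apply, Pi.smul_apply, Pi.mul_apply, Pi.sub_apply, smul_eq_mul, Dl_eq]
    ring

lemma finrank_R_of_neg (hk : k < 0) : Module.finrank ℂ (R k) = 0 := by
  rw [R_eq_bot_of_neg hk]; exact finrank_bot ℂ _

lemma finrank_R_of_odd (hk : Odd k) : Module.finrank ℂ (R k) = 0 := by
  rw [R_eq_bot_of_odd hk]; exact finrank_bot ℂ _

lemma finrank_R_nat (n : ℕ) (he : Even n) :
    Module.finrank ℂ (R (n : ℤ)) = if n % 12 = 2 then n / 12 else n / 12 + 1 := by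
  rw [← (Requiv (n : ℤ)).finrank_eq]
  have h := ModularForm.dimension_level_one n he
  unfold Module.finrank
  rw [h]
  simp only [Nat.ModEq, Cardinal.toNat_natCast]
  norm_num

instance finiteDimensional_R (k : ℤ) : FiniteDimensional ℂ (R k) :=
  LinearEquiv.finiteDimensional (Requiv k)

lemma finrank_R_zero : Module.finrank ℂ (R 0) = 1 := by
  have := finrank_R_nat 0 (by simp)
  simpa using this

end

end Fermat.Agent.S20.LevelOne
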