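import Fermat.Agent.S20.BasicB
import Fermat.Agent.S20.LevelOne
import Fermat.Agent.S20.SerreDet
import Fermat.Agent.S20.CuspCoef

/-!
# S20, Task J (helper20): the dual basis `Δ Φ⁻ᵀ` consists of cusp forms; `finrank CF`.
The local duality lemma at the cusps enters as an explicit hypothesis `hLD`.
-/

set_option autoImplicit false

open UpperHalfPlane ModularForm Matrix.SpecialLinearGroup Module
open scoped MatrixGroups ModularForm Manifold

namespace Fermat.Agent.S20.DualA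
open Fermat.Agent.S20 Fermat.Agent.S20.B Fermat.Agent.S20.LevelOne

noncomputable section

variable {Γ : Subgroup SL(2, ℤ)} [Γ.FiniteIndex]

/-- entries of the inverse matrix -/
def psi (wt : Q Γ → ℤ) (F : Q Γ → ℍ → ℂ) (j q : Q Γ) : ℍ → ℂ :=
  fun z => ((Phi (Γ := Γ) wt F z)⁻¹) j q

/-- entries of the adjugate matrix -/
def adj (wt : Q Γ → ℤ) (F : Q Γ → ℍ → ℂ) (j q : Q Γ) : ℍ → ℂ :=
  fun z => ((Phi (Γ := Γ) wt F z).adjugate) j q

variable {wt : Q Γ → ℤ} {F : Q Γ → ℍ → ℂ}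

lemma Phi_apply (z : ℍ) (q j : Q Γ) : Phi (Γ := Γ) wt F z q j = vec (wt j) (F j) q z := rfl

lemma psi_eq (j q : Q Γ) (z : ℍ) :
    psi wt F j q z = (Phi (Γ := Γ) wt F z).det⁻¹ * adj wt F j q z := by
  unfold psi adj
  rw [Matrix.inv_def, Matrix.smul_apply, Ring.inverse_eq_inv', smul_eq_mul]

lemma adj_eq_detFun (j q : Q Γ) :
    adj wt F j q = SerreDet.detFun
      (fun i x => if x = q then (fun _ => (Pi.single j (1 : ℂ) : Q Γ → ℂ) i)
        else vec (wt i) (F i) x) := by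
  funext z
  unfold adj
  rw [Matrix.adjugate_apply, SerreDet.detFun_apply]
  congr 1
  ext x i
  by_cases hx : x = q
  · subst hx; simp
  · simp [hx, Phi_apply]

lemma detFun_bdd {n : Type} [Fintype n] [DecidableEq n] {f : n → n → ℍ → ℂ}
    (hf : ∀ i x, IsBoundedAtImInfty (f i x)) : IsBoundedAtImInfty (SerreDet.detFun f) := by
  have h : SerreDet.detFun f = ∑ σ : Equiv.Perm n, ((Equiv.Perm.sign σ : ℤ) : ℂ) •
      ∏ i, f i (σ i) := by
    funext z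
    rw [SerreDet.detFun_apply, Matrix.det_apply']
    simp [Finset.sum_apply, Finset.prod_apply]
  rw [h]
  change _ ∈ boundedAtImInftySubalgebra ℂ
  exact Subalgebra.sum_mem _ fun σ _ => Subalgebra.smul_mem _
    (Subalgebra.prod_mem _ fun i _ => hf i (σ i)) _

lemma adj_mdiff (hF : ∀ j, F j ∈ MF Γ (wt j)) (j q : Q Γ) : MDiff (adj wt F j q) := by
  rw [adj_eq_detFun]
  refine SerreDet.mdiff_detFun fun i x => ?_
  split_ifs
  · exact mdifferentiable_const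
  · exact vec_mdiff (hF i).1 x

lemma adj_bdd (hF : ∀ j, F j ∈ MF Γ (wt j)) (j q : Q Γ) : IsBoundedAtImInfty (adj wt F j q) := by
  rw [adj_eq_detFun]
  refine detFun_bdd fun i x => ?_
  split_ifs
  · exact Filter.const_boundedAtFilter _ _
  · exact vec_bdd (hF i) x

lemma det_mdiff (hF : ∀ j, F j ∈ MF Γ (wt j)) :
    MDiff (fun z => (Phi (Γ := Γ) wt F z).det) :=
  SerreDet.mdiff_detFun (f := fun i x => vec (wt i) (F i) x) fun i x => vec_mdiff (hF i).1 x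

lemma psi_mdiff (hF : ∀ j, F j ∈ MF Γ (wt j)) (hdet : ∀ z, (Phi (Γ := Γ) wt F z).det ≠ 0)
    (j q : Q Γ) : MDiff (psi wt F j q) := by
  have h : psi wt F j q = fun z => adj wt F j q z / (Phi (Γ := Γ) wt F z).det := by
    funext z; rw [psi_eq, div_eq_inv_mul]
  rw [h]
  exact (adj_mdiff hF j q).div (det_mdiff hF) hdet

/-- `Φ(h • z) = P_h Φ(z) D`. -/
lemma Phi_smul (hF : ∀ j, F j ∈ MF Γ (wt j)) (h : SL(2, ℤ)) (z : ℍ) :
    Phi (Γ := Γ) wt F (h • z) =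
      ((Phi (Γ := Γ) wt F z).submatrix (MulAction.toPerm h⁻¹ : Equiv.Perm (Q Γ)) (Equiv.refl _)) *
        Matrix.diagonal (fun j => denom h z ^ (wt j)) := by
  ext q j
  rw [Matrix.mul_diagonal, Matrix.submatrix_apply, Phi_apply, Phi_apply]
  have := congrFun (vec_slash (hF j).2.1 q h) z
  rw [ModularForm.SL_slash_apply] at this
  simp only [MulAction.toPerm_apply, Equiv.refl_apply]
  rw [← this, mul_assoc, ← zpow_add₀ (denom_ne_zero _ z)]
  simp

lemma psi_smul (hF : ∀ j, F j ∈ MF Γ (wt j)) (h : SL(2, ℤ)) (z : ℍ) (j q : Q Γ) :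
    psi wt F j q (h • z) = denom h z ^ (-wt j) * psi wt F j (h⁻¹ • q) z := by
  unfold psi
  rw [Phi_smul hF, Matrix.mul_inv_rev, Matrix.inv_submatrix_equiv, Matrix.inv_diagonal,
    Matrix.diagonal_mul, Matrix.submatrix_apply]
  congr 1
  have hc : denom h z ≠ 0 := denom_ne_zero _ z
  have hu : IsUnit (fun j => denom h z ^ wt j : Q Γ → ℂ) := by
    rw [Pi.isUnit_iff]; intro j; exact (zpow_ne_zero _ hc).isUnit
  have h1 := congrFun (Ring.inverse_mul_cancel _ hu) j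
  simp only [Pi.mul_apply, Pi.one_apply] at h1
  rw [zpow_neg]
  exact eq_inv_of_mul_eq_one_left h1

lemma psi_slash (hF : ∀ j, F j ∈ MF Γ (wt j)) (h : SL(2, ℤ)) (j q : Q Γ) :
    psi wt F j q ∣[-wt j] h = psi wt F j (h⁻¹ • q) := by
  funext z
  rw [ModularForm.SL_slash_apply, psi_smul hF, mul_comm, ← mul_assoc,
    ← zpow_add₀ (denom_ne_zero _ z)]
  simp

lemma Dl_mem_R : Dl ∈ R 12 := LevelOne.Dl_mem

lemma Dl_mem_CF : Dl ∈ CF ⊤ 12 :=
  ⟨Dl_mem_R.1, Dl_mem_R.2.1, fun γ => by rw [Dl_mem_R.2.1 γ trivial]; exact tendsto_Dl⟩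

lemma const_mem_R (c : ℂ) : (fun _ => c : ℍ → ℂ) ∈ R 0 := const_mem_R_zero c

lemma CF_top {k : ℤ} {f : ℍ → ℂ} (hf : f ∈ CF ⊤ k) : ∃ g ∈ R (k - 12), f = Dl * g :=
  exists_eq_Dl_mul (CF_le_MF hf) (by
    have h : IsZeroAtImInfty f := by simpa using hf.2.2 1
    exact h)

lemma Dl_pow_mem_R (n : ℕ) : Dl ^ n ∈ R (12 * n) := by
  induction n with
  | zero =>
    have : (Dl ^ 0 : ℍ → ℂ) = fun _ => 1 := by funext z; simp
    rw [this]; simpa using const_mem_R 1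
  | succ n ih =>
    have := mul_mem_MF ih Dl_mem_R
    rw [pow_succ]
    convert this using 2
    push_cast; ring

lemma isZero_of_pow {f : ℍ → ℂ} {m : ℕ} (hm : m ≠ 0) (h : IsZeroAtImInfty (f ^ m)) :
    IsZeroAtImInfty f := by
  rw [isZeroAtImInfty_iff] at h ⊢
  intro ε hε
  obtain ⟨A, hA⟩ := h (ε ^ m) (pow_pos hε m)
  refine ⟨A, fun z hz => ?_⟩
  have := hA z hz
  rw [Pi.pow_apply, norm_pow] at this
  exact le_of_pow_le_pow_left₀ hm hε.le this

/-- the candidate forms -/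
def gg (wt : Q Γ → ℤ) (F : Q Γ → ℍ → ℂ) (n : ℕ) (j q : Q Γ) : ℍ → ℂ := Dl ^ n * psi wt F j q

lemma gg_slash (hF : ∀ j, F j ∈ MF Γ (wt j)) (n : ℕ) (h : SL(2, ℤ)) (j q : Q Γ) :
    gg wt F n j q ∣[12 * (n : ℤ) - wt j] h = gg wt F n j (h⁻¹ • q) := by
  unfold gg
  rw [sub_eq_add_neg, ModularForm.mul_slash_SL2, psi_slash hF, (Dl_pow_mem_R n).2.1 h trivial]

lemma gg_mdiff (hF : ∀ j, F j ∈ MF Γ (wt j)) (hdet : ∀ z, (Phi (Γ := Γ) wt F z).det ≠ 0)
    (n : ℕ) (j q : Q Γ) : MDiff (gg wt F n j q) :=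
  (Dl_pow_mem_R n).1.mul (psi_mdiff hF hdet j q)

/-- the base coset -/
abbrev q0 : Q Γ := ((1 : SL(2, ℤ)) : Q Γ)

lemma gg_mem (hF : ∀ j, F j ∈ MF Γ (wt j)) (hdet : ∀ z, (Phi (Γ := Γ) wt F z).det ≠ 0)
    (n : ℕ) (j : Q Γ) (hz : ∀ q, IsZeroAtImInfty (gg wt F n j q)) :
    gg wt F n j q0 ∈ CF Γ (12 * (n : ℤ) - wt j) := by
  refine ⟨gg_mdiff hF hdet n j _, fun γ hγ => ?_, fun γ => ?_⟩
  · rw [gg_slash hF]
    congr 1
    rw [MulAction.Quotient.smul_coe, QuotientGroup.eq]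
    simpa using hγ
  · rw [gg_slash hF]; exact hz _

lemma vec_gg (hF : ∀ j, F j ∈ MF Γ (wt j)) (n : ℕ) (j q : Q Γ) :
    vec (12 * (n : ℤ) - wt j) (gg wt F n j q0) q = gg wt F n j q := by
  have hinv : ∀ γ ∈ Γ, gg wt F n j q0 ∣[12 * (n : ℤ) - wt j] γ = gg wt F n j q0 := by
    intro γ hγ
    rw [gg_slash hF]
    congr 1
    rw [MulAction.Quotient.smul_coe, QuotientGroup.eq]
    simpa using hγ
  induction q using QuotientGroup.induction_on with
  | H g =>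
    rw [vec_mk hinv, gg_slash hF, inv_inv, MulAction.Quotient.smul_coe]
    simp

/-- base case of the descent -/
lemma gg_zero_of_large (hF : ∀ j, F j ∈ MF Γ (wt j)) {c : ℂ} (hc : c ≠ 0)
    (hpow : ∀ z, (Phi (Γ := Γ) wt F z).det ^ 12 = c * Dl z ^ (∑ j, wt j))
    (n : ℕ) (hn : ∑ j, wt j < 12 * (n : ℤ)) (j q : Q Γ) : IsZeroAtImInfty (gg wt F n j q) := by
  apply isZero_of_pow (m := 12) (by norm_num)
  obtain ⟨m, hm⟩ : ∃ m : ℕ, 12 * (n : ℤ) - ∑ j, wt j = m + 1 :=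
    ⟨(12 * (n : ℤ) - ∑ j, wt j - 1).toNat, by omega⟩
  have h : gg wt F n j q ^ 12 = (c⁻¹ • (adj wt F j q ^ 12 * Dl ^ m)) * Dl := by
    funext z
    simp only [gg, Pi.pow_apply, Pi.mul_apply, Pi.smul_apply, smul_eq_mul, psi_eq]
    rw [mul_pow, mul_pow, inv_pow, hpow z, ← pow_mul]
    have hD := Dl_ne_zero z
    have e1 : Dl z ^ (n * 12) = Dl z ^ (∑ j, wt j) * (Dl z ^ m * Dl z) := by
      rw [← pow_succ, ← zpow_natCast, ← zpow_natCast, ← zpow_add₀ hD]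
      congr 1
      push_cast
      omega
    rw [e1]
    have hz : Dl z ^ (∑ j, wt j) ≠ 0 := zpow_ne_zero _ hD
    field_simp
  rw [h]
  have hDz : IsZeroAtImInfty Dl := by simpa using Dl_mem_CF.2.2 1
  have hDb : IsBoundedAtImInfty Dl := hDz.isBoundedAtImInfty
  refine Filter.BoundedAtFilter.mul_zeroAtFilter ?_ hDz
  change _ ∈ boundedAtImInftySubalgebra ℂ
  refine Subalgebra.smul_mem _ (Subalgebra.mul_mem _ (Subalgebra.pow_mem _ (adj_bdd hF j q) _)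
    (Subalgebra.pow_mem _ hDb _)) _

omit [Γ.FiniteIndex] in
lemma vec_sum' {ι : Type} (s : Finset ι) (k : ℤ) (f : ι → ℍ → ℂ) (q : Q Γ) :
    vec k (∑ i ∈ s, f i) q = ∑ i ∈ s, vec k (f i) q := by
  unfold vec
  exact SlashAction.sum_slash _ _

lemma vec_comb (w : ℤ) (A : Q Γ → ℍ → ℂ) (hA : ∀ i, A i ∈ R (w - wt i)) (q : Q Γ) :
    vec w (∑ i, A i * F i) q = ∑ i, A i * vec (wt i) (F i) q := by
  rw [vec_sum']
  refine Finset.sum_congr rfl fun i _ => ?_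
  have := vec_mul_R (Γ := Γ) (l := wt i) (f := F i) (hA i) q
  rwa [sub_add_cancel] at this

lemma psi_mul_Phi (hdet : ∀ z, (Phi (Γ := Γ) wt F z).det ≠ 0) (z : ℍ) (j i : Q Γ) :
    ∑ q, psi wt F j q z * vec (wt i) (F i) q z = if j = i then 1 else 0 := by
  have h := Matrix.nonsing_inv_mul (Phi (Γ := Γ) wt F z) ((hdet z).isUnit)
  have h2 := congrFun (congrFun h j) i
  rw [Matrix.mul_apply, Matrix.one_apply] at h2
  exact h2

lemma Phi_mul_psi (hdet : ∀ z, (Phi (Γ := Γ) wt F z).det ≠ 0) (z : ℍ) (q q' : Q Γ) :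
    ∑ j, vec (wt j) (F j) q z * psi wt F j q' z = if q = q' then 1 else 0 := by
  have h := Matrix.mul_nonsing_inv (Phi (Γ := Γ) wt F z) ((hdet z).isUnit)
  have h2 := congrFun (congrFun h q) q'
  rw [Matrix.mul_apply, Matrix.one_apply] at h2
  exact h2

lemma trP_gg (hF : ∀ j, F j ∈ MF Γ (wt j)) (hdet : ∀ z, (Phi (Γ := Γ) wt F z).det ≠ 0)
    (w : ℤ) (A : Q Γ → ℍ → ℂ) (hA : ∀ i, A i ∈ R (w - wt i)) (n : ℕ) (j : Q Γ) :
    trP Γ w (12 * (n : ℤ) - wt j) (∑ i, A i * F i) (gg wt F n j q0) = Dl ^ n * A j := by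
  funext z
  unfold trP
  simp only [vec_gg hF, vec_comb w A hA, Finset.sum_apply, Pi.mul_apply]
  simp only [gg, Pi.mul_apply]
  calc ∑ q, (∑ i, A i z * vec (wt i) (F i) q z) * ((Dl ^ n) z * psi wt F j q z)
      = (Dl ^ n) z * ∑ i, A i z * ∑ q, psi wt F j q z * vec (wt i) (F i) q z := by
        simp only [Finset.mul_sum, Finset.sum_mul]
        rw [Finset.sum_comm]
        refine Finset.sum_congr rfl fun i _ => Finset.sum_congr rfl fun q _ => ?_
        ring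
    _ = (Dl ^ n) z * A j z := by
        simp only [psi_mul_Phi hdet]
        simp

section descent

variable {M : ℕ} [NeZero M] (hM : ∀ q : Q Γ, (ModularGroup.T ^ M) • q = q)
include hM

lemma periodic_of_mem {w : ℤ} {f : ℍ → ℂ} (hf : f ∈ MF Γ w) :
    Function.Periodic (f ∘ ofComplex) ((M : ℝ) : ℂ) := by
  have := vec_periodic hM hf.2.1 q0
  rwa [vec_one hf.2.1] at this

lemma Dl_isBigO : Dl =O[atImInfty] fun τ => Real.exp (-2 * Real.pi * τ.im) := by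
  have hDz : IsZeroAtImInfty Dl := by simpa using Dl_mem_CF.2.2 1
  have h1 : ∀ q : Q (⊤ : Subgroup SL(2, ℤ)), (ModularGroup.T ^ 1) • q = q := by
    intro q
    induction q using QuotientGroup.induction_on with
    | H g => rw [MulAction.Quotient.smul_coe, QuotientGroup.eq]; trivial
  have hper : Function.Periodic (Dl ∘ ofComplex) (((1 : ℕ) : ℝ) : ℂ) := by
    have := vec_periodic (Γ := ⊤) (M := 1) h1 Dl_mem_R.2.1 q0
    rwa [vec_one Dl_mem_R.2.1] at this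
  have := hDz.exp_decay_atImInfty (h := ((1 : ℕ) : ℝ)) (by norm_num) hper Dl_mem_R.1
    hDz.isBoundedAtImInfty
  simpa using this

lemma coeff_M_zero {k : ℤ} {A : ℍ → ℂ} (hA : A ∈ R k) (n : ℕ) :
    (qExpansion (M : ℝ) (Dl ^ (n + 2) * A)).coeff M = 0 := by
  have hmem : Dl ^ (n + 2) * A ∈ MF Γ (12 * ((n + 2 : ℕ) : ℤ) + k) :=
    R_le_MF (mul_mem_MF (Dl_pow_mem_R (n + 2)) hA)
  have hb : IsBoundedAtImInfty (Dl ^ (n + 2) * A) := by simpa using hmem.2.2 1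
  refine (isBigO_iff_coeff (periodic_of_mem hM hmem) hmem.1 hb (M + 1)).mpr ?_ M
    (Nat.lt_succ_self M)
  have hDz : IsZeroAtImInfty Dl := by simpa using Dl_mem_CF.2.2 1
  have hDb : IsBoundedAtImInfty Dl := hDz.isBoundedAtImInfty
  have hAb : IsBoundedAtImInfty A := by simpa using hA.2.2 1
  have hrest : IsBoundedAtImInfty (Dl ^ n * A) := by
    change _ ∈ boundedAtImInftySubalgebra ℂ
    exact Subalgebra.mul_mem _ (Subalgebra.pow_mem _ hDb _) hAb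
  have e : Dl ^ (n + 2) * A = fun τ => (Dl τ * Dl τ) * ((Dl ^ n * A) τ) := by
    funext τ; simp only [Pi.mul_apply, Pi.pow_apply]; ring
  rw [e]
  have h2 := ((Dl_isBigO hM).mul (Dl_isBigO hM)).mul hrest
  refine h2.trans (Asymptotics.IsBigO.of_bound 1 ?_)
  filter_upwards with τ
  simp only [Pi.one_apply, mul_one, one_mul, ← Real.exp_add, Real.norm_eq_abs, Real.abs_exp]
  apply Real.exp_le_exp.mpr
  have hMpos : (0 : ℝ) < M := by exact_mod_cast Nat.pos_of_ne_zero (NeZero.ne M)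
  have hM1 : (1 : ℝ) ≤ M := by exact_mod_cast Nat.pos_of_ne_zero (NeZero.ne M)
  have hy := τ.im_pos
  rw [le_div_iff₀ hMpos]
  push_cast
  nlinarith [Real.pi_pos, mul_pos Real.pi_pos hy, mul_pos (mul_pos Real.pi_pos hy) hMpos]

lemma descent_step (hB : IsFreeBasis Γ wt F) (hdet : ∀ z, (Phi (Γ := Γ) wt F z).det ≠ 0)
    {w : ℤ} (hLD : ∀ {w' : ℤ} {g : ℍ → ℂ}, g ∈ CF Γ w' →
      (∀ f ∈ MF Γ w, (qExpansion (M : ℝ) (trP Γ w w' f g)).coeff M = 0) →
      ∃ g' ∈ CF Γ (w' - 12), g = Dl * g') (n : ℕ) (j : Q Γ)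
    (hz : ∀ q, IsZeroAtImInfty (gg wt F (n + 2) j q)) :
    ∀ q, IsZeroAtImInfty (gg wt F (n + 1) j q) := by
  have hg := gg_mem hB.mem hdet (n + 2) j hz
  obtain ⟨g', hg', hgg'⟩ := hLD hg (by
    intro f hf
    obtain ⟨A, hA, rfl⟩ := hB.span w f hf
    rw [trP_gg hB.mem hdet w A hA]
    exact coeff_M_zero hM (hA j) n)
  have hg'eq : g' = gg wt F (n + 1) j q0 := by
    funext z
    have := congrFun hgg' z
    simp only [gg, Pi.mul_apply, Pi.pow_apply] at this ⊢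
    apply mul_left_cancel₀ (Dl_ne_zero z)
    rw [← this]; ring
  intro q
  induction q using QuotientGroup.induction_on with
  | H g =>
    have h1 := hg'.2.2 g⁻¹
    rw [hg'eq, show 12 * (((n + 2 : ℕ) : ℤ)) - wt j - 12 = 12 * ((n + 1 : ℕ) : ℤ) - wt j by
      push_cast; ring, gg_slash hB.mem, inv_inv, MulAction.Quotient.smul_coe] at h1
    simpa using h1

lemma gg_one_zero (hB : IsFreeBasis Γ wt F) (hdet : ∀ z, (Phi (Γ := Γ) wt F z).det ≠ 0)
    {c : ℂ} (hc : c ≠ 0) (hpow : ∀ z, (Phi (Γ := Γ) wt F z).det ^ 12 = c * Dl z ^ (∑ j, wt j))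
    {w : ℤ} (hLD : ∀ {w' : ℤ} {g : ℍ → ℂ}, g ∈ CF Γ w' →
      (∀ f ∈ MF Γ w, (qExpansion (M : ℝ) (trP Γ w w' f g)).coeff M = 0) →
      ∃ g' ∈ CF Γ (w' - 12), g = Dl * g') (j : Q Γ) :
    ∀ q, IsZeroAtImInfty (gg wt F 1 j q) := by
  have key : ∀ d : ℕ, (∀ q, IsZeroAtImInfty (gg wt F (d + 1) j q)) →
      ∀ q, IsZeroAtImInfty (gg wt F 1 j q) := by
    intro d
    induction d with
    | zero => exact fun h => h
    | succ d ih => exact fun h => ih (descent_step hM hB hdet hLD d j h)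
  refine key (∑ j, wt j).toNat fun q => gg_zero_of_large hB.mem hc hpow _ ?_ j q
  push_cast
  have := Int.self_le_toNat (∑ j, wt j)
  omega

end descent

lemma trP_slash {k l : ℤ} {f g : ℍ → ℂ} (hf : ∀ γ ∈ Γ, f ∣[k] γ = f)
    (hg : ∀ γ ∈ Γ, g ∣[l] γ = g) (h : SL(2, ℤ)) : trP Γ k l f g ∣[k + l] h = trP Γ k l f g := by
  unfold trP
  rw [SlashAction.sum_slash]
  simp only [ModularForm.mul_slash_SL2, vec_slash hf, vec_slash hg]
  exact Equiv.sum_comp (MulAction.toPerm h⁻¹ : Equiv.Perm (Q Γ))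
    (fun q => vec k f q * vec l g q)

theorem trP_mem' {k l : ℤ} {f g : ℍ → ℂ} (hf : f ∈ MF Γ k) (hg : g ∈ MF Γ l) :
    trP Γ k l f g ∈ R (k + l) := by
  refine ⟨?_, fun h _ => trP_slash hf.2.1 hg.2.1 h, fun h => ?_⟩
  · unfold trP
    exact MDifferentiable.sum fun q _ => (vec_mdiff hf.1 q).mul (vec_mdiff hg.1 q)
  · rw [trP_slash hf.2.1 hg.2.1]
    change _ ∈ boundedAtImInftySubalgebra ℂ
    exact Subalgebra.sum_mem _ fun q _ => Subalgebra.mul_mem _ (vec_bdd hf q) (vec_bdd hg q)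

theorem trP_mem_CF' {k l : ℤ} {f g : ℍ → ℂ} (hf : f ∈ MF Γ k) (hg : g ∈ CF Γ l) :
    trP Γ k l f g ∈ CF ⊤ (k + l) := by
  refine ⟨(trP_mem' hf (CF_le_MF hg)).1, fun h _ => trP_slash hf.2.1 hg.2.1 h, fun h => ?_⟩
  rw [trP_slash hf.2.1 hg.2.1]
  change _ ∈ zeroAtImInftySubmodule ℂ
  exact Submodule.sum_mem _ fun q _ =>
    Filter.BoundedAtFilter.mul_zeroAtFilter (vec_bdd hf q) (vec_zero_at hg q)

/-- the dual basis -/
def GG (wt : Q Γ → ℤ) (F : Q Γ → ℍ → ℂ) (j : Q Γ) : ℍ → ℂ := gg wt F 1 j q0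

lemma GG_mem (hB : IsFreeBasis Γ wt F) (hdet : ∀ z, (Phi (Γ := Γ) wt F z).det ≠ 0)
    (hz : ∀ j q, IsZeroAtImInfty (gg wt F 1 j q)) (j : Q Γ) : GG wt F j ∈ CF Γ (12 - wt j) := by
  have := gg_mem hB.mem hdet 1 j (hz j)
  simpa [GG] using this

lemma vec_GG (hB : IsFreeBasis Γ wt F) (j q : Q Γ) :
    vec (12 - wt j) (GG wt F j) q = Dl * psi wt F j q := by
  have := vec_gg hB.mem 1 j q
  simpa [gg, GG] using this

lemma vec_combG (hB : IsFreeBasis Γ wt F) (w : ℤ) (B : Q Γ → ℍ → ℂ)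
    (hBm : ∀ i, B i ∈ R (w + wt i - 12)) (q : Q Γ) :
    vec w (∑ i, B i * GG wt F i) q = ∑ i, B i * (Dl * psi wt F i q) := by
  rw [vec_sum']
  refine Finset.sum_congr rfl fun i _ => ?_
  have := vec_mul_R (Γ := Γ) (l := 12 - wt i) (f := GG wt F i) (hBm i) q
  rw [show w + wt i - 12 + (12 - wt i) = w by ring, vec_GG hB] at this
  exact this

lemma comb_mem (hB : IsFreeBasis Γ wt F) (hdet : ∀ z, (Phi (Γ := Γ) wt F z).det ≠ 0)
    (hz : ∀ j q, IsZeroAtImInfty (gg wt F 1 j q)) (w : ℤ) (B : Q Γ → ℍ → ℂ)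
    (hBm : ∀ i, B i ∈ R (w + wt i - 12)) : ∑ i, B i * GG wt F i ∈ CF Γ w := by
  refine Submodule.sum_mem _ fun i _ => ?_
  have := mul_mem_CF (R_le_MF (Γ := Γ) (hBm i)) (GG_mem hB hdet hz i)
  rwa [show w + wt i - 12 + (12 - wt i) = w by ring] at this

lemma comb_indep (hB : IsFreeBasis Γ wt F) (hdet : ∀ z, (Phi (Γ := Γ) wt F z).det ≠ 0)
    (w : ℤ) (B : Q Γ → ℍ → ℂ) (hBm : ∀ i, B i ∈ R (w + wt i - 12))
    (h0 : ∑ i, B i * GG wt F i = 0) (i : Q Γ) : B i = 0 := by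
  funext z
  have h1 : ∀ q, ∑ j, B j z * (Dl z * psi wt F j q z) = 0 := by
    intro q
    have := congrFun (vec_combG hB w B hBm q) z
    rw [h0] at this
    have hv0 : vec w (0 : ℍ → ℂ) q = 0 := by unfold vec; exact SlashAction.zero_slash _ _
    rw [hv0] at this
    simpa [Finset.sum_apply] using this.symm
  have h2 : ∑ q, (∑ j, B j z * (Dl z * psi wt F j q z)) * vec (wt i) (F i) q z = 0 := by
    simp [h1]
  have h3 : ∑ q, (∑ j, B j z * (Dl z * psi wt F j q z)) * vec (wt i) (F i) q z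
      = Dl z * ∑ j, B j z * ∑ q, psi wt F j q z * vec (wt i) (F i) q z := by
    simp only [Finset.mul_sum, Finset.sum_mul]
    rw [Finset.sum_comm]
    refine Finset.sum_congr rfl fun j _ => Finset.sum_congr rfl fun q _ => ?_
    ring
  rw [h3] at h2
  simp only [psi_mul_Phi hdet] at h2
  simpa [Dl_ne_zero z] using h2

lemma comb_span (hB : IsFreeBasis Γ wt F) (hdet : ∀ z, (Phi (Γ := Γ) wt F z).det ≠ 0)
    (w : ℤ) {g : ℍ → ℂ} (hg : g ∈ CF Γ w) :
    ∃ B : Q Γ → ℍ → ℂ, (∀ i, B i ∈ R (w + wt i - 12)) ∧ g = ∑ i, B i * GG wt F i := by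
  have h1 : ∀ j, ∃ B ∈ R (wt j + w - 12), trP Γ (wt j) w (F j) g = Dl * B :=
    fun j => CF_top (trP_mem_CF' (hB.mem j) hg)
  choose B hBm hBeq using h1
  refine ⟨B, fun i => by rw [add_comm]; exact hBm i, ?_⟩
  funext z
  simp only [Finset.sum_apply, Pi.mul_apply, GG, gg, pow_one]
  have h2 : ∀ j, B j z * (Dl z * psi wt F j q0 z) =
      ∑ q : Q Γ, vec w g q z * (vec (wt j) (F j) q z * psi wt F j q0 z) := by
    intro j
    have := congrFun (hBeq j) z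
    simp only [trP, Finset.sum_apply, Pi.mul_apply] at this
    rw [show B j z * (Dl z * psi wt F j q0 z) = (Dl z * B j z) * psi wt F j q0 z by ring, ← this,
      Finset.sum_mul]
    refine Finset.sum_congr rfl fun q _ => ?_
    ring
  simp only [h2]
  rw [Finset.sum_comm]
  simp only [← Finset.mul_sum, Phi_mul_psi hdet]
  simp [vec_one hg.2.1]

theorem finrank_CF' (hB : IsFreeBasis Γ wt F) (hdet : ∀ z, (Phi (Γ := Γ) wt F z).det ≠ 0)
    (hz : ∀ j q, IsZeroAtImInfty (gg wt F 1 j q)) (w : ℤ) :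
    finrank ℂ (CF Γ w) = ∑ j, finrank ℂ (R (w + wt j - 12)) := by
  let L : (∀ j : Q Γ, R (w + wt j - 12)) →ₗ[ℂ] CF Γ w :=
    { toFun := fun B => ⟨∑ i, (B i : ℍ → ℂ) * GG wt F i,
        comb_mem hB hdet hz w (fun i => (B i : ℍ → ℂ)) (fun i => (B i).2)⟩
      map_add' := by
        intro B B'
        ext1
        simp [add_mul, Finset.sum_add_distrib]
      map_smul' := by
        intro c B
        ext1
        simp [Finset.smul_sum] }
  have hinj : Function.Injective L := by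
    rw [← LinearMap.ker_eq_bot, LinearMap.ker_eq_bot']
    intro B hB0
    funext i
    ext1
    exact comb_indep hB hdet w (fun i => (B i : ℍ → ℂ)) (fun i => (B i).2)
      (congrArg Subtype.val hB0) i
  have hsurj : Function.Surjective L := by
    rintro ⟨g, hg⟩
    obtain ⟨B, hBm, rfl⟩ := comb_span hB hdet w hg
    exact ⟨fun i => ⟨B i, hBm i⟩, rfl⟩
  rw [← (LinearEquiv.ofBijective L ⟨hinj, hsurj⟩).finrank_eq, Module.finrank_pi_fintype]

end

end Fermat.Agent.S20.DualA
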