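import Mathlib

set_option autoImplicit false

open UpperHalfPlane hiding I
open Real Complex
open scoped Manifold MatrixGroups ModularForm Topology

namespace Fermat.Agent.S20.Elliptic

noncomputable section

variable {X ι : Type*} [Fintype X] [DecidableEq X] [Fintype ι] [DecidableEq ι]

/-- Abstract trace lemma: if `A (σ x) j = d j * A x j` and `A` is invertible, then the number of
fixed points of `σ` is `∑ d j`. -/
theorem card_fixed_eq_sum (σ : X → X) (A : Matrix X ι ℂ) (A' : Matrix ι X ℂ)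
    (h1 : A * A' = 1) (h2 : A' * A = 1) (d : ι → ℂ)
    (h : ∀ x j, A (σ x) j = d j * A x j) :
    ((Finset.univ.filter fun x => σ x = x).card : ℂ) = ∑ j, d j := by
  set P : Matrix X X ℂ := Matrix.of fun x y => if σ x = y then 1 else 0 with hP
  have hPA : P * A = A * Matrix.diagonal d := by
    ext x j
    rw [Matrix.mul_diagonal]
    simp [hP, Matrix.mul_apply, h, mul_comm]
  have hPeq : P = A * Matrix.diagonal d * A' := by
    rw [← hPA, Matrix.mul_assoc, h1, Matrix.mul_one]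
  have htr : P.trace = ∑ j, d j := by
    rw [hPeq, Matrix.trace_mul_comm, ← Matrix.mul_assoc, h2, Matrix.one_mul, Matrix.trace_diagonal]
  rw [← htr]
  simp [hP, Matrix.trace]

variable [MulAction SL(2, ℤ) X]

/-- Trace formula at a fixed point `z₀` of `g`. Convention of Mathlib's `quotientFunc_smul`:
`Φ x j ∣[κ j] g = Φ (g⁻¹ • x) j`. -/
theorem card_fixedBy_eq_sum (Φ : X → ι → ℍ → ℂ) (κ : ι → ℤ)
    (hΦ : ∀ (g : SL(2, ℤ)) x j, (Φ x j) ∣[κ j] g = Φ (g⁻¹ • x) j)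
    (g : SL(2, ℤ)) (z₀ : ℍ) (hfix : g • z₀ = z₀)
    (A' : Matrix ι X ℂ) (h1 : (Matrix.of fun x j => Φ x j z₀) * A' = 1)
    (h2 : A' * (Matrix.of fun x j => Φ x j z₀) = 1) :
    (Nat.card (MulAction.fixedBy X g) : ℂ) = ∑ j, (denom g z₀) ^ (-κ j) := by
  have key := card_fixed_eq_sum (fun x => g⁻¹ • x) (Matrix.of fun x j => Φ x j z₀) A' h1 h2
    (fun j => (denom g z₀) ^ (-κ j)) (by
      intro x j
      have := congrFun (hΦ g x j) z₀
      rw [ModularForm.SL_slash_apply, hfix] at this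
      simp only [Matrix.of_apply]
      rw [← this, mul_comm])
  rw [← key]
  congr 1
  rw [Nat.card_eq_fintype_card, Fintype.card_subtype]
  congr 1
  ext x
  simp only [Finset.mem_filter, Finset.mem_univ, true_and, MulAction.mem_fixedBy]
  rw [inv_smul_eq_iff, eq_comm]

open ModularGroup

theorem I_zpow_neg_of_mod_four_eq_zero {k : ℤ} (h : k % 4 = 0) : (Complex.I) ^ (-k) = 1 := by
  obtain ⟨m, rfl⟩ : ∃ m, k = 4 * m := ⟨k / 4, by omega⟩
  rw [← mul_neg, zpow_mul]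
  have : (Complex.I : ℂ) ^ (4 : ℤ) = 1 := by
    have := Complex.I_pow_four
    exact_mod_cast this
  rw [this, one_zpow]

theorem I_zpow_neg_of_mod_four_eq_two {k : ℤ} (h : k % 4 = 2) : (Complex.I) ^ (-k) = -1 := by
  obtain ⟨m, rfl⟩ : ∃ m, k = 4 * m + 2 := ⟨k / 4, by omega⟩
  rw [neg_add, zpow_add₀ Complex.I_ne_zero, I_zpow_neg_of_mod_four_eq_zero (by omega), one_mul]
  have : (Complex.I : ℂ) ^ (-2 : ℤ) = ((Complex.I) ^ 2)⁻¹ := by
    rw [zpow_neg]; norm_cast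
  rw [this, Complex.I_sq]; norm_num

/-- Counting at the elliptic point `i`. -/
theorem card_fixedBy_S (Φ : X → ι → ℍ → ℂ) (κ : ι → ℤ)
    (hΦ : ∀ (g : SL(2, ℤ)) x j, (Φ x j) ∣[κ j] g = Φ (g⁻¹ • x) j)
    (heven : ∀ j, κ j % 2 = 0)
    (A' : Matrix ι X ℂ) (h1 : (Matrix.of fun x j => Φ x j UpperHalfPlane.I) * A' = 1)
    (h2 : A' * (Matrix.of fun x j => Φ x j UpperHalfPlane.I) = 1) :
    (Nat.card (MulAction.fixedBy X S) : ℤ) =
      ((Finset.univ.filter fun j => κ j % 4 = 0).card : ℤ) -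
        ((Finset.univ.filter fun j => κ j % 4 = 2).card : ℤ) := by
  have hfix : S • UpperHalfPlane.I = UpperHalfPlane.I := by
    rw [ModularGroup.stabilizer_I]; simp
  have h := card_fixedBy_eq_sum Φ κ hΦ S UpperHalfPlane.I hfix A' h1 h2
  have hterm : ∀ j, (denom S UpperHalfPlane.I) ^ (-κ j) =
      (if κ j % 4 = 0 then (1 : ℂ) else 0) - (if κ j % 4 = 2 then (1 : ℂ) else 0) := by
    intro j
    rw [ModularGroup.denom_S, UpperHalfPlane.coe_I]
    rcases (by have := heven j; omega : κ j % 4 = 0 ∨ κ j % 4 = 2) with h0 | h0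
    · rw [I_zpow_neg_of_mod_four_eq_zero h0]; simp [h0]
    · rw [I_zpow_neg_of_mod_four_eq_two h0]; simp [h0]
  simp_rw [hterm] at h
  rw [Finset.sum_sub_distrib, Finset.sum_boole, Finset.sum_boole] at h
  exact_mod_cast h

theorem denom_ST_ρ : denom ((S * T : SL(2, ℤ)) : GL (Fin 2) ℝ) ρ = (ρ : ℂ) + 1 := by
  rw [ModularGroup.denom_apply]
  have h10 : (S * T : SL(2, ℤ)) 1 0 = 1 := by
    rw [Matrix.SpecialLinearGroup.coe_mul, ModularGroup.coe_S, ModularGroup.coe_T]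
    simp [Matrix.mul_apply, Fin.sum_univ_two]
  have h11 : (S * T : SL(2, ℤ)) 1 1 = 1 := by
    rw [Matrix.SpecialLinearGroup.coe_mul, ModularGroup.coe_S, ModularGroup.coe_T]
    simp [Matrix.mul_apply, Fin.sum_univ_two]
  rw [h10, h11]; simp

theorem ρ_add_one_sq : ((ρ : ℂ) + 1) ^ 2 = ρ := by
  have := UpperHalfPlane.ρ_sq
  linear_combination this

theorem ρ_cube : (ρ : ℂ) ^ 3 = 1 := by
  have := UpperHalfPlane.ρ_sq
  linear_combination ((ρ : ℂ) - 1) * this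

theorem ρ_add_one_ne_zero : (ρ : ℂ) + 1 ≠ 0 := by
  intro h
  have h2 := ρ_add_one_sq
  rw [h] at h2
  exact UpperHalfPlane.ρ.ne_zero (by simpa using h2.symm)

theorem ξ_zpow_neg_of_mod_six_eq_zero {k : ℤ} (h : k % 6 = 0) : ((ρ : ℂ) + 1) ^ (-k) = 1 := by
  obtain ⟨m, rfl⟩ : ∃ m, k = 6 * m := ⟨k / 6, by omega⟩
  rw [← mul_neg, zpow_mul]
  have : ((ρ : ℂ) + 1) ^ (6 : ℤ) = 1 := by
    have h6 : ((ρ : ℂ) + 1) ^ 6 = 1 := by
      calc ((ρ : ℂ) + 1) ^ 6 = (((ρ : ℂ) + 1) ^ 2) ^ 3 := by ring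
        _ = 1 := by rw [ρ_add_one_sq, ρ_cube]
    exact_mod_cast h6
  rw [this, one_zpow]

theorem ξ_zpow_neg_of_mod_six_eq_two {k : ℤ} (h : k % 6 = 2) :
    ((ρ : ℂ) + 1) ^ (-k) = -(ρ : ℂ) - 1 := by
  obtain ⟨m, rfl⟩ : ∃ m, k = 6 * m + 2 := ⟨k / 6, by omega⟩
  rw [neg_add, zpow_add₀ ρ_add_one_ne_zero, ξ_zpow_neg_of_mod_six_eq_zero (by omega), one_mul]
  have : ((ρ : ℂ) + 1) ^ (-2 : ℤ) = (((ρ : ℂ) + 1) ^ 2)⁻¹ := by
    rw [zpow_neg]; norm_cast
  rw [this, ρ_add_one_sq]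
  refine inv_eq_of_mul_eq_one_left ?_
  have := UpperHalfPlane.ρ_sq
  linear_combination -this

theorem ξ_zpow_neg_of_mod_six_eq_four {k : ℤ} (h : k % 6 = 4) :
    ((ρ : ℂ) + 1) ^ (-k) = (ρ : ℂ) := by
  obtain ⟨m, rfl⟩ : ∃ m, k = 6 * m + 4 := ⟨k / 6, by omega⟩
  rw [neg_add, zpow_add₀ ρ_add_one_ne_zero, ξ_zpow_neg_of_mod_six_eq_zero (by omega), one_mul]
  have : ((ρ : ℂ) + 1) ^ (-4 : ℤ) = ((((ρ : ℂ) + 1) ^ 2) ^ 2)⁻¹ := by
    rw [zpow_neg, ← pow_mul]; norm_cast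
  rw [this, ρ_add_one_sq]
  refine inv_eq_of_mul_eq_one_left ?_
  have := ρ_cube
  linear_combination this

/-- Counting at the elliptic point `ρ`. -/
theorem card_fixedBy_ST (Φ : X → ι → ℍ → ℂ) (κ : ι → ℤ)
    (hΦ : ∀ (g : SL(2, ℤ)) x j, (Φ x j) ∣[κ j] g = Φ (g⁻¹ • x) j)
    (heven : ∀ j, κ j % 2 = 0)
    (A' : Matrix ι X ℂ) (h1 : (Matrix.of fun x j => Φ x j ρ) * A' = 1)
    (h2 : A' * (Matrix.of fun x j => Φ x j ρ) = 1) :
    (Finset.univ.filter fun j => κ j % 6 = 2).card =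
        (Finset.univ.filter fun j => κ j % 6 = 4).card ∧
    (Nat.card (MulAction.fixedBy X (S * T)) : ℤ) =
      ((Finset.univ.filter fun j => κ j % 6 = 0).card : ℤ) -
        ((Finset.univ.filter fun j => κ j % 6 = 2).card : ℤ) := by
  have hfix : (S * T) • ρ = ρ := by
    rw [ModularGroup.stabilizer_ρ]; simp
  have h := card_fixedBy_eq_sum Φ κ hΦ (S * T) ρ hfix A' h1 h2
  have hterm : ∀ j, (denom ((S * T : SL(2, ℤ)) : GL (Fin 2) ℝ) ρ) ^ (-κ j) =
      (if κ j % 6 = 0 then (1 : ℂ) else 0) + (if κ j % 6 = 2 then (1 : ℂ) else 0) * (-(ρ : ℂ) - 1)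
        + (if κ j % 6 = 4 then (1 : ℂ) else 0) * (ρ : ℂ) := by
    intro j
    rw [denom_ST_ρ]
    rcases (by have := heven j; omega : κ j % 6 = 0 ∨ κ j % 6 = 2 ∨ κ j % 6 = 4) with h0 | h0 | h0
    · rw [ξ_zpow_neg_of_mod_six_eq_zero h0]; simp [h0]
    · rw [ξ_zpow_neg_of_mod_six_eq_two h0]; simp [h0]
    · rw [ξ_zpow_neg_of_mod_six_eq_four h0]; simp [h0]
  simp_rw [hterm] at h
  rw [Finset.sum_add_distrib, Finset.sum_add_distrib, ← Finset.sum_mul, ← Finset.sum_mul,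
    Finset.sum_boole, Finset.sum_boole, Finset.sum_boole] at h
  set a0 := (Finset.univ.filter fun j => κ j % 6 = 0).card
  set a1 := (Finset.univ.filter fun j => κ j % 6 = 2).card
  set a2 := (Finset.univ.filter fun j => κ j % 6 = 4).card
  have him := congrArg Complex.im h
  have hre := congrArg Complex.re h
  have hρre : (ρ : ℂ).re = -1 / 2 := by simp [UpperHalfPlane.ρ]
  have hρim : (ρ : ℂ).im = Real.sqrt 3 / 2 := by simp [UpperHalfPlane.ρ]
  simp only [Complex.add_im, Complex.mul_im, Complex.natCast_im, Complex.natCast_re,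
    Complex.sub_im, Complex.neg_im, Complex.one_im, Complex.sub_re, Complex.neg_re,
    Complex.one_re, hρre, hρim, Complex.add_re, Complex.mul_re] at him hre
  have hs : (0 : ℝ) < Real.sqrt 3 := by positivity
  have h12 : (a1 : ℝ) = a2 := by
    have : ((a2 : ℝ) - a1) * (Real.sqrt 3 / 2) = 0 := by linarith
    rcases mul_eq_zero.mp this with h' | h'
    · linarith
    · exfalso; linarith
  refine ⟨by exact_mod_cast h12, ?_⟩
  have : (Nat.card (MulAction.fixedBy X (S * T)) : ℝ) = (a0 : ℝ) - a1 := by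
    rw [hre, ← h12]; ring
  exact_mod_cast this

end

end Fermat.Agent.S20.Elliptic
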