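import Fermat.Agent.S20.Defs
import Fermat.Agent.S20.DetNe
import Fermat.Agent.S20.Elliptic

/-!
# S20, Task H: `#Fix(S)` and `#Fix(S*T)` on `Q Γ` as sums of roots of unity (owner: helper214)

Exact Blueprint statements, obtained from the abstract trace lemma of `Elliptic.lean`
and the nonvanishing of the determinant of a free basis (`DetNe.lean`).
-/

set_option autoImplicit false

open UpperHalfPlane ModularForm Matrix.SpecialLinearGroup
open scoped MatrixGroups ModularForm Manifold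

namespace Fermat.Agent.S20

noncomputable section

variable {Γ : Subgroup SL(2, ℤ)} [Γ.FiniteIndex]

/-- General trace count at a fixed point, only assuming that `Φ(z₀)` is invertible. -/
theorem card_fixedBy_of_det_ne {wt : Q Γ → ℤ} {F : Q Γ → ℍ → ℂ}
    (hmem : ∀ j, F j ∈ MF Γ (wt j)) (g : SL(2, ℤ)) (z₀ : ℍ) (hfix : g • z₀ = z₀)
    (hdet : (Phi (Γ := Γ) wt F z₀).det ≠ 0) :
    (Nat.card (MulAction.fixedBy (Q Γ) g) : ℂ) = ∑ j, (denom g z₀) ^ (-wt j) := by
  classical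
  have hu : IsUnit (Phi (Γ := Γ) wt F z₀).det := isUnit_iff_ne_zero.mpr hdet
  exact Elliptic.card_fixedBy_eq_sum (X := Q Γ) (ι := Q Γ)
    (fun x j => vec (wt j) (F j) x) wt
    (fun g x j => vec_slash (hmem j).2.1 x g) g z₀ hfix
    (Phi (Γ := Γ) wt F z₀)⁻¹
    (Matrix.mul_nonsing_inv _ hu) (Matrix.nonsing_inv_mul _ hu)

theorem rho_eq : rho = UpperHalfPlane.ρ := by
  apply UpperHalfPlane.ext
  apply Complex.ext <;> simp [rho, UpperHalfPlane.ρ]

/-- Version with an explicit hypothesis on the determinant at `i`. -/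
theorem card_fixedBy_S_of_det_ne {wt : Q Γ → ℤ} {F : Q Γ → ℍ → ℂ}
    (hmem : ∀ j, F j ∈ MF Γ (wt j)) (hdet : (Phi (Γ := Γ) wt F UpperHalfPlane.I).det ≠ 0) :
    (Nat.card (MulAction.fixedBy (Q Γ) ModularGroup.S) : ℂ) = ∑ j, Complex.I ^ (-wt j) := by
  have hfix : ModularGroup.S • UpperHalfPlane.I = UpperHalfPlane.I := by
    rw [ModularGroup.stabilizer_I]; simp
  rw [card_fixedBy_of_det_ne hmem ModularGroup.S UpperHalfPlane.I hfix hdet]
  refine Finset.sum_congr rfl fun j _ => ?_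
  rw [ModularGroup.denom_S, UpperHalfPlane.coe_I]

/-- Version with an explicit hypothesis on the determinant at `ρ`. -/
theorem card_fixedBy_ST_of_det_ne {wt : Q Γ → ℤ} {F : Q Γ → ℍ → ℂ}
    (hmem : ∀ j, F j ∈ MF Γ (wt j)) (hdet : (Phi (Γ := Γ) wt F rho).det ≠ 0) :
    (Nat.card (MulAction.fixedBy (Q Γ) (ModularGroup.S * ModularGroup.T)) : ℂ)
      = ∑ j, ((rho : ℂ) + 1) ^ (-wt j) := by
  have hfix : (ModularGroup.S * ModularGroup.T) • rho = rho := by
    rw [rho_eq, ModularGroup.stabilizer_ρ]; simp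
  rw [card_fixedBy_of_det_ne hmem (ModularGroup.S * ModularGroup.T) rho hfix hdet]
  have hden : denom ((ModularGroup.S * ModularGroup.T : SL(2, ℤ)) : GL (Fin 2) ℝ) rho
      = (rho : ℂ) + 1 := by
    rw [rho_eq]; exact Elliptic.denom_ST_ρ
  simp only [hden]

/-- Blueprint Task H, first statement. -/
theorem card_fixedBy_S {wt : Q Γ → ℤ} {F : Q Γ → ℍ → ℂ} (hB : IsFreeBasis Γ wt F) :
    (Nat.card (MulAction.fixedBy (Q Γ) ModularGroup.S) : ℂ) = ∑ j, Complex.I ^ (-wt j) :=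
  card_fixedBy_S_of_det_ne hB.mem (hB.det_ne_zero _)

/-- Blueprint Task H, second statement. -/
theorem card_fixedBy_ST {wt : Q Γ → ℤ} {F : Q Γ → ℍ → ℂ} (hB : IsFreeBasis Γ wt F) :
    (Nat.card (MulAction.fixedBy (Q Γ) (ModularGroup.S * ModularGroup.T)) : ℂ)
      = ∑ j, ((rho : ℂ) + 1) ^ (-wt j) :=
  card_fixedBy_ST_of_det_ne hB.mem (hB.det_ne_zero _)

end

end Fermat.Agent.S20
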