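import Mathlib

set_option autoImplicit false

open UpperHalfPlane hiding I
open Real Complex Derivative
open scoped Manifold MatrixGroups ModularForm Topology

namespace Fermat.Agent.S20.DetODE

noncomputable section

variable {n : Type*} [Fintype n] [DecidableEq n]

/-- Jacobi's formula for the derivative of a determinant (column version). -/
theorem hasDerivAt_det {M : ℂ → Matrix n n ℂ} {M' : Matrix n n ℂ} {w : ℂ}
    (h : ∀ x j, HasDerivAt (fun u => M u x j) (M' x j) w) :
    HasDerivAt (fun u => (M u).det)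
      (∑ j, ((M w).updateCol j (fun x => M' x j)).det) w := by
  have h1 : ∀ σ : Equiv.Perm n, HasDerivAt (fun u => ∏ i, M u (σ i) i)
      (∑ j, (∏ i ∈ Finset.univ.erase j, M w (σ i) i) • M' (σ j) j) w := by
    intro σ
    have := HasDerivAt.fun_finsetProd (u := Finset.univ) (f := fun i u => M u (σ i) i)
      (f' := fun i => M' (σ i) i) (x := w) (fun i _ => h (σ i) i)
    simpa using this
  have h2 : HasDerivAt (fun u => ∑ σ : Equiv.Perm n, (Equiv.Perm.sign σ : ℂ) * ∏ i, M u (σ i) i)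
      (∑ σ : Equiv.Perm n, (Equiv.Perm.sign σ : ℂ) *
        (∑ j, (∏ i ∈ Finset.univ.erase j, M w (σ i) i) • M' (σ j) j)) w := by
    apply HasDerivAt.fun_sum
    intro σ _
    exact (h1 σ).const_mul _
  have e1 : (fun u => (M u).det) =
      (fun u => ∑ σ : Equiv.Perm n, (Equiv.Perm.sign σ : ℂ) * ∏ i, M u (σ i) i) := by
    funext u
    rw [Matrix.det_apply']
  rw [e1]
  convert h2 using 1
  simp_rw [Matrix.det_apply', Finset.mul_sum]
  rw [Finset.sum_comm]
  refine Finset.sum_congr rfl fun σ _ => Finset.sum_congr rfl fun j _ => ?_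
  rw [← Finset.mul_prod_erase Finset.univ _ (Finset.mem_univ j)]
  have : ∏ i ∈ Finset.univ.erase j, (M w).updateCol j (fun x => M' x j) (σ i) i =
      ∏ i ∈ Finset.univ.erase j, M w (σ i) i := by
    refine Finset.prod_congr rfl fun i hi => ?_
    rw [Matrix.updateCol_ne (Finset.ne_of_mem_erase hi)]
  rw [this, Matrix.updateCol_self]
  simp [smul_eq_mul]
  ring

/-- A convenient `HasDerivAt` form of the normalised derivative `D`. -/
theorem hasDerivAt_of_mdiff {F : ℍ → ℂ} (hF : MDiff F) (z : ℍ) :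
    HasDerivAt (F ∘ ofComplex) (2 * π * I * D F z) (z : ℂ) := by
  have h := (UpperHalfPlane.mdifferentiableAt_iff.mp (hF z)).hasDerivAt
  have h2 : (2 * π * I * D F z) = deriv (F ∘ ofComplex) (z : ℂ) := by
    simp only [normalizedDerivOfComplex]
    have : (2 * π * I : ℂ) ≠ 0 := by simp [Real.pi_ne_zero]
    field_simp
  rw [h2]; exact h

theorem D_eq_of_hasDerivAt {F : ℍ → ℂ} {z : ℍ} {a : ℂ}
    (h : HasDerivAt (F ∘ ofComplex) (2 * π * I * a) (z : ℂ)) : D F z = a := by
  simp only [normalizedDerivOfComplex, h.deriv]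
  have : (2 * π * I : ℂ) ≠ 0 := by simp [Real.pi_ne_zero]
  field_simp

/-- The determinant of a matrix of holomorphic functions on `ℍ`. -/
def detFun (Φ : n → n → ℍ → ℂ) (z : ℍ) : ℂ := (Matrix.of fun x j => Φ x j z).det

theorem hasDerivAt_detFun {Φ : n → n → ℍ → ℂ} (hΦ : ∀ x j, MDiff (Φ x j)) (z : ℍ) :
    HasDerivAt (detFun Φ ∘ ofComplex)
      (2 * π * I * ∑ j, ((Matrix.of fun x j => Φ x j z).updateCol j
        (fun x => D (Φ x j) z)).det) (z : ℂ) := by
  have h := hasDerivAt_det (M := fun u => Matrix.of fun x j => Φ x j (ofComplex u))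
    (M' := Matrix.of fun x j => 2 * π * I * D (Φ x j) z) (w := (z : ℂ))
    (fun x j => hasDerivAt_of_mdiff (hΦ x j) z)
  have e : (detFun Φ ∘ ofComplex) =
      fun u => (Matrix.of fun x j => Φ x j (ofComplex u)).det := rfl
  rw [e]
  convert h using 1
  rw [Finset.mul_sum]
  refine Finset.sum_congr rfl fun j _ => ?_
  rw [← Matrix.det_updateCol_smul]
  simp only [ofComplex_apply]
  rfl

/-- Jacobi's formula for the normalised derivative `D`. -/
theorem D_detFun {Φ : n → n → ℍ → ℂ} (hΦ : ∀ x j, MDiff (Φ x j)) (z : ℍ) :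
    D (detFun Φ) z = ∑ j, ((Matrix.of fun x j => Φ x j z).updateCol j
        (fun x => D (Φ x j) z)).det :=
  D_eq_of_hasDerivAt (hasDerivAt_detFun hΦ z)

theorem mdiff_detFun {Φ : n → n → ℍ → ℂ} (hΦ : ∀ x j, MDiff (Φ x j)) : MDiff (detFun Φ) := by
  intro z
  exact UpperHalfPlane.mdifferentiableAt_iff.mpr (hasDerivAt_detFun hΦ z).differentiableAt

local notation "Δ" => ModularForm.discriminant

theorem mdiff_discriminant : MDiff Δ := CuspForm.discriminant.holo'

/-- `D Δ = E₂ Δ`. -/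
theorem D_discriminant (z : ℍ) : D Δ z = EisensteinSeries.E2 z * Δ z := by
  have hη : DifferentiableAt ℂ ModularForm.eta (z : ℂ) :=
    ModularForm.differentiableAt_eta_of_mem_upperHalfPlaneSet z.2
  have hlog := ModularForm.logDeriv_eta_eq_E2 z
  have hne : ModularForm.eta (z : ℂ) ≠ 0 := ModularForm.eta_ne_zero z.2
  rw [logDeriv_apply, div_eq_iff hne] at hlog
  have h1 : HasDerivAt (fun u : ℂ => ModularForm.eta u ^ 24)
      (24 * ModularForm.eta (z : ℂ) ^ 23 * deriv ModularForm.eta (z : ℂ)) (z : ℂ) := by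
    simpa using hη.hasDerivAt.fun_pow 24
  have h2 : (Δ ∘ ofComplex) =ᶠ[𝓝 (z : ℂ)] fun u : ℂ => ModularForm.eta u ^ 24 := by
    filter_upwards [isOpen_upperHalfPlaneSet.mem_nhds z.im_pos] with w hw
    simp [ModularForm.discriminant, ofComplex_apply_of_im_pos hw]
  apply D_eq_of_hasDerivAt
  refine (h1.congr_of_eventuallyEq h2).congr_deriv ?_
  rw [hlog]
  simp only [ModularForm.discriminant]
  ring

/-- If the columns of `Φ` satisfy a linear system for the Serre derivative with zero diagonal,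
then `D (det Φ) = (K / 12) E₂ det Φ`, `K = ∑ κ j`. -/
theorem D_detFun_of_serre {Φ : n → n → ℍ → ℂ} (hΦ : ∀ x j, MDiff (Φ x j)) (κ : n → ℤ)
    (B : n → n → ℍ → ℂ) (hB : ∀ j z, B j j z = 0)
    (hode : ∀ x j z, serreDerivative (κ j) (Φ x j) z = ∑ i, B j i z * Φ x i z) (z : ℍ) :
    D (detFun Φ) z = ((∑ j, κ j : ℤ) : ℂ) * 12⁻¹ * EisensteinSeries.E2 z * detFun Φ z := by
  rw [D_detFun hΦ]
  have key : ∀ j, ((Matrix.of fun x j => Φ x j z).updateCol j (fun x => D (Φ x j) z)).det =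
      (κ j : ℂ) * 12⁻¹ * EisensteinSeries.E2 z * detFun Φ z := by
    intro j
    have hcol : (fun x => D (Φ x j) z) = fun x => ∑ i,
        (B j i z + if i = j then (κ j : ℂ) * 12⁻¹ * EisensteinSeries.E2 z else 0) •
          (Matrix.of fun x j => Φ x j z) x i := by
      funext x
      have h := hode x j z
      rw [serreDerivative_apply, sub_eq_iff_eq_add] at h
      rw [h]
      simp only [Matrix.of_apply, smul_eq_mul, add_mul, Finset.sum_add_distrib, ite_mul, zero_mul,
        Finset.sum_ite_eq', Finset.mem_univ, if_true]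
    rw [hcol, Matrix.det_updateCol_sum]
    simp [hB, detFun]
  simp_rw [key]
  rw [← Finset.sum_mul]
  push_cast
  simp only [Finset.sum_mul]

/-- **Main result**: `(det Φ)^12 = c Δ^K`. -/
theorem detFun_pow_twelve {Φ : n → n → ℍ → ℂ} (hΦ : ∀ x j, MDiff (Φ x j)) (κ : n → ℤ)
    (B : n → n → ℍ → ℂ) (hB : ∀ j z, B j j z = 0)
    (hode : ∀ x j z, serreDerivative (κ j) (Φ x j) z = ∑ i, B j i z * Φ x i z) :
    ∃ c : ℂ, ∀ z : ℍ, detFun Φ z ^ 12 = c * Δ z ^ (∑ j, κ j) := by
  set K : ℤ := ∑ j, κ j with hK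
  set g : ℂ → ℂ := fun u => (detFun Φ ∘ ofComplex) u ^ 12 * ((Δ ∘ ofComplex) u) ^ (-K) with hg
  have hder : ∀ z : ℍ, HasDerivAt g 0 (z : ℂ) := by
    intro z
    have h1 := (hasDerivAt_of_mdiff (mdiff_detFun hΦ) z).pow 12
    have hΔ := hasDerivAt_of_mdiff mdiff_discriminant z
    have hne : (Δ ∘ ofComplex) (z : ℂ) ≠ 0 := by
      simpa using ModularForm.discriminant_ne_zero z
    have h2 := (hasDerivAt_zpow (-K) _ (Or.inl hne)).comp (z : ℂ) hΔ
    have h3 := h1.mul h2
    refine h3.congr_deriv ?_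
    rw [D_detFun_of_serre hΦ κ B hB hode z, D_discriminant]
    simp only [Function.comp_apply, ofComplex_apply, Pi.pow_apply]
    have hne' : Δ z ≠ 0 := ModularForm.discriminant_ne_zero z
    rw [zpow_sub_one₀ hne']
    rw [← hK]
    field_simp
    push_cast
    ring
  have hconst := isOpen_upperHalfPlaneSet.exists_is_const_of_deriv_eq_zero
    (Convex.isPreconnected (convex_halfSpace_im_gt 0)) (f := g)
    (fun u hu => (hder ⟨u, hu⟩).differentiableAt.differentiableWithinAt)
    (fun u hu => (hder ⟨u, hu⟩).deriv)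
  obtain ⟨c, hc⟩ := hconst
  refine ⟨c, fun z => ?_⟩
  have h := hc (z : ℂ) z.2
  simp only [hg, Function.comp_apply, ofComplex_apply] at h
  have hne' : Δ z ≠ 0 := ModularForm.discriminant_ne_zero z
  rw [← h, mul_assoc, ← zpow_add₀ hne']
  simp

/-- Consequence: non-vanishing at one point implies non-vanishing everywhere. -/
theorem detFun_ne_zero_of_exists {Φ : n → n → ℍ → ℂ} (hΦ : ∀ x j, MDiff (Φ x j)) (κ : n → ℤ)
    (B : n → n → ℍ → ℂ) (hB : ∀ j z, B j j z = 0)
    (hode : ∀ x j z, serreDerivative (κ j) (Φ x j) z = ∑ i, B j i z * Φ x i z)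
    {z₀ : ℍ} (h₀ : detFun Φ z₀ ≠ 0) :
    ∃ c : ℂ, c ≠ 0 ∧ (∀ z : ℍ, detFun Φ z ^ 12 = c * Δ z ^ (∑ j, κ j)) ∧
      ∀ z : ℍ, detFun Φ z ≠ 0 := by
  obtain ⟨c, hc⟩ := detFun_pow_twelve hΦ κ B hB hode
  have hc0 : c ≠ 0 := by
    rintro rfl
    have := hc z₀
    rw [zero_mul] at this
    exact h₀ (pow_eq_zero_iff (by norm_num) |>.mp this)
  refine ⟨c, hc0, hc, fun z hz => ?_⟩
  have := hc z
  rw [hz, zero_pow (by norm_num)] at this
  exact mul_ne_zero hc0 (zpow_ne_zero _ (ModularForm.discriminant_ne_zero z)) this.symm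

end

end Fermat.Agent.S20.DetODE
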