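import Mathlib

/-!
Abstract graded "regular sequence implies free" lemma used for S20.
-/

set_option linter.unusedSectionVars false

namespace Fermat.Agent.S20.GradedFree

open Module

universe u v

variable {A : Type v} {V : Type u} [CommRing A] [Algebra ℂ A] [AddCommGroup V] [Module A V]
  [Module ℂ V] [IsScalarTower ℂ A V]

/-- Hypotheses on a graded ring `R` (generated in positive degree by `x`, `y` of degrees 4, 6)
and a graded module `M` on which `x, y` is a regular sequence. -/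
structure Hyp (R : ℤ → Submodule ℂ A) (M : ℤ → Submodule ℂ V) (x y : A) : Prop where
  R_mul : ∀ {a b : ℤ} {r s : A}, r ∈ R a → s ∈ R b → r * s ∈ R (a + b)
  R_smul : ∀ {a b : ℤ} {r : A} {m : V}, r ∈ R a → m ∈ M b → r • m ∈ M (a + b)
  M_neg : ∀ k : ℤ, k < 0 → M k = ⊥
  R_neg : ∀ k : ℤ, k < 0 → R k = ⊥
  R_zero : ∀ r ∈ R 0, ∃ c : ℂ, r = algebraMap ℂ A c
  one_mem : (1 : A) ∈ R 0
  x_mem : x ∈ R 4
  y_mem : y ∈ R 6
  R_decomp : ∀ k : ℤ, k ≠ 0 → ∀ r ∈ R k, ∃ a ∈ R (k - 4), ∃ b ∈ R (k - 6), r = x * a + y * b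
  regular : ∀ k : ℤ, ∀ P ∈ M (k - 4), ∀ Q ∈ M (k - 6), x • P + y • Q = 0 →
    ∃ Q' ∈ M (k - 10), Q = x • Q' ∧ P = -(y • Q')

namespace Hyp

variable {R : ℤ → Submodule ℂ A} {M : ℤ → Submodule ℂ V} {x y : A}

lemma R_mul' (h : Hyp R M x y) {a b c : ℤ} {r s : A} (hr : r ∈ R a) (hs : s ∈ R b)
    (hc : a + b = c) : r * s ∈ R c := hc ▸ h.R_mul hr hs

lemma R_smul' (h : Hyp R M x y) {a b c : ℤ} {r : A} {m : V} (hr : r ∈ R a) (hm : m ∈ M b)
    (hc : a + b = c) : r • m ∈ M c := hc ▸ h.R_smul hr hm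

lemma algebraMap_mem (h : Hyp R M x y) (c : ℂ) : algebraMap ℂ A c ∈ R 0 := by
  rw [Algebra.algebraMap_eq_smul_one]
  exact (R 0).smul_mem c h.one_mem

end Hyp

lemma lc_mapRange {J : Type*} (v : J → V) (c : J →₀ ℂ) :
    Finsupp.linearCombination A v (c.mapRange (algebraMap ℂ A) (map_zero _)) =
      Finsupp.linearCombination ℂ v c := by
  rw [Finsupp.linearCombination_apply, Finsupp.linearCombination_apply,
    Finsupp.sum_mapRange_index (by simp)]
  simp [algebraMap_smul]

section Construction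

variable (M : ℤ → Submodule ℂ V) (x y : A)

/-- The decomposable part of weight `k`. -/
noncomputable def dec (k : ℤ) : Submodule ℂ V :=
  (M (k - 4)).map (Algebra.lsmul ℂ ℂ V x) ⊔ (M (k - 6)).map (Algebra.lsmul ℂ ℂ V y)

/-- A chosen complement of the decomposable part inside `M k`. -/
noncomputable def compl (k : ℤ) : Submodule ℂ V :=
  Classical.choose (Submodule.exists_isCompl (dec M x y k)) ⊓ M k

lemma mem_dec {k : ℤ} {m : V} :
    m ∈ dec M x y k ↔ ∃ P ∈ M (k - 4), ∃ Q ∈ M (k - 6), x • P + y • Q = m := by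
  simp only [dec, Submodule.mem_sup, Submodule.mem_map, Algebra.lsmul_coe]
  constructor
  · rintro ⟨_, ⟨P, hP, rfl⟩, _, ⟨Q, hQ, rfl⟩, rfl⟩
    exact ⟨P, hP, Q, hQ, rfl⟩
  · rintro ⟨P, hP, Q, hQ, rfl⟩
    exact ⟨_, ⟨P, hP, rfl⟩, _, ⟨Q, hQ, rfl⟩, rfl⟩

lemma compl_le (k : ℤ) : compl M x y k ≤ M k := inf_le_right

lemma compl_inf_dec (k : ℤ) : compl M x y k ⊓ dec M x y k = ⊥ := by
  have h := Classical.choose_spec (Submodule.exists_isCompl (dec M x y k))
  rw [eq_bot_iff]
  calc compl M x y k ⊓ dec M x y k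
      ≤ Classical.choose (Submodule.exists_isCompl (dec M x y k)) ⊓ dec M x y k :=
        inf_le_inf_right _ inf_le_left
    _ = ⊥ := by rw [inf_comm]; exact h.inf_eq_bot

/-- Index type of the generators. -/
abbrev Idx : Type u := Σ k : ℤ, ↥(Basis.ofVectorSpaceIndex ℂ ↥(compl M x y k))

/-- weight of a generator -/
def wt (i : Idx M x y) : ℤ := i.1

/-- the generators -/
noncomputable def gen (i : Idx M x y) : V :=
  ((Basis.ofVectorSpace ℂ ↥(compl M x y i.1) i.2 : ↥(compl M x y i.1)) : V)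

lemma gen_mem_compl (i : Idx M x y) : gen M x y i ∈ compl M x y (wt M x y i) :=
  (Basis.ofVectorSpace ℂ ↥(compl M x y i.1) i.2).2

lemma gen_mem (i : Idx M x y) : gen M x y i ∈ M (wt M x y i) :=
  compl_le M x y _ (gen_mem_compl M x y i)

lemma linearIndependent_gen (k : ℤ) :
    LinearIndependent ℂ (fun b : ↥(Basis.ofVectorSpaceIndex ℂ ↥(compl M x y k)) =>
      gen M x y ⟨k, b⟩) :=
  (Basis.ofVectorSpace ℂ ↥(compl M x y k)).linearIndependent.map' (compl M x y k).subtype
    (Submodule.ker_subtype _)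

lemma exists_lc_of_mem_compl {k : ℤ} {m : V} (hm : m ∈ compl M x y k) :
    ∃ c : ↥(Basis.ofVectorSpaceIndex ℂ ↥(compl M x y k)) →₀ ℂ,
      Finsupp.linearCombination ℂ (fun b => gen M x y ⟨k, b⟩) c = m := by
  refine ⟨(Basis.ofVectorSpace ℂ ↥(compl M x y k)).repr ⟨m, hm⟩, ?_⟩
  have h := (Basis.ofVectorSpace ℂ ↥(compl M x y k)).linearCombination_repr ⟨m, hm⟩
  have h2 := congrArg (compl M x y k).subtype h
  rw [Finsupp.apply_linearCombination] at h2
  exact h2

end Construction

section Main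

variable {R : ℤ → Submodule ℂ A} {M : ℤ → Submodule ℂ V} {x y : A}

lemma dec_le (h : Hyp R M x y) (k : ℤ) : dec M x y k ≤ M k := by
  intro m hm
  obtain ⟨P, hP, Q, hQ, rfl⟩ := (mem_dec M x y).1 hm
  exact (M k).add_mem (h.R_smul' h.x_mem hP (by ring)) (h.R_smul' h.y_mem hQ (by ring))

lemma compl_sup_dec (h : Hyp R M x y) (k : ℤ) : compl M x y k ⊔ dec M x y k = M k := by
  have hc := Classical.choose_spec (Submodule.exists_isCompl (dec M x y k))
  rw [sup_comm, compl, ← sup_inf_assoc_of_le _ (dec_le h k), hc.sup_eq_top, top_inf_eq]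

/-- the linear combination map -/
noncomputable abbrev T (M : ℤ → Submodule ℂ V) (x y : A) : (Idx M x y →₀ A) →ₗ[A] V :=
  Finsupp.linearCombination A (gen M x y)

lemma T_mem (h : Hyp R M x y) {k : ℤ} {r : Idx M x y →₀ A}
    (hr : ∀ i, r i ∈ R (k - wt M x y i)) : T M x y r ∈ M k := by
  rw [T, Finsupp.linearCombination_apply]
  exact Submodule.sum_mem _ fun i _ => h.R_smul' (hr i) (gen_mem M x y i) (by ring)

/-- the inclusion of the weight `k` indices -/
def sigEmb (M : ℤ → Submodule ℂ V) (x y : A) (k : ℤ) :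
    ↥(Basis.ofVectorSpaceIndex ℂ ↥(compl M x y k)) ↪ Idx M x y :=
  Function.Embedding.sigmaMk (β := fun k => ↥(Basis.ofVectorSpaceIndex ℂ ↥(compl M x y k))) k

/-- embedding of the coefficients of weight `k` generators -/
noncomputable def emb (M : ℤ → Submodule ℂ V) (x y : A) (k : ℤ)
    (c : ↥(Basis.ofVectorSpaceIndex ℂ ↥(compl M x y k)) →₀ ℂ) : Idx M x y →₀ A :=
  (c.mapRange (algebraMap ℂ A) (map_zero _)).embDomain (sigEmb M x y k)

lemma T_emb (k : ℤ) (c : ↥(Basis.ofVectorSpaceIndex ℂ ↥(compl M x y k)) →₀ ℂ) :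
    T M x y (emb M x y k c) = Finsupp.linearCombination ℂ (fun b => gen M x y ⟨k, b⟩) c := by
  rw [T, emb, Finsupp.linearCombination_embDomain, ← lc_mapRange (A := A)]
  rfl

lemma emb_apply_same (k : ℤ) (c : ↥(Basis.ofVectorSpaceIndex ℂ ↥(compl M x y k)) →₀ ℂ)
    (b : ↥(Basis.ofVectorSpaceIndex ℂ ↥(compl M x y k))) :
    emb M x y k c ⟨k, b⟩ = algebraMap ℂ A (c b) := by
  unfold emb
  rw [show (⟨k, b⟩ : Idx M x y) = sigEmb M x y k b from rfl, Finsupp.embDomain_apply_self]
  simp

lemma emb_apply_ne (k : ℤ) (c : ↥(Basis.ofVectorSpaceIndex ℂ ↥(compl M x y k)) →₀ ℂ)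
    (i : Idx M x y) (hi : wt M x y i ≠ k) : emb M x y k c i = 0 := by
  apply Finsupp.embDomain_of_notMem_range
  rintro ⟨b, rfl⟩
  exact hi rfl

lemma emb_mem (h : Hyp R M x y) (k : ℤ)
    (c : ↥(Basis.ofVectorSpaceIndex ℂ ↥(compl M x y k)) →₀ ℂ) (i : Idx M x y) :
    emb M x y k c i ∈ R (k - wt M x y i) := by
  by_cases hi : wt M x y i = k
  · obtain ⟨k', b⟩ := i
    simp only [wt] at hi
    subst hi
    rw [emb_apply_same]
    simpa [wt] using h.algebraMap_mem (c b)
  · rw [emb_apply_ne k c i hi]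
    exact Submodule.zero_mem _

theorem generation (h : Hyp R M x y) : ∀ (n : ℕ) (k : ℤ), k < n → ∀ m ∈ M k,
    ∃ r : Idx M x y →₀ A, (∀ i, r i ∈ R (k - wt M x y i)) ∧ T M x y r = m := by
  intro n
  induction n with
  | zero =>
    intro k hk m hm
    rw [h.M_neg k (by simpa using hk), Submodule.mem_bot] at hm
    exact ⟨0, fun i => by simp, by simp [hm]⟩
  | succ n ih =>
    intro k hk m hm
    rw [← compl_sup_dec h k, Submodule.mem_sup] at hm
    obtain ⟨mW, hmW, mD, hmD, rfl⟩ := hm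
    obtain ⟨c, hc⟩ := exists_lc_of_mem_compl M x y hmW
    obtain ⟨P, hP, Q, hQ, rfl⟩ := (mem_dec M x y).1 hmD
    obtain ⟨rP, hrP, hTP⟩ := ih (k - 4) (by push_cast at hk; linarith) P hP
    obtain ⟨rQ, hrQ, hTQ⟩ := ih (k - 6) (by push_cast at hk; linarith) Q hQ
    refine ⟨emb M x y k c + (x • rP + y • rQ), fun i => ?_, ?_⟩
    · simp only [Finsupp.add_apply, Finsupp.smul_apply, smul_eq_mul]
      exact Submodule.add_mem _ (emb_mem h k c i) (Submodule.add_mem _
        (h.R_mul' h.x_mem (hrP i) (by ring)) (h.R_mul' h.y_mem (hrQ i) (by ring)))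
    · rw [map_add, map_add, map_smul, map_smul, T_emb, hc, hTP, hTQ]

theorem generation' (h : Hyp R M x y) (k : ℤ) (m : V) (hm : m ∈ M k) :
    ∃ r : Idx M x y →₀ A, (∀ i, r i ∈ R (k - wt M x y i)) ∧ T M x y r = m :=
  generation h (k.toNat + 1) k (by have := Int.self_le_toNat k; push_cast; linarith) m hm

lemma wt_nonneg (h : Hyp R M x y) (i : Idx M x y) : 0 ≤ wt M x y i := by
  by_contra hneg
  push Not at hneg
  have h1 : gen M x y i ∈ M (wt M x y i) := gen_mem M x y i
  rw [h.M_neg _ hneg, Submodule.mem_bot] at h1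
  have h2 := (linearIndependent_gen M x y i.1).ne_zero i.2
  exact h2 h1

theorem independence (h : Hyp R M x y) : ∀ (n : ℕ) (k : ℤ), k < n → ∀ r : Idx M x y →₀ A,
    (∀ i, r i ∈ R (k - wt M x y i)) → T M x y r = 0 → r = 0 := by
  intro n
  induction n with
  | zero =>
    intro k hk r hr _
    ext i
    have := hr i
    rw [h.R_neg _ (by have := wt_nonneg h i; simp at hk; linarith), Submodule.mem_bot] at this
    simpa using this
  | succ n ih =>
    intro k hk r hr hT
    -- decompose the coefficients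
    have hdec : ∀ i, ∃ a b : A, a ∈ R (k - 4 - wt M x y i) ∧ b ∈ R (k - 6 - wt M x y i) ∧
        (wt M x y i ≠ k → r i = x * a + y * b) ∧ (r i = 0 → a = 0 ∧ b = 0) ∧
        (wt M x y i = k → a = 0 ∧ b = 0) := by
      intro i
      by_cases h0 : r i = 0 ∨ wt M x y i = k
      · refine ⟨0, 0, Submodule.zero_mem _, Submodule.zero_mem _, fun hne => ?_,
          fun _ => ⟨rfl, rfl⟩, fun _ => ⟨rfl, rfl⟩⟩
        rcases h0 with h0 | h0
        · simp [h0]
        · exact absurd h0 hne
      · push Not at h0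
        obtain ⟨a, ha, b, hb, hab⟩ := h.R_decomp (k - wt M x y i)
          (sub_ne_zero.2 (Ne.symm h0.2)) (r i) (hr i)
        refine ⟨a, b, ?_, ?_, fun _ => hab, fun h1 => absurd h1 h0.1, fun h1 => absurd h1 h0.2⟩
        · convert ha using 2; ring
        · convert hb using 2; ring
    choose a b ha hb hab h0 hk0 using hdec
    let af : Idx M x y →₀ A := Finsupp.onFinset r.support a (fun i hi => by
      rw [Finsupp.mem_support_iff]; intro h1; exact hi (h0 i h1).1)
    let bf : Idx M x y →₀ A := Finsupp.onFinset r.support b (fun i hi => by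
      rw [Finsupp.mem_support_iff]; intro h1; exact hi (h0 i h1).2)
    -- the constant part
    have hconst : ∀ β : ↥(Basis.ofVectorSpaceIndex ℂ ↥(compl M x y k)),
        ∃ c : ℂ, r ⟨k, β⟩ = algebraMap ℂ A c ∧ (r ⟨k, β⟩ = 0 → c = 0) := by
      intro β
      by_cases h1 : r ⟨k, β⟩ = 0
      · exact ⟨0, by simp [h1], fun _ => rfl⟩
      · have h2 := hr ⟨k, β⟩
        simp only [wt, sub_self] at h2
        obtain ⟨c, hc⟩ := h.R_zero _ h2
        exact ⟨c, hc, fun h3 => absurd h3 h1⟩
    choose c hc hc0 using hconst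
    let cf : ↥(Basis.ofVectorSpaceIndex ℂ ↥(compl M x y k)) →₀ ℂ :=
      Finsupp.onFinset (r.split k).support c (fun β hβ => by
        rw [Finsupp.mem_support_iff, Finsupp.split_apply]; intro h1; exact hβ (hc0 β h1))
    have hr_eq : r = emb M x y k cf + (x • af + y • bf) := by
      ext i
      simp only [Finsupp.add_apply, Finsupp.smul_apply, smul_eq_mul]
      by_cases hi : wt M x y i = k
      · have h1 : af i = 0 := (hk0 i hi).1
        have h2 : bf i = 0 := (hk0 i hi).2
        rw [h1, h2]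
        obtain ⟨k', β⟩ := i
        simp only [wt] at hi
        subst hi
        rw [emb_apply_same]
        have h3 : cf β = c β := rfl
        rw [h3]
        simpa using hc β
      · rw [emb_apply_ne k cf i hi]
        have h1 : af i = a i := rfl
        have h2 : bf i = b i := rfl
        rw [h1, h2]
        simpa using hab i hi
    have haf : ∀ i, af i ∈ R (k - 4 - wt M x y i) := ha
    have hbf : ∀ i, bf i ∈ R (k - 6 - wt M x y i) := hb
    have hP : T M x y af ∈ M (k - 4) := T_mem h haf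
    have hQ : T M x y bf ∈ M (k - 6) := T_mem h hbf
    have hsum : T M x y (emb M x y k cf) + (x • T M x y af + y • T M x y bf) = 0 := by
      rw [← hT, hr_eq, map_add, map_add, map_smul, map_smul]
    have hW : T M x y (emb M x y k cf) ∈ compl M x y k := by
      rw [T_emb, Finsupp.linearCombination_apply]
      exact Submodule.sum_mem _ fun β _ =>
        Submodule.smul_mem _ _ (gen_mem_compl M x y ⟨k, β⟩)
    have hD : x • T M x y af + y • T M x y bf ∈ dec M x y k :=
      (mem_dec M x y).2 ⟨_, hP, _, hQ, rfl⟩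
    have hW0 : T M x y (emb M x y k cf) = 0 := by
      have h1 : T M x y (emb M x y k cf) ∈ dec M x y k := by
        rw [eq_neg_of_add_eq_zero_left hsum]
        exact Submodule.neg_mem _ hD
      have h2 : T M x y (emb M x y k cf) ∈ compl M x y k ⊓ dec M x y k := ⟨hW, h1⟩
      rwa [compl_inf_dec, Submodule.mem_bot] at h2
    have hcf : cf = 0 := by
      rw [T_emb] at hW0
      exact (linearIndependent_iff.1 (linearIndependent_gen M x y k)) cf hW0
    have hrel : x • T M x y af + y • T M x y bf = 0 := by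
      rw [hW0, zero_add] at hsum; exact hsum
    obtain ⟨Q', hQ', hQeq, hPeq⟩ := h.regular k _ hP _ hQ hrel
    obtain ⟨s, hs, hTs⟩ := generation' h (k - 10) Q' hQ'
    have hb0 : bf - x • s = 0 := by
      apply ih (k - 6) (by push_cast at hk; linarith)
      · intro i
        simp only [Finsupp.sub_apply, Finsupp.smul_apply, smul_eq_mul]
        exact Submodule.sub_mem _ (hbf i) (h.R_mul' h.x_mem (hs i) (by ring))
      · rw [map_sub, map_smul, hTs, hQeq, sub_self]
    have ha0 : af + y • s = 0 := by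
      apply ih (k - 4) (by push_cast at hk; linarith)
      · intro i
        simp only [Finsupp.add_apply, Finsupp.smul_apply, smul_eq_mul]
        exact Submodule.add_mem _ (haf i) (h.R_mul' h.y_mem (hs i) (by ring))
      · rw [map_add, map_smul, hTs, hPeq, neg_add_cancel]
    have hb1 : bf = x • s := sub_eq_zero.1 hb0
    have ha1 : af = -(y • s) := eq_neg_of_add_eq_zero_left ha0
    rw [hr_eq, hcf, hb1, ha1]
    ext i
    simp [emb]
    ring

/-- **Graded freeness.** -/
theorem exists_free_generators (h : Hyp R M x y) :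
    ∃ (ι : Type u) (κ : ι → ℤ) (w : ι → V), (∀ i, w i ∈ M (κ i)) ∧
      (∀ k, ∀ m ∈ M k, ∃ r : ι →₀ A, (∀ i, r i ∈ R (k - κ i)) ∧
        Finsupp.linearCombination A w r = m) ∧
      (∀ k, ∀ r : ι →₀ A, (∀ i, r i ∈ R (k - κ i)) →
        Finsupp.linearCombination A w r = 0 → r = 0) :=
  ⟨Idx M x y, wt M x y, gen M x y, gen_mem M x y, generation' h, fun k r hr hT =>
    independence h (k.toNat + 1) k (by have := Int.self_le_toNat k; push_cast; linarith) r hr hT⟩

end Main

end Fermat.Agent.S20.GradedFree
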