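import Fermat.Agent.S20.Defs
import Fermat.Agent.S20.LevelOne
import Fermat.Agent.S20.GradedFree

/-!
# S20: `E4, E6` is a regular sequence on `⨁ MF Γ k` (owner: helper260)
-/

set_option autoImplicit false

open UpperHalfPlane ModularForm Matrix.SpecialLinearGroup Filter Topology
open scoped MatrixGroups ModularForm Manifold

namespace Fermat.Agent.S20.Regular

open Fermat.Agent.S20.LevelOne

noncomputable section

variable {Γ : Subgroup SL(2, ℤ)} {k : ℤ}

lemma E4_slash (γ : SL(2, ℤ)) : E4 ∣[(4 : ℤ)] γ = E4 := E4_mem.2.1 γ trivial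
lemma E6_slash (γ : SL(2, ℤ)) : E6 ∣[(6 : ℤ)] γ = E6 := E6_mem.2.1 γ trivial
lemma Dl_slash (γ : SL(2, ℤ)) : Dl ∣[(12 : ℤ)] γ = Dl := Dl_mem.2.1 γ trivial

/-- if `g` tends to `1` at infinity and `g * f` is bounded at infinity then so is `f` -/
lemma isBoundedAtImInfty_of_mul {g f : ℍ → ℂ} (hg : Tendsto g atImInfty (𝓝 1))
    (hgf : IsBoundedAtImInfty (g * f)) : IsBoundedAtImInfty f := by
  have h1 : ∀ᶠ z in atImInfty, (1 / 2 : ℝ) ≤ ‖g z‖ := by
    have := hg.norm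
    simp only [norm_one] at this
    exact this.eventually (Ici_mem_nhds (by norm_num))
  unfold IsBoundedAtImInfty BoundedAtFilter at *
  rw [Asymptotics.isBigO_iff] at *
  obtain ⟨c, hc⟩ := hgf
  refine ⟨2 * c, ?_⟩
  filter_upwards [h1, hc] with z hz1 hz2
  simp only [Pi.mul_apply, norm_mul, Pi.one_apply, norm_one, mul_one] at *
  nlinarith [norm_nonneg (f z), norm_nonneg (g z)]

theorem regular (P Q : ℍ → ℂ) (hP : P ∈ MF Γ (k - 4)) (hQ : Q ∈ MF Γ (k - 6))
    (h : E4 * P + E6 * Q = 0) : ∃ Q' ∈ MF Γ (k - 10), Q = E4 * Q' ∧ P = -(E6 * Q') := by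
  have hz : ∀ z, E4 z * P z + E6 z * Q z = 0 := fun z => congrFun h z
  set N : ℍ → ℂ := E4 * E4 * Q + E6 * P with hN
  have hNmem : N ∈ MF Γ (k + 2) := by
    refine Submodule.add_mem _ ?_ ?_
    · have := mul_mem_MF (Γ := Γ) (mul_mem_MF (R_le_MF E4_mem) (R_le_MF E4_mem)) hQ
      convert this using 2; ring
    · have := mul_mem_MF (Γ := Γ) (R_le_MF E6_mem) hP
      convert this using 2; ring
  set Q' : ℍ → ℂ := (1 / 1728 : ℂ) • (N / Dl) with hQ'
  have hQeq : Q = E4 * Q' := by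
    ext z
    have hD := Dl_ne_zero z
    have hDe := Dl_eq z
    simp only [hQ', hN, Pi.mul_apply, Pi.smul_apply, Pi.div_apply, Pi.add_apply, smul_eq_mul]
    field_simp
    rw [hDe]
    linear_combination (-E6 z) * hz z
  have hPeq : P = -(E6 * Q') := by
    ext z
    have hD := Dl_ne_zero z
    have hDe := Dl_eq z
    simp only [hQ', hN, Pi.mul_apply, Pi.smul_apply, Pi.div_apply, Pi.add_apply, smul_eq_mul,
      Pi.neg_apply]
    field_simp
    rw [hDe]
    linear_combination (E4 z * E4 z) * hz z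
  have hslash : ∀ γ : SL(2, ℤ), Q' ∣[k - 10] γ = (1 / 1728 : ℂ) • ((N ∣[k + 2] γ) / Dl) := by
    intro γ
    rw [hQ', SL_smul_slash, show k - 10 = (k + 2) - 12 by ring, div_slash_SL2, Dl_slash]
  refine ⟨Q', ⟨?_, ?_, ?_⟩, hQeq, hPeq⟩
  · exact (hNmem.1.div Dl_mem.1 Dl_ne_zero).const_smul _
  · intro γ hγ
    rw [hslash, hNmem.2.1 γ hγ]
  · intro γ
    -- `E4 * (Q' ∣ γ) = Q ∣ γ`
    apply isBoundedAtImInfty_of_mul tendsto_E4
    have : E4 * (Q' ∣[k - 10] γ) = Q ∣[k - 6] γ := by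
      conv_rhs => rw [hQeq, show k - 6 = 4 + (k - 10) by ring, mul_slash_SL2, E4_slash]
    rw [this]
    exact hQ.2.2 γ

lemma MF_eq_bot_of_neg [Γ.FiniteIndex] (hk : k < 0) : MF Γ k = ⊥ := by
  rw [eq_bot_iff]
  intro g hg
  have := ModularForm.isZero_of_neg_weight hk (toModularForm hg)
  have h2 := congrArg (fun F : ModularForm (Γ : Subgroup (GL (Fin 2) ℝ)) k => (F : ℍ → ℂ)) this
  simpa using h2

theorem hyp [Γ.FiniteIndex] : GradedFree.Hyp (A := ℍ → ℂ) (V := ℍ → ℂ) R (MF Γ) E4 E6 where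
  R_mul := fun hr hs => mul_mem_MF hr hs
  R_smul := fun hr hm => mul_mem_MF (R_le_MF hr) hm
  M_neg := fun _ hk => MF_eq_bot_of_neg hk
  R_neg := fun _ hk => R_eq_bot_of_neg hk
  R_zero := fun r hr => by
    obtain ⟨c, hc⟩ := exists_const_of_mem_R_zero hr
    exact ⟨c, hc⟩
  one_mem := one_mem_R_zero
  x_mem := E4_mem
  y_mem := E6_mem
  R_decomp := fun _ hk _ hr => exists_decomp hk hr
  regular := fun _ P hP Q hQ h => regular P Q hP hQ h

end

end Fermat.Agent.S20.Regular
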