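import Fermat.Agent.S20.Defs
import Fermat.Agent.S20.DetODE
import Fermat.Agent.S20.LevelOne
import Fermat.Agent.S20.Regular
import Fermat.Agent.S20.GradedFree

/-!
# S20, Task E: determinants of frames are level one forms; existence of a free basis
(owner: helper260)
-/

set_option autoImplicit false
set_option linter.unusedSectionVars false

open UpperHalfPlane ModularForm Matrix.SpecialLinearGroup Filter Topology
open scoped MatrixGroups ModularForm Manifold

namespace Fermat.Agent.S20.FreeBasis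

open Fermat.Agent.S20.LevelOne

noncomputable section

variable {Γ : Subgroup SL(2, ℤ)} [Γ.FiniteIndex]

/-! local copies of the small `vec` API (kept in this namespace, so that this file does not
depend on `Basic.lean`) -/

theorem vec_mul_R {k l : ℤ} {A f : ℍ → ℂ} (hA : A ∈ R k) (q : Q Γ) :
    vec (k + l) (A * f) q = A * vec l f q := by
  unfold vec
  rw [ModularForm.mul_slash_SL2, hA.2.1 _ trivial]

theorem vec_add (k : ℤ) (f g : ℍ → ℂ) (q : Q Γ) : vec k (f + g) q = vec k f q + vec k g q := by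
  unfold vec
  rw [SlashAction.add_slash]

theorem vec_zero (k : ℤ) (q : Q Γ) : vec k (0 : ℍ → ℂ) q = 0 := by
  unfold vec
  rw [SlashAction.zero_slash]

theorem vec_sum {ι : Type*} (k : ℤ) (s : Finset ι) (f : ι → ℍ → ℂ) (q : Q Γ) :
    vec k (∑ i ∈ s, f i) q = ∑ i ∈ s, vec k (f i) q := by
  classical
  induction s using Finset.induction_on with
  | empty => simp [vec_zero]
  | insert a s ha ih => rw [Finset.sum_insert ha, Finset.sum_insert ha, vec_add, ih]

theorem vec_mul (k l : ℤ) (f g : ℍ → ℂ) (q : Q Γ) :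
    vec (k + l) (f * g) q = vec k f q * vec l g q := by
  unfold vec
  rw [ModularForm.mul_slash_SL2]

theorem vec_mdiff {k : ℤ} {f : ℍ → ℂ} (hf : MDiff f) (q : Q Γ) : MDiff (vec k f q) :=
  hf.slash k _

theorem vec_bdd {k : ℤ} {f : ℍ → ℂ} (hf : f ∈ MF Γ k) (q : Q Γ) :
    IsBoundedAtImInfty (vec k f q) :=
  hf.2.2 _

lemma prod_zpow_eq {ι : Type*} (s : Finset ι) (a : ℂ) (ha : a ≠ 0) (f : ι → ℤ) :
    ∏ i ∈ s, a ^ (f i) = a ^ (∑ i ∈ s, f i) := by
  classical
  induction s using Finset.induction_on with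
  | empty => simp
  | insert i s hi ih => rw [Finset.prod_insert hi, Finset.sum_insert hi, ih, zpow_add₀ ha]

/-- the determinant function of a frame -/
def dt (wt : Q Γ → ℤ) (F : Q Γ → ℍ → ℂ) : ℍ → ℂ := fun z => (Phi (Γ := Γ) wt F z).det

lemma dt_mdiff {wt : Q Γ → ℤ} {F : Q Γ → ℍ → ℂ} (hF : ∀ j, F j ∈ MF Γ (wt j)) :
    MDiff (dt wt F) :=
  DetODE.mdiff_detFun (Φ := fun q j => vec (wt j) (F j) q) fun q j => vec_mdiff (hF j).1 q

lemma dt_bdd {wt : Q Γ → ℤ} {F : Q Γ → ℍ → ℂ} (hF : ∀ j, F j ∈ MF Γ (wt j)) :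
    IsBoundedAtImInfty (dt wt F) := by
  have : dt wt F = ∑ σ : Equiv.Perm (Q Γ), ((Equiv.Perm.sign σ : ℤ) : ℂ) •
      ∏ j, vec (wt j) (F j) (σ j) := by
    ext z
    simp only [dt, Phi, Matrix.det_apply', Finset.sum_apply, Pi.smul_apply, Finset.prod_apply,
      smul_eq_mul, Matrix.of_apply]
  rw [this]
  refine Asymptotics.IsBigO.sum fun σ _ => ?_
  exact (Filter.BoundedAtFilter.prod _ fun j _ => vec_bdd (hF j) (σ j)).const_smul_left _

lemma Phi_smul {wt : Q Γ → ℤ} {F : Q Γ → ℍ → ℂ} (hF : ∀ j, F j ∈ MF Γ (wt j)) (γ : SL(2, ℤ))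
    (z : ℍ) (q j : Q Γ) :
    Phi (Γ := Γ) wt F (γ • z) q j = denom γ z ^ (wt j) * Phi (Γ := Γ) wt F z (γ⁻¹ • q) j := by
  have h := congrFun (vec_slash (hF j).2.1 q γ) z
  rw [SL_slash_apply] at h
  simp only [Phi, Matrix.of_apply]
  rw [← h, mul_comm, mul_assoc, ← zpow_add₀ (denom_ne_zero _ z)]
  simp

lemma dt_slash {wt : Q Γ → ℤ} {F : Q Γ → ℍ → ℂ} (hF : ∀ j, F j ∈ MF Γ (wt j)) (γ : SL(2, ℤ)) :
    dt wt F ∣[∑ j, wt j] γ =
      ((Equiv.Perm.sign (MulAction.toPerm γ⁻¹ : Equiv.Perm (Q Γ)) : ℤ) : ℂ) • dt wt F := by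
  ext z
  rw [SL_slash_apply]
  have h1 : Phi (Γ := Γ) wt F (γ • z) = Matrix.of fun q j => denom γ z ^ (wt j) *
      ((Phi (Γ := Γ) wt F z).submatrix (MulAction.toPerm γ⁻¹ : Equiv.Perm (Q Γ)) id) q j := by
    ext q j
    rw [Phi_smul hF]
    rfl
  simp only [dt, Pi.smul_apply, smul_eq_mul]
  rw [h1, Matrix.det_mul_row, Matrix.det_permute, prod_zpow_eq _ _ (denom_ne_zero _ z)]
  rw [mul_comm, ← mul_assoc, ← zpow_add₀ (denom_ne_zero _ z)]
  simp

theorem det_mul_det_mem (wt wt' : Q Γ → ℤ) (F F' : Q Γ → ℍ → ℂ) (hF : ∀ j, F j ∈ MF Γ (wt j))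
    (hF' : ∀ j, F' j ∈ MF Γ (wt' j)) :
    (fun z => (Phi (Γ := Γ) wt F z).det * (Phi (Γ := Γ) wt' F' z).det)
      ∈ R (∑ j, wt j + ∑ j, wt' j) := by
  change dt wt F * dt wt' F' ∈ R (∑ j, wt j + ∑ j, wt' j)
  have hinv : ∀ γ : SL(2, ℤ), (dt wt F * dt wt' F') ∣[∑ j, wt j + ∑ j, wt' j] γ =
      dt wt F * dt wt' F' := by
    intro γ
    rw [mul_slash_SL2, dt_slash hF, dt_slash hF']
    ext z
    simp only [Pi.mul_apply, Pi.smul_apply, smul_eq_mul]
    have h : (((Equiv.Perm.sign (MulAction.toPerm γ⁻¹ : Equiv.Perm (Q Γ)) : ℤ) : ℂ)) *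
        (((Equiv.Perm.sign (MulAction.toPerm γ⁻¹ : Equiv.Perm (Q Γ)) : ℤ) : ℂ)) = 1 := by
      rw [← Int.cast_mul, ← Units.val_mul, Int.units_mul_self]
      simp
    linear_combination (dt wt F z * dt wt' F' z) * h
  refine ⟨(dt_mdiff hF).mul (dt_mdiff hF'), fun γ _ => hinv γ, fun γ => ?_⟩
  rw [hinv]
  exact (dt_bdd hF).mul (dt_bdd hF')

lemma vec_lc {ι : Type} {κ : ι → ℤ} {w : ι → ℍ → ℂ} {k : ℤ} (r : ι →₀ (ℍ → ℂ))
    (hr : ∀ i, r i ∈ R (k - κ i)) (q : Q Γ) :
    vec k (Finsupp.linearCombination (ℍ → ℂ) w r) q =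
      ∑ i ∈ r.support, r i * vec (κ i) (w i) q := by
  rw [Finsupp.linearCombination_apply, Finsupp.sum, vec_sum]
  refine Finset.sum_congr rfl fun i _ => ?_
  have := vec_mul_R (Γ := Γ) (l := κ i) (f := w i) (hr i) q
  rwa [sub_add_cancel] at this

lemma Phi_update (wt : Q Γ → ℤ) (F : Q Γ → ℍ → ℂ) (j : Q Γ) (k : ℤ) (f : ℍ → ℂ) (z : ℍ) :
    Phi (Γ := Γ) (Function.update wt j k) (Function.update F j f) z =
      (Phi (Γ := Γ) wt F z).updateCol j (fun q => vec k f q z) := by
  ext q j'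
  by_cases h : j' = j
  · subst h
    simp [Phi]
  · simp [Phi, Matrix.updateCol_ne h, Function.update_of_ne h]

lemma single_mem {ι : Type} {κ : ι → ℤ} {k : ℤ} {a : ι} {v : ℍ → ℂ} (hv : v ∈ R (k - κ a))
    (i : ι) : (Finsupp.single a v) i ∈ R (k - κ i) := by
  classical
  rw [Finsupp.single_apply]
  split_ifs with h
  · subst h; exact hv
  · exact Submodule.zero_mem _

theorem exists_isFreeBasis_of_nondeg
    (hnd : ∃ (wt0 : Q Γ → ℤ) (F0 : Q Γ → ℍ → ℂ), (∀ j, F0 j ∈ MF Γ (wt0 j)) ∧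
      ∃ z, (Phi (Γ := Γ) wt0 F0 z).det ≠ 0) :
    ∃ (wt : Q Γ → ℤ) (F : Q Γ → ℍ → ℂ), IsFreeBasis Γ wt F := by
  classical
  obtain ⟨wt0, F0, hF0, z0, hz0⟩ := hnd
  obtain ⟨ι, κ, w, hw, hgen, hind⟩ :=
    GradedFree.exists_free_generators (Regular.hyp (Γ := Γ))
  -- the evaluation vectors
  set u : ι → (Q Γ → ℂ) := fun i q => vec (κ i) (w i) q z0 with hu
  -- they span
  have hspan : Submodule.span ℂ (Set.range u) = ⊤ := by
    rw [eq_top_iff]
    have hunit : IsUnit (Phi (Γ := Γ) wt0 F0 z0) :=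
      (Matrix.isUnit_iff_isUnit_det _).2 (isUnit_iff_ne_zero.2 hz0)
    have hli := Matrix.linearIndependent_cols_iff_isUnit.2 hunit
    have htop := hli.span_eq_top_of_card_eq_finrank' (by simp)
    rw [← htop, Submodule.span_le]
    rintro _ ⟨j, rfl⟩
    obtain ⟨r, hr, hrj⟩ := hgen (wt0 j) (F0 j) (hF0 j)
    have hcol : (Phi (Γ := Γ) wt0 F0 z0).col j = ∑ i ∈ r.support, (r i z0) • u i := by
      ext q
      have h1 := congrFun (vec_lc (Γ := Γ) (w := w) r hr q) z0
      rw [hrj] at h1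
      simp only [Matrix.col_apply, Phi, Matrix.of_apply, h1, Finset.sum_apply, Pi.mul_apply,
        Pi.smul_apply, smul_eq_mul, hu]
    rw [hcol]
    exact Submodule.sum_mem _ fun i _ => Submodule.smul_mem _ _
      (Submodule.subset_span (Set.mem_range_self i))
  obtain ⟨f, hf, -, hfli⟩ := Submodule.exists_fun_fin_finrank_span_eq ℂ (Set.range u)
  have hcard : Module.finrank ℂ ↥(Submodule.span ℂ (Set.range u)) = Fintype.card (Q Γ) := by
    rw [hspan, finrank_top]; simp
  choose idx hidx using hf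
  let e : Q Γ ≃ Fin (Module.finrank ℂ ↥(Submodule.span ℂ (Set.range u))) :=
    Fintype.equivFinOfCardEq hcard.symm
  set σ : Q Γ → ι := fun j => idx (e j) with hσ
  set wt : Q Γ → ℤ := fun j => κ (σ j) with hwt
  set F : Q Γ → ℍ → ℂ := fun j => w (σ j) with hFdef
  have hFmem : ∀ j, F j ∈ MF Γ (wt j) := fun j => hw (σ j)
  have hcols : (Phi (Γ := Γ) wt F z0).col = fun j => f (e j) := by
    ext j q
    rw [← hidx (e j)]
    rfl
  have hdet : (Phi (Γ := Γ) wt F z0).det ≠ 0 := by
    have hli : LinearIndependent ℂ (Phi (Γ := Γ) wt F z0).col := by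
      rw [hcols]
      exact hfli.comp _ e.injective
    have := Matrix.linearIndependent_cols_iff_isUnit.1 hli
    exact isUnit_iff_ne_zero.1 ((Matrix.isUnit_iff_isUnit_det _).1 this)
  have hσinj : Function.Injective σ := by
    intro a b hab
    apply e.injective
    apply hfli.injective
    rw [← hidx, ← hidx]
    exact congrArg u hab
  -- surjectivity by Cramer
  have hσsurj : Function.Surjective σ := by
    intro β
    by_contra hβ
    push Not at hβ
    set K : ℤ := ∑ j, wt j with hK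
    set δ : ℍ → ℂ := dt wt F with hδ
    set c : Q Γ → ℍ → ℂ := fun j => dt (Function.update wt j (κ β)) (Function.update F j (w β))
      with hc
    have hupd : ∀ j j', Function.update F j (w β) j' ∈ MF Γ (Function.update wt j (κ β) j') := by
      intro j j'
      by_cases h : j' = j
      · subst h; simpa using hw β
      · simpa [Function.update_of_ne h] using hFmem j'
    have hδδ : δ * δ ∈ R (K + K) := det_mul_det_mem wt wt F F hFmem hFmem
    have hδc : ∀ j, δ * c j ∈ R (K + (K - wt j + κ β)) := by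
      intro j
      have := det_mul_det_mem wt (Function.update wt j (κ β)) F (Function.update F j (w β))
        hFmem (hupd j)
      rw [Finset.sum_update_of_mem (Finset.mem_univ j)] at this
      have h2 : ∑ x ∈ Finset.univ \ {j}, wt x = K - wt j := by
        rw [hK, Finset.sum_sdiff_eq_sub (Finset.subset_univ _)]
        simp
      rw [h2, add_comm (κ β)] at this
      exact this
    -- the Cramer identity at the trivial coset
    have hcram : ∀ z, ∑ j, F j z * c j z = δ z * w β z := by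
      intro z
      have h1 := congrFun (Matrix.mulVec_cramer (Phi (Γ := Γ) wt F z)
        (fun q => vec (κ β) (w β) q z)) ((1 : SL(2, ℤ)) : Q Γ)
      simp only [Matrix.mulVec, dotProduct, Matrix.cramer_apply, Pi.smul_apply, smul_eq_mul] at h1
      rw [vec_one (hw β).2.1] at h1
      rw [hδ, dt, ← h1]
      refine Finset.sum_congr rfl fun j _ => ?_
      rw [hc]
      simp only [dt, Phi_update]
      congr 1
      simp only [Phi, Matrix.of_apply]
      rw [vec_one (hFmem j).2.1]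
    set k : ℤ := K + K + κ β with hk
    set r : ι →₀ (ℍ → ℂ) := Finsupp.single β (δ * δ) - ∑ j, Finsupp.single (σ j) (δ * c j)
      with hr
    have hrmem : ∀ i, r i ∈ R (k - κ i) := by
      intro i
      rw [hr, Finsupp.sub_apply, Finsupp.finsetSum_apply]
      refine Submodule.sub_mem _ (single_mem (by convert hδδ using 2; rw [hk]; ring) i)
        (Submodule.sum_mem _ fun j _ => single_mem (by
          convert hδc j using 2; rw [hk]; simp only [hwt]; ring) i)
    have hr0 : Finsupp.linearCombination (ℍ → ℂ) w r = 0 := by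
      rw [hr, map_sub, map_sum]
      simp only [Finsupp.linearCombination_single, smul_eq_mul]
      ext z
      simp only [Pi.sub_apply, Pi.mul_apply, Finset.sum_apply, Pi.zero_apply]
      have := hcram z
      have h2 : ∑ j, δ z * c j z * w (σ j) z = δ z * ∑ j, F j z * c j z := by
        rw [Finset.mul_sum]
        refine Finset.sum_congr rfl fun j _ => ?_
        simp only [hFdef]; ring
      rw [h2, this]; ring
    have hrz := hind k r hrmem hr0
    have hrβ : r β = δ * δ := by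
      rw [hr, Finsupp.sub_apply, Finsupp.finsetSum_apply, Finsupp.single_eq_same]
      have : ∑ j, (Finsupp.single (σ j) (δ * c j)) β = 0 :=
        Finset.sum_eq_zero fun j _ => Finsupp.single_eq_of_ne (Ne.symm (hβ j))
      rw [this, sub_zero]
    rw [hrz] at hrβ
    have := congrFun hrβ z0
    simp only [Finsupp.coe_zero, Pi.zero_apply, Pi.mul_apply] at this
    exact hdet (mul_self_eq_zero.1 this.symm)
  let σe : Q Γ ≃ ι := Equiv.ofBijective σ ⟨hσinj, hσsurj⟩
  let _ : Fintype ι := Fintype.ofEquiv _ σe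
  have hsum : ∀ r : ι →₀ (ℍ → ℂ), Finsupp.linearCombination (ℍ → ℂ) w r =
      ∑ j, r (σ j) * F j := by
    intro r
    rw [Finsupp.linearCombination_apply, Finsupp.sum_fintype _ _ (by simp)]
    exact (Equiv.sum_comp σe fun i => r i • w i).symm
  refine ⟨wt, F, hFmem, ?_, ?_, ⟨z0, hdet⟩⟩
  · intro k g hg
    obtain ⟨r, hr, hrg⟩ := hgen k g hg
    exact ⟨fun j => r (σ j), fun j => hr (σ j), by rw [← hrg, hsum]⟩
  · intro k A hA h0
    set r : ι →₀ (ℍ → ℂ) := Finsupp.equivFunOnFinite.symm (fun i => A (σe.symm i)) with hr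
    have hrσ : ∀ j, r (σ j) = A j := by
      intro j
      rw [hr]
      simp only [Finsupp.equivFunOnFinite_symm_apply_apply]
      congr 1
      exact σe.symm_apply_apply j
    have hrz := hind k r (fun i => by
      obtain ⟨j, rfl⟩ := hσsurj i
      rw [hrσ]; exact hA j) (by rw [hsum]; simp only [hrσ]; exact h0)
    intro j
    rw [← hrσ, hrz]
    rfl

lemma pow_mem_MF {k : ℤ} {h : ℍ → ℂ} (hh : h ∈ MF Γ k) (n : ℕ) : h ^ n ∈ MF Γ (k * n) := by
  induction n with
  | zero =>
    simp only [pow_zero, Nat.cast_zero, mul_zero]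
    exact R_le_MF one_mem_R_zero
  | succ n ih =>
    rw [pow_succ]
    have := mul_mem_MF ih hh
    convert this using 2
    push_cast; ring

lemma vec_pow (k : ℤ) (h : ℍ → ℂ) (n : ℕ) (q : Q Γ) :
    vec (k * n) (h ^ n) q = (vec k h q) ^ n := by
  induction n with
  | zero =>
    simp only [pow_zero, Nat.cast_zero, mul_zero]
    unfold vec
    exact one_mem_R_zero.2.1 _ trivial
  | succ n ih =>
    rw [pow_succ, pow_succ, ← ih, ← vec_mul]
    congr 1
    push_cast; ring

/-- **Task E**: existence of a free basis from a separating form. -/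
theorem exists_freeBasis
    (hsep : ∃ k : ℤ, ∃ h ∈ MF Γ k, ∀ g : SL(2, ℤ), h ∣[k] g = h → g ∈ Γ) :
    ∃ (wt : Q Γ → ℤ) (F : Q Γ → ℍ → ℂ), IsFreeBasis Γ wt F := by
  classical
  obtain ⟨k, h, hh, hs⟩ := hsep
  let e : Q Γ ≃ Fin (Fintype.card (Q Γ)) := Fintype.equivFin _
  refine exists_isFreeBasis_of_nondeg ⟨fun j => k * ((e j : ℕ) : ℤ), fun j => h ^ (e j : ℕ),
    fun j => pow_mem_MF hh _, ?_⟩
  -- the translates are pairwise distinct
  have hinj : Function.Injective (fun q : Q Γ => vec k h q) := by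
    intro q q' hqq
    induction q using QuotientGroup.induction_on with
    | H g =>
      induction q' using QuotientGroup.induction_on with
      | H g' =>
        simp only at hqq
        rw [vec_mk hh.2.1, vec_mk hh.2.1] at hqq
        have h1 : h ∣[k] (g⁻¹ * g') = h := by
          rw [SlashAction.slash_mul, hqq, ← SlashAction.slash_mul]
          simp
        exact QuotientGroup.eq.2 (hs _ h1)
  -- the Vandermonde product is a nonzero function
  have hprod : (∏ i : Fin (Fintype.card (Q Γ)), ∏ j ∈ Finset.Ioi i,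
      (vec k h (e.symm j) - vec k h (e.symm i))) ≠ 0 := by
    intro h0
    rw [UpperHalfPlane.prod_eq_zero_iff (fun i _ => ?_)] at h0
    · obtain ⟨i, -, hi⟩ := h0
      rw [UpperHalfPlane.prod_eq_zero_iff
        (fun j _ => (vec_mdiff hh.1 _).sub (vec_mdiff hh.1 _))] at hi
      obtain ⟨j, hj, hij⟩ := hi
      have := e.symm.injective (hinj (sub_eq_zero.1 hij))
      exact (ne_of_gt (Finset.mem_Ioi.1 hj)) this
    · exact MDifferentiable.prod fun j _ => (vec_mdiff hh.1 _).sub (vec_mdiff hh.1 _)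
  obtain ⟨z, hz⟩ := Function.ne_iff.1 hprod
  refine ⟨z, ?_⟩
  have hPhi : Phi (Γ := Γ) (fun j => k * ((e j : ℕ) : ℤ)) (fun j => h ^ (e j : ℕ)) z =
      (Matrix.vandermonde (fun i => vec k h (e.symm i) z)).submatrix e e := by
    ext q j
    simp only [Phi, Matrix.of_apply, Matrix.submatrix_apply, Matrix.vandermonde_apply,
      Equiv.symm_apply_apply, vec_pow, Pi.pow_apply]
  rw [hPhi, Matrix.det_submatrix_equiv_self, Matrix.det_vandermonde]
  simpa [Finset.prod_apply] using hz

end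

end Fermat.Agent.S20.FreeBasis
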