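import Fermat.Agent.S20.Defs

/-!
S20, Task K: the final linear algebra on the weights of a free basis.
-/

set_option autoImplicit false

open UpperHalfPlane ModularForm Module
open scoped MatrixGroups ModularForm Manifold

namespace Fermat.Agent.S20

noncomputable section

namespace NumericsAux

/-- Dimension of the space of level one forms of even weight `k ≥ 0`. -/
theorem finrank_R_nat' (k : ℕ) (hk : Even k) :
    finrank ℂ (R (k : ℤ)) = if k % 12 = 2 then k / 12 else k / 12 + 1 := by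
  rw [← (Requiv (k : ℤ)).finrank_eq]
  have h := ModularForm.dimension_level_one k hk
  unfold finrank
  rw [h]
  have h2 : (k ≡ 2 [MOD 12]) ↔ k % 12 = 2 := by
    unfold Nat.ModEq; norm_num
  by_cases hk2 : k % 12 = 2
  · rw [if_pos (h2.mpr hk2), if_pos hk2]
    exact Cardinal.toNat_natCast _
  · rw [if_neg (fun h => hk2 (h2.mp h)), if_neg hk2]
    exact Cardinal.toNat_natCast _

theorem finrank_R_neg' {k : ℤ} (hk : k < 0) : finrank ℂ (R k) = 0 := by
  rw [← (Requiv k).finrank_eq]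
  unfold finrank
  rw [ModularForm.levelOne_neg_weight_rank_zero hk]
  simp

/-- Regrouping a sum according to the value of the weight. -/
theorem sum_comp_wt {ι : Type} [Fintype ι] {M : Type*} [AddCommMonoid M] (wt : ι → ℤ)
    (S : Finset ℤ) (hS : ∀ j, wt j ∈ S) (g : ℤ → M) :
    ∑ j, g (wt j) = ∑ a ∈ S, (Finset.univ.filter fun j => wt j = a).card • g a := by
  classical
  rw [← Finset.sum_fiberwise_of_maps_to (s := Finset.univ) (t := S) (g := wt)
    (fun j _ => hS j)]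
  refine Finset.sum_congr rfl fun a _ => ?_
  rw [Finset.sum_congr rfl (fun j hj => by rw [(Finset.mem_filter.mp hj).2]), Finset.sum_const]

theorem xi_sq : ((rho : ℂ) + 1) ^ 2 = ((rho : ℂ) + 1) - 1 := by
  have h3 : ((Real.sqrt 3 : ℝ) : ℂ) ^ 2 = 3 := by
    rw [← Complex.ofReal_pow, Real.sq_sqrt (by norm_num)]; norm_num
  have hr : (rho : ℂ) = -1 / 2 + ((Real.sqrt 3 / 2 : ℝ) : ℂ) * Complex.I := rfl
  rw [hr]
  push_cast
  have hI : Complex.I ^ 2 = -1 := Complex.I_sq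
  linear_combination (1 / 4 : ℂ) * Complex.I ^ 2 * h3 + (3 / 4 : ℂ) * hI

theorem xi_re : (((rho : ℂ) + 1)).re = 1 / 2 := by
  have hr : (rho : ℂ) = -1 / 2 + ((Real.sqrt 3 / 2 : ℝ) : ℂ) * Complex.I := rfl
  rw [hr]
  simp
  norm_num

theorem xi_im : (((rho : ℂ) + 1)).im = Real.sqrt 3 / 2 := by
  have hr : (rho : ℂ) = -1 / 2 + ((Real.sqrt 3 / 2 : ℝ) : ℂ) * Complex.I := rfl
  rw [hr]
  simp

end NumericsAux

open NumericsAux in
theorem numerics {ι : Type} [Fintype ι] (wt : ι → ℤ) (d s : ℤ → ℕ)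
    (hd : ∀ w, d w = ∑ j, finrank ℂ (R (w - wt j)))
    (hs : ∀ w, s w = ∑ j, finrank ℂ (R (w + wt j - 12)))
    (hd0 : d 0 = 1) (hdneg : ∀ w < 0, d w = 0) (hs0 : ∀ w ≤ 0, s w = 0)
    (heven : ∀ j, Even (wt j)) (e2 e3 c : ℕ)
    (h2 : (e2 : ℂ) = ∑ j, Complex.I ^ (-wt j))
    (h3 : (e3 : ℂ) = ∑ j, ((rho : ℂ) + 1) ^ (-wt j))
    (hc : ∀ w, (∀ j, wt j + 4 ≤ w) → Even w → d w = s w + c) :
    (s 2 : ℚ) = 1 + (Fintype.card ι : ℚ) / 12 - (e2 : ℚ) / 4 - (e3 : ℚ) / 3 - (c : ℚ) / 2 := by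
  classical
  have hr0 : finrank ℂ (R 0) = 1 := by
    have := finrank_R_nat' 0 (by simp)
    simpa using this
  -- the weights are nonnegative
  have hnonneg : ∀ j, 0 ≤ wt j := by
    intro j0
    by_contra hlt
    push Not at hlt
    have h1 := hdneg (wt j0) hlt
    rw [hd] at h1
    have h4 := (Finset.sum_eq_zero_iff.mp h1) j0 (Finset.mem_univ _)
    rw [sub_self, hr0] at h4
    exact one_ne_zero h4
  have hle : ∀ j, wt j ≤ 11 := by
    intro j0
    by_contra hlt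
    push Not at hlt
    have h1 := hs0 (12 - wt j0) (by omega)
    rw [hs] at h1
    have h4 := (Finset.sum_eq_zero_iff.mp h1) j0 (Finset.mem_univ _)
    rw [show 12 - wt j0 + wt j0 - 12 = 0 by ring, hr0] at h4
    exact one_ne_zero h4
  set S : Finset ℤ := {0, 2, 4, 6, 8, 10} with hSdef
  have hS : ∀ j, wt j ∈ S := by
    intro j
    obtain ⟨m, hm⟩ := heven j
    have h1 := hnonneg j
    have h4 := hle j
    have : m = 0 ∨ m = 1 ∨ m = 2 ∨ m = 3 ∨ m = 4 ∨ m = 5 := by omega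
    rw [hSdef, hm]
    rcases this with h | h | h | h | h | h <;> subst h <;> simp
  set n : ℤ → ℕ := fun a => (Finset.univ.filter fun j => wt j = a).card with hn
  have key : ∀ {M : Type} [AddCommMonoid M] (g : ℤ → M), ∑ j, g (wt j) =
      n 0 • g 0 + (n 2 • g 2 + (n 4 • g 4 + (n 6 • g 6 + (n 8 • g 8 + n 10 • g 10)))) := by
    intro M _ g
    rw [sum_comp_wt wt S hS g, hSdef]
    simp [Finset.sum_insert, hn]
  -- values of the level one dimensions
  have r : ∀ k : ℕ, Even k → finrank ℂ (R (k : ℤ)) = if k % 12 = 2 then k / 12 else k / 12 + 1 :=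
    finrank_R_nat'
  have rv : ∀ (a : ℤ) (k : ℕ), a = (k : ℤ) → Even k →
      finrank ℂ (R a) = if k % 12 = 2 then k / 12 else k / 12 + 1 := by
    intro a k ha hk; rw [ha]; exact r k hk
  have hcard : Fintype.card ι = n 0 + (n 2 + (n 4 + (n 6 + (n 8 + n 10)))) := by
    have := key (M := ℕ) (fun _ => 1)
    simpa using this
  have rz : ∀ a : ℤ, a = 0 → finrank ℂ (R a) = 1 := by
    intro a ha; rw [ha]; exact hr0
  have hn0 : n 0 = 1 := by
    have h1 := hd 0
    rw [hd0, key (M := ℕ) (fun a => finrank ℂ (R (0 - a)))] at h1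
    rw [rz (0 - 0) (by norm_num), finrank_R_neg' (show (0 : ℤ) - 2 < 0 by norm_num),
      finrank_R_neg' (show (0 : ℤ) - 4 < 0 by norm_num),
      finrank_R_neg' (show (0 : ℤ) - 6 < 0 by norm_num),
      finrank_R_neg' (show (0 : ℤ) - 8 < 0 by norm_num),
      finrank_R_neg' (show (0 : ℤ) - 10 < 0 by norm_num)] at h1
    simpa using h1.symm
  have hs2 : s 2 = n 10 := by
    have h1 := hs 2
    rw [key (M := ℕ) (fun a => finrank ℂ (R (2 + a - 12)))] at h1
    rw [finrank_R_neg' (show (2 : ℤ) + 0 - 12 < 0 by norm_num),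
      finrank_R_neg' (show (2 : ℤ) + 2 - 12 < 0 by norm_num),
      finrank_R_neg' (show (2 : ℤ) + 4 - 12 < 0 by norm_num),
      finrank_R_neg' (show (2 : ℤ) + 6 - 12 < 0 by norm_num),
      finrank_R_neg' (show (2 : ℤ) + 8 - 12 < 0 by norm_num),
      rz (2 + 10 - 12) (by norm_num)] at h1
    simpa using h1
  have hc24 : n 0 + n 2 = n 10 + c := by
    have h1 := hc 24 (fun j => by have := hle j; omega) (by decide)
    rw [hd, hs, key (M := ℕ) (fun a => finrank ℂ (R (24 - a))),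
      key (M := ℕ) (fun a => finrank ℂ (R (24 + a - 12)))] at h1
    rw [rv (24 - 0) 24 (by norm_num) (by decide), rv (24 - 2) 22 (by norm_num) (by decide),
      rv (24 - 4) 20 (by norm_num) (by decide), rv (24 - 6) 18 (by norm_num) (by decide),
      rv (24 - 8) 16 (by norm_num) (by decide), rv (24 - 10) 14 (by norm_num) (by decide),
      rv (24 + 0 - 12) 12 (by norm_num) (by decide), rv (24 + 2 - 12) 14 (by norm_num) (by decide),
      rv (24 + 4 - 12) 16 (by norm_num) (by decide), rv (24 + 6 - 12) 18 (by norm_num) (by decide),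
      rv (24 + 8 - 12) 20 (by norm_num) (by decide),
      rv (24 + 10 - 12) 22 (by norm_num) (by decide)] at h1
    norm_num at h1
    omega
  -- the elliptic point of order 2
  have hI2 : (e2 : ℤ) = n 0 - n 2 + n 4 - n 6 + n 8 - n 10 := by
    rw [key (M := ℂ) (fun a => Complex.I ^ (-a))] at h2
    have hI4 : Complex.I ^ 4 = 1 := Complex.I_pow_four
    have hIsq : Complex.I ^ 2 = -1 := Complex.I_sq
    have hIinv : ∀ (a : ℤ) (m : ℕ) (v : ℂ), a = (m : ℤ) → v * Complex.I ^ m = 1 →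
        Complex.I ^ (-a) = v := by
      intro a m v ha hv
      rw [ha, zpow_neg, zpow_natCast]
      exact (eq_inv_of_mul_eq_one_left hv).symm
    have e0 : Complex.I ^ (-(0 : ℤ)) = 1 := by simp
    have e1 : Complex.I ^ (-(2 : ℤ)) = -1 := hIinv 2 2 _ (by norm_num)
      (by linear_combination -hIsq)
    have e2' : Complex.I ^ (-(4 : ℤ)) = 1 := hIinv 4 4 _ (by norm_num)
      (by linear_combination hI4)
    have e3' : Complex.I ^ (-(6 : ℤ)) = -1 := hIinv 6 6 _ (by norm_num)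
      (by linear_combination -Complex.I ^ 2 * hI4 - hIsq)
    have e4 : Complex.I ^ (-(8 : ℤ)) = 1 := hIinv 8 8 _ (by norm_num)
      (by linear_combination (Complex.I ^ 4 + 1) * hI4)
    have e5 : Complex.I ^ (-(10 : ℤ)) = -1 := hIinv 10 10 _ (by norm_num)
      (by linear_combination -Complex.I ^ 2 * (Complex.I ^ 4 + 1) * hI4 - hIsq)
    rw [e0, e1, e2', e3', e4, e5] at h2
    have h5 : ((e2 : ℤ) : ℂ) = ((n 0 - n 2 + n 4 - n 6 + n 8 - n 10 : ℤ) : ℂ) := by
      push_cast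
      rw [h2]
      simp only [nsmul_eq_mul]
      ring
    exact_mod_cast h5
  -- the elliptic point of order 3
  set ξ : ℂ := (rho : ℂ) + 1 with hξ
  have hξ2 : ξ ^ 2 = ξ - 1 := xi_sq
  have hξ3 : ξ ^ 3 = -1 := by linear_combination (ξ + 1) * hξ2
  have hξ0 : ξ ≠ 0 := by
    intro h0; rw [h0] at hξ3; norm_num at hξ3
  have hξinv : ∀ (a : ℤ) (m : ℕ) (v : ℂ), a = (m : ℤ) → v * ξ ^ m = 1 → ξ ^ (-a) = v := by
    intro a m v ha hv
    rw [ha, zpow_neg, zpow_natCast]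
    exact (eq_inv_of_mul_eq_one_left hv).symm
  have x0 : ξ ^ (-(0 : ℤ)) = 1 := by simp
  have x2 : ξ ^ (-(2 : ℤ)) = -ξ := hξinv 2 2 _ (by norm_num) (by linear_combination -hξ3)
  have x4 : ξ ^ (-(4 : ℤ)) = ξ - 1 := hξinv 4 4 _ (by norm_num)
    (by linear_combination (ξ ^ 2 - ξ) * hξ3 - hξ2)
  have x6 : ξ ^ (-(6 : ℤ)) = 1 := hξinv 6 6 _ (by norm_num)
    (by linear_combination (ξ ^ 3 - 1) * hξ3)
  have x8 : ξ ^ (-(8 : ℤ)) = -ξ := hξinv 8 8 _ (by norm_num)
    (by linear_combination -(ξ ^ 6 - ξ ^ 3 + 1) * hξ3)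
  have x10 : ξ ^ (-(10 : ℤ)) = ξ - 1 := hξinv 10 10 _ (by norm_num)
    (by linear_combination (ξ ^ 2 - ξ) * (ξ ^ 6 - ξ ^ 3 + 1) * hξ3 - hξ2)
  rw [key (M := ℂ) (fun a => ξ ^ (-a)), x0, x2, x4, x6, x8, x10] at h3
  have h3' : ((e3 : ℤ) : ℂ) = (((n 0 : ℤ) - n 4 + n 6 - n 10 : ℤ) : ℂ) +
      ((-(n 2 : ℤ) + n 4 - n 8 + n 10 : ℤ) : ℂ) * ξ := by
    push_cast
    rw [h3]
    simp only [nsmul_eq_mul]
    ring
  have him := congrArg Complex.im h3'
  rw [Complex.add_im, Complex.mul_im, Complex.intCast_im, Complex.intCast_im, Complex.intCast_im,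
    Complex.intCast_re, hξ, xi_im] at him
  have hsqrt : (0 : ℝ) < Real.sqrt 3 / 2 := by positivity
  have hB : (-(n 2 : ℤ) + n 4 - n 8 + n 10 : ℤ) = 0 := by
    have h6 : ((-(n 2 : ℤ) + n 4 - n 8 + n 10 : ℤ) : ℝ) * (Real.sqrt 3 / 2) = 0 := by
      linarith
    rcases mul_eq_zero.mp h6 with h7 | h7
    · exact_mod_cast h7
    · exact absurd h7 hsqrt.ne'
  rw [hB] at h3'
  have hA : (e3 : ℤ) = (n 0 : ℤ) - n 4 + n 6 - n 10 := by
    have : ((e3 : ℤ) : ℂ) = (((n 0 : ℤ) - n 4 + n 6 - n 10 : ℤ) : ℂ) := by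
      rw [h3']; simp
    exact_mod_cast this
  have hfin : (12 * (s 2 : ℤ)) = 12 + (Fintype.card ι : ℤ) - 3 * e2 - 4 * e3 - 6 * c := by
    rw [hs2, hcard, hI2, hA]
    push_cast
    have hc' : (c : ℤ) = n 0 + n 2 - n 10 := by
      have : ((n 0 + n 2 : ℕ) : ℤ) = ((n 10 + c : ℕ) : ℤ) := by rw [hc24]
      push_cast at this
      linarith
    have hn0' : (n 0 : ℤ) = 1 := by exact_mod_cast hn0
    rw [hc', hn0']
    linarith
  have hfinQ : (12 * (s 2 : ℚ)) = 12 + (Fintype.card ι : ℚ) - 3 * e2 - 4 * e3 - 6 * c := by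
    exact_mod_cast hfin
  linarith

end

end Fermat.Agent.S20
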