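import Fermat.Agent.S20.BasicB
import Fermat.Agent.S20.LevelOne
import Fermat.Agent.S20.Count
import Fermat.Agent.S20.CuspDual
import Fermat.Agent.S20.DetNe
import Fermat.Agent.S20.EllipticH
import Fermat.Agent.S20.Numerics
import Fermat.Agent.S20.FreeBasis
import Fermat.Agent.S20.DualA

/-!
# S20: the core theorem (assembly, helper20)

`dim S₂(Γ) = 1 + μ/12 - e₂/4 - e₃/3 - c/2` for a finite index subgroup `Γ ∋ -1` of `SL(2,ℤ)`
admitting a separating form.
-/

set_option autoImplicit false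

open UpperHalfPlane ModularForm Matrix.SpecialLinearGroup Module
open scoped MatrixGroups ModularForm Manifold

namespace Fermat.Agent.S20.Core
open Fermat.Agent.S20 Fermat.Agent.S20.LevelOne

noncomputable section

variable {Γ : Subgroup SL(2, ℤ)} [Γ.FiniteIndex]

/-- `T` has a positive period on the finite set `Q Γ`. -/
lemma exists_period : ∃ M : ℕ, 0 < M ∧ ∀ q : Q Γ, (ModularGroup.T ^ M) • q = q := by
  classical
  let σ : Equiv.Perm (Q Γ) := MulAction.toPermHom SL(2, ℤ) (Q Γ) ModularGroup.T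
  refine ⟨orderOf σ, orderOf_pos σ, fun q => ?_⟩
  have h : σ ^ orderOf σ = 1 := pow_orderOf_eq_one σ
  have h2 : MulAction.toPermHom SL(2, ℤ) (Q Γ) (ModularGroup.T ^ orderOf σ) = 1 := by
    rw [map_pow]; exact h
  have := congrArg (fun e : Equiv.Perm (Q Γ) => e q) h2
  simpa using this

lemma finrank_R_step {k : ℤ} (hk : 4 ≤ k) (he : Even k) :
    finrank ℂ (R k) = finrank ℂ (R (k - 12)) + 1 := by
  obtain ⟨n, rfl⟩ : ∃ n : ℕ, k = n := ⟨k.toNat, by omega⟩
  have hen : Even n := by exact_mod_cast he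
  rw [finrank_R_nat n hen]
  by_cases h12 : 12 ≤ n
  · have : ((n : ℤ) - 12) = ((n - 12 : ℕ) : ℤ) := by omega
    rw [this, finrank_R_nat (n - 12) (by
      obtain ⟨m, hm⟩ := hen
      exact ⟨m - 6, by omega⟩)]
    have h1 : (n - 12) % 12 = n % 12 := by omega
    have h2 : n / 12 = (n - 12) / 12 + 1 := by omega
    rw [h1, h2]
    split_ifs <;> omega
  · have hneg : ((n : ℤ) - 12) < 0 := by omega
    rw [finrank_R_of_neg hneg]
    have hn4 : 4 ≤ n := by exact_mod_cast hk
    have h1 : n / 12 = 0 := by omega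
    have h2 : n % 12 ≠ 2 := by omega
    rw [if_neg h2, h1]

lemma finrank_MF_zero : finrank ℂ (MF Γ 0) = 1 := by
  have h1 : (fun _ => 1 : ℍ → ℂ) ∈ MF Γ 0 := R_le_MF (const_mem_R_zero 1)
  refine finrank_eq_one (⟨_, h1⟩ : MF Γ 0) ?_ ?_
  · intro h
    have := congrFun (congrArg Subtype.val h) I
    simp at this
  · rintro ⟨f, hf⟩
    obtain ⟨c, rfl⟩ := B.MF_zero hf
    refine ⟨c, ?_⟩
    ext z
    simp

theorem core (hneg : -1 ∈ Γ)
    (hsep : ∃ k : ℤ, ∃ h ∈ MF Γ k, ∀ g : SL(2, ℤ), h ∣[k] g = h → g ∈ Γ) :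
    (finrank ℂ (CuspForm (Γ : Subgroup (GL (Fin 2) ℝ)) 2) : ℚ) =
      1 + (Nat.card (Q Γ) : ℚ) / 12
        - (Nat.card (MulAction.fixedBy (Q Γ) ModularGroup.S) : ℚ) / 4
        - (Nat.card (MulAction.fixedBy (Q Γ) (ModularGroup.S * ModularGroup.T)) : ℚ) / 3
        - (Nat.card (MulAction.orbitRel.Quotient (Subgroup.zpowers ModularGroup.T) (Q Γ)) : ℚ) / 2 := by
  obtain ⟨wt, F, hB⟩ := FreeBasis.exists_freeBasis hsep
  obtain ⟨M, hMpos, hM⟩ := exists_period (Γ := Γ)
  have : NeZero M := ⟨hMpos.ne'⟩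
  have hdet := hB.det_ne_zero
  obtain ⟨c, hc, hpow⟩ := hB.det_pow_twelve
  have heven : ∀ j, Even (wt j) := by
    intro j
    by_contra hodd
    rw [Int.not_even_iff_odd] at hodd
    have hFj : F j = 0 := by
      have := hB.mem j
      rw [B.MF_odd hneg hodd] at this
      simpa using this
    have := hB.indep (wt j) (fun i => if i = j then (fun _ => 1) else 0) (by
      intro i
      by_cases hij : i = j
      · subst hij; simpa using const_mem_R_zero 1
      · simp [hij]) (by
      rw [Finset.sum_eq_single j]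
      · simp [hFj]
      · intro i _ hij; simp [hij]
      · simp) j
    have h1 := congrFun this I
    simp at h1
  -- surjectivity of `ell` in large even weight
  have hsurj : ∀ w, (∀ j, wt j + 4 ≤ w) → Even w →
      ∀ v : Q Γ → ℂ, ∃ f ∈ MF Γ w, ell M w f = v := by
    intro w hw hwe
    have := (finrank_MF hB w).1
    have hcount : finrank ℂ (MF Γ w) = finrank ℂ (MF Γ (w - 12)) + Nat.card (Q Γ) := by
      rw [(finrank_MF hB w).2, (finrank_MF hB (w - 12)).2, Nat.card_eq_fintype_card,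
        Fintype.card, Finset.card_eq_sum_ones, ← Finset.sum_add_distrib]
      refine Finset.sum_congr rfl fun j _ => ?_
      rw [finrank_R_step (by have := hw j; omega) (hwe.sub (heven j)),
        show w - wt j - 12 = w - 12 - wt j by ring]
    exact fun v => ell_surjective hM hcount v
  -- one such weight
  obtain ⟨w₀, hw₀, hw₀e⟩ : ∃ w₀ : ℤ, (∀ j, wt j + 4 ≤ w₀) ∧ Even w₀ := by
    refine ⟨2 * (∑ j, |wt j|) + 4, fun j => ?_, by
      exact (even_two_mul _).add (by decide)⟩
    have h1 : |wt j| ≤ ∑ j, |wt j| :=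
      Finset.single_le_sum (f := fun j => |wt j|) (fun i _ => abs_nonneg _) (Finset.mem_univ j)
    have h2 := le_abs_self (wt j)
    have h3 := abs_nonneg (wt j)
    omega
  have hz : ∀ j q, IsZeroAtImInfty (DualA.gg wt F 1 j q) := fun j =>
    DualA.gg_one_zero hM hB hdet hc hpow
      (fun {w'} {g} hg h => local_duality hM (hsurj w₀ hw₀ hw₀e) hg h) j
  have key := numerics wt (fun w => finrank ℂ (MF Γ w)) (fun w => finrank ℂ (CF Γ w))
    (fun w => (finrank_MF hB w).2) (fun w => DualA.finrank_CF' hB hdet hz w) finrank_MF_zero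
    (fun w hw => by show finrank ℂ (MF Γ w) = 0; rw [B.MF_neg hw, finrank_bot])
    (fun w hw => by show finrank ℂ (CF Γ w) = 0; rw [B.CF_nonpos hw, finrank_bot]) heven
    _ _ _ (card_fixedBy_S hB) (card_fixedBy_ST hB) (by
      intro w hw hwe
      have := (finrank_MF hB w).1
      exact finrank_MF_eq_CF_add hM (hsurj w hw hwe))
  rw [(CFequiv Γ 2).finrank_eq, key, ← Nat.card_eq_fintype_card (α := Q Γ)]

end

end Fermat.Agent.S20.Core
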