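import Mathlib
import Fermat.Agent.S20.Defs

set_option autoImplicit false

open UpperHalfPlane ModularForm CongruenceSubgroup Matrix Filter Topology
open scoped MatrixGroups Manifold Real

noncomputable section

namespace Fermat.Agent.S20.Frame

local notation "Δ" => ModularForm.discriminant

/-- Hermite normal form for `diag(N,1) * γ`. -/
theorem hermite (N : ℕ) [NeZero N] (γ : SL(2, ℤ)) :
    ∃ (γ' : SL(2, ℤ)) (a b d : ℤ), 0 < a ∧ 0 < d ∧ a * d = N ∧
      (!![(N : ℤ), 0; 0, 1] * (γ : Matrix (Fin 2) (Fin 2) ℤ) =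
        (γ' : Matrix (Fin 2) (Fin 2) ℤ) * !![a, b; 0, d]) := by
  have hN : (N : ℤ) ≠ 0 := by exact_mod_cast NeZero.ne N
  have hNpos : (0 : ℤ) < N := by exact_mod_cast Nat.pos_of_ne_zero (NeZero.ne N)
  set p := γ 0 0 with hp
  set q := γ 0 1 with hq
  set r := γ 1 0 with hr
  set s := γ 1 1 with hs
  have hdet : p * s - q * r = 1 := by
    have := γ.det_coe
    rw [Matrix.det_fin_two] at this
    exact this
  -- g = gcd (N p) r
  set g : ℤ := (Int.gcd (N * p) r : ℤ) with hg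
  have hgne : g ≠ 0 := by
    intro h0
    have h0' : Int.gcd (N * p) r = 0 := by rw [hg] at h0; exact_mod_cast h0
    rw [Int.gcd_eq_zero_iff] at h0'
    obtain ⟨h1, h2⟩ := h0'
    have hp0 : p = 0 := by
      rcases mul_eq_zero.mp h1 with h | h
      · exact absurd h hN
      · exact h
    rw [hp0, h2] at hdet
    simp at hdet
  have hgpos : 0 < g := lt_of_le_of_ne (by positivity) (Ne.symm hgne)
  obtain ⟨x, hx⟩ : g ∣ N * p := Int.gcd_dvd_left _ _
  obtain ⟨y, hy⟩ : g ∣ r := Int.gcd_dvd_right _ _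
  have hcop : IsCoprime x y := by
    have hb := Int.gcd_eq_gcd_ab (N * p) r
    rw [← hg] at hb
    refine ⟨Int.gcdA (N * p) r, Int.gcdB (N * p) r, ?_⟩
    have : g * (Int.gcdA (N * p) r * x + Int.gcdB (N * p) r * y) = g * 1 := by
      calc g * (Int.gcdA (N * p) r * x + Int.gcdB (N * p) r * y)
          = (g * x) * Int.gcdA (N * p) r + (g * y) * Int.gcdB (N * p) r := by ring
        _ = g * 1 := by rw [← hx, ← hy, mul_one]; exact hb.symm
    exact mul_left_cancel₀ hgne this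
  obtain ⟨γ', h0, h1⟩ := hcop.exists_SL2_col 0
  have hdet' : γ' 0 0 * γ' 1 1 - γ' 0 1 * γ' 1 0 = 1 := by
    have := γ'.det_coe
    rw [Matrix.det_fin_two] at this
    exact this
  rw [h0, h1] at hdet'
  -- d with g * d = N
  have hNd : g * (x * s - y * (N * q)) = N := by
    calc g * (x * s - y * (N * q)) = (g * x) * s - (g * y) * (N * q) := by ring
      _ = N * (p * s - q * r) := by rw [← hx, ← hy]; ring
      _ = N := by rw [hdet, mul_one]
  refine ⟨γ', g, γ' 1 1 * (N * q) - γ' 0 1 * s, x * s - y * (N * q), hgpos, ?_, hNd, ?_⟩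
  · by_contra hneg
    rw [not_lt] at hneg
    have : g * (x * s - y * (N * q)) ≤ 0 := mul_nonpos_of_nonneg_of_nonpos hgpos.le hneg
    omega
  · ext i j
    fin_cases i <;> fin_cases j
    · simp [Matrix.mul_apply, Fin.sum_univ_two, h0]
      rw [← hp, hx]; ring
    · simp [Matrix.mul_apply, Fin.sum_univ_two, h0]
      rw [← hq]
      linear_combination (-(N:ℤ) * q) * hdet'
    · simp [Matrix.mul_apply, Fin.sum_univ_two, h1]
      rw [← hr, hy]; ring
    · simp [Matrix.mul_apply, Fin.sum_univ_two, h1]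
      rw [← hs]
      linear_combination (-s) * hdet'

/-- Upper triangular element of `GL(2,ℝ)`. -/
def tri (a b d : ℝ) (h : a * d ≠ 0) : GL (Fin 2) ℝ :=
  GeneralLinearGroup.mkOfDetNeZero !![a, b; 0, d] (by simpa [det_fin_two_of] using h)

theorem tendsto_norm_disc :
    Tendsto (fun w : ℍ => ‖Δ w‖ * Real.exp (2 * π * w.im)) atImInfty (𝓝 1) := by
  have h := tendsto_atImInfty_tprod_one_sub_eta_q_pow.norm
  rw [norm_one] at h
  refine h.congr fun w => ?_
  rw [discriminant_eq_q_prod, norm_mul]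
  have hq_norm : ‖Function.Periodic.qParam 1 (w : ℂ)‖ = Real.exp (-2 * π * w.im) := by
    simp [Function.Periodic.qParam, Complex.norm_exp]
  rw [hq_norm, mul_comm (Real.exp _), mul_assoc, ← Real.exp_add]
  simp

theorem exp_limit {c C : ℝ} (hC : 0 < C)
    (h : Tendsto (fun z : ℍ => Real.exp (c * z.im)) atImInfty (𝓝 C)) : c = 0 := by
  have him : Tendsto (fun z : ℍ => z.im) atImInfty atTop := tendsto_comap
  rcases lt_trichotomy c 0 with hc | hc | hc
  · exfalso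
    have h1 : Tendsto (fun z : ℍ => Real.exp (c * z.im)) atImInfty (𝓝 0) :=
      Real.tendsto_exp_atBot.comp (him.const_mul_atTop_of_neg hc)
    exact hC.ne (tendsto_nhds_unique h1 h)
  · exact hc
  · exfalso
    have h1 : Tendsto (fun z : ℍ => Real.exp (c * z.im)) atImInfty atTop :=
      Real.tendsto_exp_atTop.comp (him.const_mul_atTop hc)
    exact not_tendsto_nhds_of_tendsto_atTop h1 C h

theorem tri_im (a b d : ℝ) (ha : 0 < a) (hd : 0 < d) (z : ℍ) :
    (tri a b d (mul_pos ha hd).ne' • z).im = a / d * z.im := by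
  rw [UpperHalfPlane.im_smul_eq_div_normSq]
  simp [tri, det_fin_two_of, denom, abs_of_pos (mul_pos ha hd), Complex.normSq_apply]
  field_simp

theorem norm_slash_tri (a b d : ℝ) (ha : 0 < a) (hd : 0 < d) (z : ℍ) :
    ‖(Δ ∣[(12 : ℤ)] tri a b d (mul_pos ha hd).ne') z‖ =
      ‖Δ (tri a b d (mul_pos ha hd).ne' • z)‖ * ((a * d) ^ 11 / d ^ 12) := by
  rw [ModularForm.slash_apply, norm_mul, norm_mul, norm_σ]
  simp [tri, det_fin_two_of, denom, abs_of_pos (mul_pos ha hd), abs_of_pos ha, abs_of_pos hd]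
  rw [div_eq_mul_inv, mul_assoc]

theorem tendsto_norm_slash_tri (a b d : ℝ) (ha : 0 < a) (hd : 0 < d) :
    Tendsto (fun z : ℍ => ‖(Δ ∣[(12 : ℤ)] tri a b d (mul_pos ha hd).ne') z‖ *
      Real.exp (2 * π * (a / d) * z.im)) atImInfty (𝓝 ((a * d) ^ 11 / d ^ 12)) := by
  have h1 : Tendsto (fun z : ℍ => tri a b d (mul_pos ha hd).ne' • z) atImInfty atImInfty :=
    tendsto_smul_atImInfty (by simp [tri])
  have h2 := (tendsto_norm_disc.comp h1).mul_const ((a * d) ^ 11 / d ^ 12)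
  rw [one_mul] at h2
  refine h2.congr fun z => ?_
  simp only [Function.comp]
  rw [norm_slash_tri a b d ha hd, tri_im a b d ha hd]
  ring_nf

/-- The decay rate of `Δ ∣ tri a b d` determines `a / d`. -/
theorem ratio_eq_of_slash_eq {a b d a' b' d' : ℝ} (ha : 0 < a) (hd : 0 < d) (ha' : 0 < a')
    (hd' : 0 < d')
    (h : Δ ∣[(12 : ℤ)] tri a b d (mul_pos ha hd).ne' = Δ ∣[(12 : ℤ)] tri a' b' d' (mul_pos ha' hd').ne') :
    a / d = a' / d' := by
  have h1 := tendsto_norm_slash_tri a b d ha hd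
  have h2 := tendsto_norm_slash_tri a' b' d' ha' hd'
  rw [← h] at h2
  have hC : 0 < (a * d) ^ 11 / d ^ 12 := by positivity
  have hC' : 0 < (a' * d') ^ 11 / d' ^ 12 := by positivity
  have h3 := h1.div h2 hC'.ne'
  have hne : ∀ z : ℍ, ‖(Δ ∣[(12 : ℤ)] tri a b d (mul_pos ha hd).ne') z‖ ≠ 0 := by
    intro z
    rw [norm_slash_tri a b d ha hd]
    exact mul_ne_zero (norm_ne_zero_iff.mpr (discriminant_ne_zero _)) hC.ne'
  have h4 : Tendsto (fun z : ℍ => Real.exp ((2 * π * (a / d - a' / d')) * z.im)) atImInfty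
      (𝓝 ((a * d) ^ 11 / d ^ 12 / ((a' * d') ^ 11 / d' ^ 12))) := by
    refine h3.congr fun z => ?_
    simp only [Pi.div_apply]
    rw [mul_div_mul_left _ _ (hne z), ← Real.exp_sub]
    ring_nf
  have h5 := exp_limit (div_pos hC hC') h4
  have h6 : a / d - a' / d' = 0 := by
    rcases mul_eq_zero.mp h5 with h | h
    · exact absurd h (by positivity)
    · exact h
  linarith

/-- `diag(N,1)`. -/
def alpha (N : ℕ) [NeZero N] : GL (Fin 2) ℝ :=
  tri N 0 1 (by simpa using NeZero.ne N)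

/-- `Δ(N z)` up to the constant `N ^ 11`. -/
def fN (N : ℕ) [NeZero N] : ℍ → ℂ := Δ ∣[(12 : ℤ)] alpha N

theorem disc_slash_SL (γ : SL(2, ℤ)) : Δ ∣[(12 : ℤ)] γ = Δ :=
  SlashInvariantForm.slash_action_generators_SL2Z discriminant_S_invariant discriminant_T_invariant γ

theorem alpha_mul {N : ℕ} [NeZero N] {γ γ' : SL(2, ℤ)} {a b d : ℤ} (had : (a : ℝ) * d ≠ 0)
    (h : !![(N : ℤ), 0; 0, 1] * (γ : Matrix (Fin 2) (Fin 2) ℤ) =
        (γ' : Matrix (Fin 2) (Fin 2) ℤ) * !![a, b; 0, d]) :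
    alpha N * (γ : GL (Fin 2) ℝ) = (γ' : GL (Fin 2) ℝ) * tri a b d had := by
  ext i j
  have hij := congrArg (fun x : ℤ => (x : ℝ)) (congrFun (congrFun h i) j)
  fin_cases i <;> fin_cases j <;>
    simpa [alpha, tri, Matrix.mul_apply, Fin.sum_univ_two] using hij

theorem fN_slash (N : ℕ) [NeZero N] (γ : SL(2, ℤ)) :
    ∃ (γ' : SL(2, ℤ)) (a b d : ℤ) (ha : 0 < (a : ℝ)) (hd : 0 < (d : ℝ)), a * d = N ∧
      (!![(N : ℤ), 0; 0, 1] * (γ : Matrix (Fin 2) (Fin 2) ℤ) =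
        (γ' : Matrix (Fin 2) (Fin 2) ℤ) * !![a, b; 0, d]) ∧
      fN N ∣[(12 : ℤ)] γ = Δ ∣[(12 : ℤ)] tri a b d (mul_pos ha hd).ne' := by
  obtain ⟨γ', a, b, d, ha, hd, had, h⟩ := hermite N γ
  have ha' : 0 < (a : ℝ) := by exact_mod_cast ha
  have hd' : 0 < (d : ℝ) := by exact_mod_cast hd
  refine ⟨γ', a, b, d, ha', hd', had, h, ?_⟩
  rw [fN, SL_slash, ← SlashAction.slash_mul, alpha_mul (mul_pos ha' hd').ne' h,
    SlashAction.slash_mul, ← SL_slash, disc_slash_SL]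

theorem fN_slash_of_mem {N : ℕ} [NeZero N] {γ : SL(2, ℤ)} (hγ : γ ∈ Gamma0 N) :
    fN N ∣[(12 : ℤ)] γ = fN N := by
  rw [Gamma0_mem, ZMod.intCast_zmod_eq_zero_iff_dvd] at hγ
  obtain ⟨t, ht⟩ := hγ
  have hdet : γ 0 0 * γ 1 1 - γ 0 1 * γ 1 0 = 1 := by
    have := γ.det_coe
    rw [Matrix.det_fin_two] at this
    exact this
  let γ'' : SL(2, ℤ) := ⟨!![γ 0 0, N * γ 0 1; t, γ 1 1], by
    rw [Matrix.det_fin_two_of]
    rw [ht] at hdet
    linear_combination hdet⟩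
  have h : !![(N : ℤ), 0; 0, 1] * (γ : Matrix (Fin 2) (Fin 2) ℤ) =
        (γ'' : Matrix (Fin 2) (Fin 2) ℤ) * !![(N : ℤ), 0; 0, 1] := by
    ext i j
    fin_cases i <;> fin_cases j <;> simp [γ'', Matrix.mul_apply, Fin.sum_univ_two, ht, mul_comm]
  have hN : ((N : ℤ) : ℝ) * ((1 : ℤ) : ℝ) ≠ 0 := by simpa using NeZero.ne N
  have h2 := alpha_mul (N := N) hN h
  have h3 : tri ((N : ℤ) : ℝ) ((0 : ℤ) : ℝ) ((1 : ℤ) : ℝ) hN = alpha N := by
    simp [alpha]
  rw [h3] at h2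
  conv_lhs => rw [fN, SL_slash, ← SlashAction.slash_mul, h2, SlashAction.slash_mul, ← SL_slash,
    disc_slash_SL]
  rfl

theorem mem_of_fN_slash {N : ℕ} [NeZero N] {γ : SL(2, ℤ)} (h : fN N ∣[(12 : ℤ)] γ = fN N) :
    γ ∈ Gamma0 N := by
  obtain ⟨γ', a, b, d, ha, hd, had, hmat, hsl⟩ := fN_slash N γ
  have hNpos : (0 : ℝ) < N := by exact_mod_cast Nat.pos_of_ne_zero (NeZero.ne N)
  have h1 : Δ ∣[(12 : ℤ)] tri a b d (mul_pos ha hd).ne' =
      Δ ∣[(12 : ℤ)] tri N 0 1 (mul_pos hNpos one_pos).ne' := by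
    rw [← hsl, h]; rfl
  have h2 := ratio_eq_of_slash_eq ha hd hNpos one_pos h1
  rw [div_one, div_eq_iff hd.ne'] at h2
  have h3 : a = N * d := by exact_mod_cast h2
  have hd1 : d = 1 := by
    have hd0 : 0 < d := by exact_mod_cast hd
    have hN0 : (N : ℤ) ≠ 0 := by exact_mod_cast NeZero.ne N
    rw [h3] at had
    have : d * d = 1 := by
      have : (N : ℤ) * (d * d) = N * 1 := by linear_combination had
      exact mul_left_cancel₀ hN0 this
    nlinarith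
  rw [hd1, mul_one] at h3
  rw [Gamma0_mem, ZMod.intCast_zmod_eq_zero_iff_dvd]
  have h10 := congrFun (congrFun hmat 1) 0
  simp [Matrix.mul_apply, Fin.sum_univ_two] at h10
  rw [h10, h3]
  exact Dvd.intro_left _ rfl

theorem fN_slash_eq_iff {N : ℕ} [NeZero N] {γ : SL(2, ℤ)} :
    fN N ∣[(12 : ℤ)] γ = fN N ↔ γ ∈ Gamma0 N :=
  ⟨mem_of_fN_slash, fN_slash_of_mem⟩

theorem disc_mdiff : MDiff (Δ : ℍ → ℂ) := CuspForm.discriminant.holo'

theorem fN_slash_mdiff (N : ℕ) [NeZero N] (γ : SL(2, ℤ)) : MDiff (fN N ∣[(12 : ℤ)] γ) := by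
  rw [fN, SL_slash]
  exact (disc_mdiff.slash 12 _).slash 12 _

theorem fN_slash_isZeroAtImInfty (N : ℕ) [NeZero N] (γ : SL(2, ℤ)) :
    IsZeroAtImInfty (fN N ∣[(12 : ℤ)] γ) := by
  obtain ⟨γ', a, b, d, ha, hd, had, hmat, hsl⟩ := fN_slash N γ
  rw [hsl]
  exact discriminant_isZeroAtImInfty.slash 12 (by simp [tri])

theorem fN_mem_CF (N : ℕ) [NeZero N] : fN N ∈ CF (Gamma0 N) 12 :=
  ⟨by simpa using fN_slash_mdiff N 1, fun _ hγ => fN_slash_of_mem hγ,
    fun γ => fN_slash_isZeroAtImInfty N γ⟩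

theorem fN_mem_MF (N : ℕ) [NeZero N] : fN N ∈ MF (Gamma0 N) 12 := CF_le_MF (fN_mem_CF N)

/-- Task D of the blueprint. -/
theorem exists_separating (N : ℕ) [NeZero N] :
    ∃ h ∈ MF (CongruenceSubgroup.Gamma0 N) 12, ∀ g : SL(2, ℤ), h ∣[(12 : ℤ)] g = h →
      g ∈ CongruenceSubgroup.Gamma0 N :=
  ⟨fN N, fN_mem_MF N, fun _ h => mem_of_fN_slash h⟩

end Fermat.Agent.S20.Frame
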