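import Mathlib
import Fermat.Prelude.Def_ModularCurve_GenusNumerics

set_option autoImplicit false

namespace Fermat.Agent.S20.Combinatorics

open CongruenceSubgroup Matrix MatrixGroups

variable {N : ℕ}

theorem inv_mul_apply_one_zero (g h : SL(2, ℤ)) :
    (g⁻¹ * h) 1 0 = g 0 0 * h 1 0 - g 1 0 * h 0 0 := by
  rw [Matrix.SpecialLinearGroup.coe_mul, Matrix.SpecialLinearGroup.coe_inv,
    Matrix.adjugate_fin_two, Matrix.mul_apply, Fin.sum_univ_two]
  simp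
  ring

/-- Two left cosets of `Gamma0 N` agree iff the cross product of first columns vanishes mod `N`. -/
theorem mk_eq_mk_iff (g h : SL(2, ℤ)) :
    ((g : SL(2, ℤ) ⧸ Gamma0 N) = (h : SL(2, ℤ) ⧸ Gamma0 N)) ↔
      (N : ℤ) ∣ g 0 0 * h 1 0 - g 1 0 * h 0 0 := by
  rw [QuotientGroup.eq, Gamma0_mem, ZMod.intCast_zmod_eq_zero_iff_dvd, inv_mul_apply_one_zero]

theorem smul_mk (g h : SL(2, ℤ)) :
    g • (h : SL(2, ℤ) ⧸ Gamma0 N) = ((g * h : SL(2, ℤ)) : SL(2, ℤ) ⧸ Gamma0 N) := rfl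

theorem isCoprime_col (g : SL(2, ℤ)) : IsCoprime (g 0 0) (g 1 0) := by
  refine ⟨g 1 1, -g 0 1, ?_⟩
  have := g.det_coe
  rw [Matrix.det_fin_two] at this
  linarith

theorem exists_col {a c : ℤ} (h : IsCoprime a c) : ∃ g : SL(2, ℤ), g 0 0 = a ∧ g 1 0 = c := by
  obtain ⟨u, v, huv⟩ := h
  refine ⟨⟨!![a, -v; c, u], ?_⟩, rfl, rfl⟩
  rw [Matrix.det_fin_two_of]
  linarith

theorem S_mul_apply_zero_zero (g : SL(2, ℤ)) : (ModularGroup.S * g) 0 0 = - g 1 0 := by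
  rw [Matrix.SpecialLinearGroup.coe_mul, ModularGroup.coe_S, Matrix.mul_apply, Fin.sum_univ_two]
  simp

theorem S_mul_apply_one_zero (g : SL(2, ℤ)) : (ModularGroup.S * g) 1 0 = g 0 0 := by
  rw [Matrix.SpecialLinearGroup.coe_mul, ModularGroup.coe_S, Matrix.mul_apply, Fin.sum_univ_two]
  simp

theorem T_zpow_mul_apply_zero_zero (k : ℤ) (g : SL(2, ℤ)) :
    (ModularGroup.T ^ k * g) 0 0 = g 0 0 + k * g 1 0 := by
  rw [Matrix.SpecialLinearGroup.coe_mul, ModularGroup.coe_T_zpow, Matrix.mul_apply,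
    Fin.sum_univ_two]
  simp

theorem T_zpow_mul_apply_one_zero (k : ℤ) (g : SL(2, ℤ)) :
    (ModularGroup.T ^ k * g) 1 0 = g 1 0 := by
  rw [Matrix.SpecialLinearGroup.coe_mul, ModularGroup.coe_T_zpow, Matrix.mul_apply,
    Fin.sum_univ_two]
  simp

theorem T_mul_apply_zero_zero (g : SL(2, ℤ)) :
    (ModularGroup.T * g) 0 0 = g 0 0 + g 1 0 := by
  have := T_zpow_mul_apply_zero_zero 1 g
  simpa using this

theorem T_mul_apply_one_zero (g : SL(2, ℤ)) :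
    (ModularGroup.T * g) 1 0 = g 1 0 := by
  have := T_zpow_mul_apply_one_zero 1 g
  rwa [zpow_one] at this

end Fermat.Agent.S20.Combinatorics
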