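import Mathlib
import Fermat.Agent.S20.CosetBasic

set_option autoImplicit false

namespace Fermat.Agent.S20.Combinatorics

open CongruenceSubgroup Matrix MatrixGroups

/-- Lift a unit mod `m` to an integer coprime to `d` (`m ∣ d`, `d ≠ 0`). -/
theorem exists_int_lift_unit {m d : ℕ} [NeZero d] (hmd : m ∣ d) (r : (ZMod m)ˣ) :
    ∃ a : ℤ, IsCoprime a (d : ℤ) ∧ ((a : ℤ) : ZMod m) = (r : ZMod m) := by
  obtain ⟨u, hu⟩ := ZMod.unitsMap_surjective hmd r
  refine ⟨((u : ZMod d).val : ℤ), ?_, ?_⟩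
  · have h1 : IsUnit ((((u : ZMod d).val : ℤ)) : ZMod d) := by
      have : ((((u : ZMod d).val : ℤ)) : ZMod d) = (u : ZMod d) := by
        simp
      rw [this]
      exact u.isUnit
    exact ((ZMod.coe_int_isUnit_iff_isCoprime _ _).mp h1).symm
  · have h2 : (r : ZMod m) = ZMod.castHom hmd (ZMod m) (u : ZMod d) := by
      rw [← hu]; rfl
    rw [h2]
    simp [ZMod.natCast_val]

/-- Solvability of a linear congruence. -/
theorem exists_mul_add_dvd {d n y : ℤ} (h : (Int.gcd d n : ℤ) ∣ y) :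
    ∃ k : ℤ, n ∣ k * d - y := by
  obtain ⟨t, ht⟩ := h
  refine ⟨Int.gcdA d n * t, ⟨- Int.gcdB d n * t, ?_⟩⟩
  have hb := Int.gcd_eq_gcd_ab d n
  rw [ht, hb]
  ring

end Fermat.Agent.S20.Combinatorics

namespace Fermat.Agent.S20.Combinatorics

open CongruenceSubgroup Matrix MatrixGroups

variable {N : ℕ}

/-- Equality of `T`-orbits of cosets in terms of first columns. -/
theorem orbit_mk_eq_iff (g h : SL(2, ℤ)) :
    ((Quotient.mk'' (g : SL(2, ℤ) ⧸ Gamma0 N) :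
        MulAction.orbitRel.Quotient (Subgroup.zpowers ModularGroup.T) (SL(2, ℤ) ⧸ Gamma0 N)) =
      Quotient.mk'' (h : SL(2, ℤ) ⧸ Gamma0 N)) ↔
      ∃ k : ℤ, (N : ℤ) ∣ (h 0 0 + k * h 1 0) * g 1 0 - h 1 0 * g 0 0 := by
  rw [Quotient.eq'', MulAction.orbitRel_apply, MulAction.mem_orbit_iff]
  constructor
  · rintro ⟨⟨t, ht⟩, hx⟩
    obtain ⟨k, rfl⟩ := Subgroup.mem_zpowers_iff.mp ht
    refine ⟨k, ?_⟩
    have hx' : ((ModularGroup.T ^ k * h : SL(2, ℤ)) : SL(2, ℤ) ⧸ Gamma0 N) = g := hx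
    rw [mk_eq_mk_iff, T_zpow_mul_apply_zero_zero, T_zpow_mul_apply_one_zero] at hx'
    exact hx'
  · rintro ⟨k, hk⟩
    refine ⟨⟨ModularGroup.T ^ k, Subgroup.zpow_mem_zpowers _ k⟩, ?_⟩
    show ((ModularGroup.T ^ k * h : SL(2, ℤ)) : SL(2, ℤ) ⧸ Gamma0 N) = g
    rw [mk_eq_mk_iff, T_zpow_mul_apply_zero_zero, T_zpow_mul_apply_one_zero]
    exact hk

end Fermat.Agent.S20.Combinatorics

namespace Fermat.Agent.S20.Combinatorics

open CongruenceSubgroup Matrix MatrixGroups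

variable {N : ℕ}

/-- The index set for the cusps of `Gamma0 N`. -/
abbrev CuspIndex (N : ℕ) : Type :=
  Σ d : N.divisors, (ZMod (Nat.gcd (d : ℕ) (N / (d : ℕ))))ˣ

theorem exists_rep (x : CuspIndex N) :
    ∃ g : SL(2, ℤ), g 1 0 = ((x.1 : ℕ) : ℤ) ∧
      ((g 0 0 : ℤ) : ZMod (Nat.gcd (x.1 : ℕ) (N / (x.1 : ℕ)))) = (x.2 : ZMod _) := by
  obtain ⟨⟨d, hd⟩, r⟩ := x
  have hd0 : d ≠ 0 := (Nat.pos_of_mem_divisors hd).ne'
  have : NeZero d := ⟨hd0⟩
  obtain ⟨a, ha, har⟩ := exists_int_lift_unit (Nat.gcd_dvd_left d (N / d)) r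
  obtain ⟨g, hg0, hg1⟩ := exists_col ha
  exact ⟨g, hg1, by rw [hg0]; exact har⟩

/-- A representative matrix for a cusp index. -/
noncomputable def cuspRep (x : CuspIndex N) : SL(2, ℤ) := (exists_rep x).choose

theorem cuspRep_one_zero (x : CuspIndex N) : cuspRep x 1 0 = ((x.1 : ℕ) : ℤ) :=
  (exists_rep x).choose_spec.1

theorem cuspRep_zero_zero (x : CuspIndex N) :
    ((cuspRep x 0 0 : ℤ) : ZMod (Nat.gcd (x.1 : ℕ) (N / (x.1 : ℕ)))) = (x.2 : ZMod _) :=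
  (exists_rep x).choose_spec.2

/-- The map from cusp indices to `T`-orbits. -/
noncomputable def cuspMap (x : CuspIndex N) :
    MulAction.orbitRel.Quotient (Subgroup.zpowers ModularGroup.T) (SL(2, ℤ) ⧸ Gamma0 N) :=
  Quotient.mk'' (cuspRep x : SL(2, ℤ) ⧸ Gamma0 N)

theorem cuspMap_injective : Function.Injective (cuspMap (N := N)) := by
  intro x y hxy
  rw [cuspMap, cuspMap, orbit_mk_eq_iff] at hxy
  obtain ⟨k, hk⟩ := hxy
  have hx1 := cuspRep_one_zero x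
  have hy1 := cuspRep_one_zero y
  have hx0 := cuspRep_zero_zero x
  have hy0 := cuspRep_zero_zero y
  have hcx := isCoprime_col (cuspRep x)
  have hcy := isCoprime_col (cuspRep y)
  generalize cuspRep x 0 0 = a at *
  generalize cuspRep y 0 0 = a' at *
  rw [hx1] at hk hcx
  rw [hy1] at hk hcy
  clear hx1 hy1
  obtain ⟨⟨d, hd⟩, r⟩ := x
  obtain ⟨⟨d', hd'⟩, r'⟩ := y
  simp only at hk hcx hcy hx0 hy0
  have hdN : d ∣ N := Nat.dvd_of_mem_divisors hd
  have hd'N : d' ∣ N := Nat.dvd_of_mem_divisors hd'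
  have hdN' : (d : ℤ) ∣ (N : ℤ) := Int.natCast_dvd_natCast.mpr hdN
  have hd'N' : (d' : ℤ) ∣ (N : ℤ) := Int.natCast_dvd_natCast.mpr hd'N
  have h1 : (d : ℤ) ∣ (d' : ℤ) := by
    have h : (d : ℤ) ∣ (d' : ℤ) * a := by
      have h2 := hdN'.trans hk
      have h3 : (d : ℤ) ∣ (a' + k * d') * d := Dvd.intro_left _ rfl
      have := (Int.dvd_iff_dvd_of_dvd_sub h2).mp h3
      exact this
    exact hcx.symm.dvd_of_dvd_mul_right h
  have h2 : (d' : ℤ) ∣ (d : ℤ) := by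
    have h : (d' : ℤ) ∣ a' * d := by
      have h2 := hd'N'.trans hk
      have h3 : (a' + k * d') * d - d' * a = a' * d + d' * (k * d - a) := by ring
      rw [h3] at h2
      exact (Int.dvd_add_left (Dvd.intro _ rfl)).mp h2
    exact hcy.symm.dvd_of_dvd_mul_left h
  have hdd' : d = d' :=
    Nat.dvd_antisymm (Int.natCast_dvd_natCast.mp h1) (Int.natCast_dvd_natCast.mp h2)
  subst hdd'
  have hd0 : (d : ℤ) ≠ 0 := by
    exact_mod_cast (Nat.pos_of_mem_divisors hd).ne'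
  have hN : (N : ℤ) = (d : ℤ) * ((N / d : ℕ) : ℤ) := by
    exact_mod_cast (Nat.mul_div_cancel' hdN).symm
  have h3 : ((N / d : ℕ) : ℤ) ∣ a' + k * d - a := by
    have h4 : (a' + k * d) * d - d * a = d * (a' + k * d - a) := by ring
    rw [h4, hN] at hk
    exact (mul_dvd_mul_iff_left hd0).mp hk
  have h5 : ((Nat.gcd d (N / d) : ℕ) : ℤ) ∣ a' - a := by
    have h6 : ((Nat.gcd d (N / d) : ℕ) : ℤ) ∣ a' + k * d - a :=
      (Int.natCast_dvd_natCast.mpr (Nat.gcd_dvd_right d (N / d))).trans h3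
    have h7 : ((Nat.gcd d (N / d) : ℕ) : ℤ) ∣ k * d :=
      Dvd.dvd.mul_left (Int.natCast_dvd_natCast.mpr (Nat.gcd_dvd_left d (N / d))) k
    have h8 : a' - a = (a' + k * d - a) - k * d := by ring
    rw [h8]
    exact dvd_sub h6 h7
  have h9 : ((a' : ℤ) : ZMod (Nat.gcd d (N / d))) = ((a : ℤ) : ZMod (Nat.gcd d (N / d))) := by
    rw [← sub_eq_zero, ← Int.cast_sub, ZMod.intCast_zmod_eq_zero_iff_dvd]
    exact h5
  have h10 : r = r' := by
    apply Units.ext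
    rw [← hx0, ← hy0, h9]
  rw [h10]

end Fermat.Agent.S20.Combinatorics

namespace Fermat.Agent.S20.Combinatorics

open CongruenceSubgroup Matrix MatrixGroups

variable {N : ℕ}

theorem cuspMap_surjective [NeZero N] : Function.Surjective (cuspMap (N := N)) := by
  intro o
  induction o using Quotient.inductionOn' with
  | h q =>
  induction q using QuotientGroup.induction_on with
  | H g =>
  have hN0 : N ≠ 0 := NeZero.ne N
  have hcg := isCoprime_col g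
  set a := g 0 0 with ha
  set c := g 1 0 with hc
  set d : ℕ := Int.gcd c N with hd
  have hdpos : 0 < d := Int.gcd_pos_of_ne_zero_right _ (by exact_mod_cast hN0)
  have hdN : d ∣ N := by
    have := Int.gcd_dvd_right c (N : ℤ)
    exact Int.natCast_dvd_natCast.mp this
  have hdc : (d : ℤ) ∣ c := Int.gcd_dvd_left c (N : ℤ)
  have hdmem : d ∈ N.divisors := Nat.mem_divisors.mpr ⟨hdN, hN0⟩
  obtain ⟨c₁, hc₁⟩ := hdc
  have hd0 : (d : ℤ) ≠ 0 := by exact_mod_cast hdpos.ne'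
  have hN : (N : ℤ) = (d : ℤ) * ((N / d : ℕ) : ℤ) := by
    exact_mod_cast (Nat.mul_div_cancel' hdN).symm
  -- `c₁` is coprime to `N / d`
  have hcop : IsCoprime c₁ ((N / d : ℕ) : ℤ) := by
    have h1 := Int.gcd_eq_gcd_ab c (N : ℤ)
    rw [← hd] at h1
    refine ⟨Int.gcdA c N, Int.gcdB c N, ?_⟩
    have h2 : (d : ℤ) * (Int.gcdA c N * c₁ + Int.gcdB c N * ((N / d : ℕ) : ℤ)) = d * 1 := by
      calc (d : ℤ) * (Int.gcdA c N * c₁ + Int.gcdB c N * ((N / d : ℕ) : ℤ))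
          = (d * c₁) * Int.gcdA c N + (d * ((N / d : ℕ) : ℤ)) * Int.gcdB c N := by ring
        _ = c * Int.gcdA c N + N * Int.gcdB c N := by rw [← hc₁, ← hN]
        _ = d * 1 := by rw [← h1, mul_one]
    exact mul_left_cancel₀ hd0 h2
  obtain ⟨e, f, hef⟩ := hcop
  set m : ℕ := Nat.gcd d (N / d) with hm
  have hmd : (m : ℤ) ∣ (d : ℤ) := Int.natCast_dvd_natCast.mpr (Nat.gcd_dvd_left d (N / d))
  have hmn : (m : ℤ) ∣ ((N / d : ℕ) : ℤ) :=
    Int.natCast_dvd_natCast.mpr (Nat.gcd_dvd_right d (N / d))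
  -- `a * e` is a unit mod `m`
  have hunit : IsUnit (((a * e : ℤ)) : ZMod m) := by
    rw [ZMod.coe_int_isUnit_iff_isCoprime]
    have h1 : IsCoprime (m : ℤ) a := by
      have : IsCoprime c a := hcg.symm
      exact (this.of_isCoprime_of_dvd_left (hc₁ ▸ Dvd.intro _ rfl : (d : ℤ) ∣ c)).of_isCoprime_of_dvd_left hmd
    have h2 : IsCoprime (m : ℤ) e := by
      have : IsCoprime ((N / d : ℕ) : ℤ) e := ⟨f, c₁, by linarith⟩
      exact this.of_isCoprime_of_dvd_left hmn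
    exact h1.mul_right h2
  let x : CuspIndex N := ⟨⟨d, hdmem⟩, hunit.unit⟩
  refine ⟨x, ?_⟩
  rw [cuspMap]
  symm
  rw [orbit_mk_eq_iff]
  have hx1 : cuspRep x 1 0 = (d : ℤ) := cuspRep_one_zero x
  have hx0 : ((cuspRep x 0 0 : ℤ) : ZMod m) = ((a * e : ℤ) : ZMod m) := cuspRep_zero_zero x
  generalize cuspRep x 0 0 = ar at *
  rw [hx1]
  have hdiv : ((Int.gcd (d : ℤ) ((N / d : ℕ) : ℤ) : ℕ) : ℤ) ∣ a * e - ar := by
    have h1 : Int.gcd (d : ℤ) ((N / d : ℕ) : ℤ) = m := by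
      rw [Int.gcd_natCast_natCast]
    rw [h1, ← ZMod.intCast_zmod_eq_zero_iff_dvd, Int.cast_sub, hx0, sub_self]
  obtain ⟨k, t, hk⟩ := exists_mul_add_dvd hdiv
  refine ⟨k, ?_⟩
  rw [← hc, ← ha, hc₁, hN]
  refine ⟨t * c₁ - a * f, ?_⟩
  have h1 : (ar + k * d) * (d * c₁) - d * a = d * ((k * d - (a * e - ar)) * c₁ + a * (e * c₁ - 1)) := by
    ring
  rw [h1, hk]
  have h2 : e * c₁ - 1 = - (f * ((N / d : ℕ) : ℤ)) := by linarith
  rw [h2]
  ring

theorem card_cuspIndex (N : ℕ) [NeZero N] : Nat.card (CuspIndex N) = ModularCurve.cuspCount N := by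
  have hfin : ∀ d : N.divisors, Finite (ZMod (Nat.gcd (d : ℕ) (N / (d : ℕ))))ˣ := by
    intro d
    have hd0 : 0 < (d : ℕ) := Nat.pos_of_mem_divisors d.2
    have : NeZero (Nat.gcd (d : ℕ) (N / (d : ℕ))) := ⟨(Nat.gcd_pos_of_pos_left _ hd0).ne'⟩
    infer_instance
  rw [CuspIndex, Nat.card_sigma, ModularCurve.cuspCount,
    ← Finset.sum_coe_sort N.divisors (fun d => Nat.totient (Nat.gcd d (N / d)))]
  refine Finset.sum_congr rfl fun d _ => ?_
  have hd0 : 0 < (d : ℕ) := Nat.pos_of_mem_divisors d.2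
  have : NeZero (Nat.gcd (d : ℕ) (N / (d : ℕ))) := ⟨(Nat.gcd_pos_of_pos_left _ hd0).ne'⟩
  rw [Nat.card_eq_fintype_card, ZMod.card_units_eq_totient]

/-- The number of `T`-orbits on `SL(2, ℤ) ⧸ Gamma0 N` is the number of cusps of `Gamma0 N`. -/
theorem card_orbits_T (N : ℕ) [NeZero N] :
    Nat.card (MulAction.orbitRel.Quotient (Subgroup.zpowers ModularGroup.T)
      (SL(2, ℤ) ⧸ CongruenceSubgroup.Gamma0 N)) = ModularCurve.cuspCount N := by
  rw [← card_cuspIndex N]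
  exact (Nat.card_congr (Equiv.ofBijective _ ⟨cuspMap_injective, cuspMap_surjective⟩)).symm

end Fermat.Agent.S20.Combinatorics
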