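import Fermat.Agent.S20.CosetBasic

set_option autoImplicit false

namespace Fermat.Agent.S20.Combinatorics

open CongruenceSubgroup Matrix MatrixGroups

variable {N : ℕ}

/-- The matrix `[[a, -1], [1, 0]]`. -/
def colOne (a : ℤ) : SL(2, ℤ) := ⟨!![a, -1; 1, 0], by rw [Matrix.det_fin_two_of]; ring⟩

@[simp] theorem colOne_zero_zero (a : ℤ) : colOne a 0 0 = a := rfl
@[simp] theorem colOne_one_zero (a : ℤ) : colOne a 1 0 = 1 := rfl

/-- General principle: if the fixed-point condition for `γ` on the coset of `g` reads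
`N ∣ P (g 0 0) (g 1 0)` for a binary form `P a c = a^2 + t a c + c^2`, the fixed points are in
bijection with the roots of `x^2 + t x + 1` in `ZMod N`. -/
theorem card_fixedBy_of_form [NeZero N] (γ : SL(2, ℤ)) (t : ℤ)
    (hγ : ∀ g : SL(2, ℤ), (γ • (g : SL(2, ℤ) ⧸ Gamma0 N) = g) ↔
      (N : ℤ) ∣ g 0 0 ^ 2 + t * g 0 0 * g 1 0 + g 1 0 ^ 2) :
    Nat.card (MulAction.fixedBy (SL(2, ℤ) ⧸ Gamma0 N) γ) =
      Nat.card {x : ZMod N // x ^ 2 + t * x + 1 = 0} := by
  symm
  let F : {x : ZMod N // x ^ 2 + t * x + 1 = 0} → MulAction.fixedBy (SL(2, ℤ) ⧸ Gamma0 N) γ :=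
    fun x => ⟨(colOne (x.1.val : ℤ) : SL(2, ℤ) ⧸ Gamma0 N), by
      rw [MulAction.mem_fixedBy, hγ, ← ZMod.intCast_zmod_eq_zero_iff_dvd]
      have := x.2
      simpa using this⟩
  refine Nat.card_congr (Equiv.ofBijective F ⟨?_, ?_⟩)
  · intro x y hxy
    have h1 : (colOne (x.1.val : ℤ) : SL(2, ℤ) ⧸ Gamma0 N) = colOne (y.1.val : ℤ) :=
      congrArg Subtype.val hxy
    rw [mk_eq_mk_iff, ← ZMod.intCast_zmod_eq_zero_iff_dvd] at h1
    apply Subtype.ext
    have h2 : x.1 - y.1 = 0 := by simpa using h1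
    exact sub_eq_zero.mp h2
  · rintro ⟨q, hq⟩
    induction q using QuotientGroup.induction_on with
    | H g =>
      rw [MulAction.mem_fixedBy, hγ, ← ZMod.intCast_zmod_eq_zero_iff_dvd] at hq
      push_cast at hq
      -- `c` is a unit mod `N`
      obtain ⟨u, v, huv⟩ := isCoprime_col g
      have huv' : (u : ZMod N) * (g 0 0 : ZMod N) + (v : ZMod N) * (g 1 0 : ZMod N) = 1 := by
        exact_mod_cast congrArg (Int.cast : ℤ → ZMod N) huv
      set a : ZMod N := (g 0 0 : ZMod N) with ha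
      set c : ZMod N := (g 1 0 : ZMod N) with hc
      -- an explicit inverse of `c`
      have hcu : c * (v * (u * a + v * c) + u * v * a - u ^ 2 * (t * a + c)) = 1 := by
        have : c * (v * (u * a + v * c) + u * v * a - u ^ 2 * (t * a + c)) =
            (u * a + v * c) ^ 2 - u ^ 2 * (a ^ 2 + t * a * c + c ^ 2) := by ring
        rw [this, hq, huv']; ring
      set c' : ZMod N := v * (u * a + v * c) + u * v * a - u ^ 2 * (t * a + c) with hc'
      have hx : (a * c') ^ 2 + t * (a * c') + 1 = 0 := by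
        have : (a * c') ^ 2 + t * (a * c') + 1 =
            (a ^ 2 + t * a * c + c ^ 2) * c' ^ 2 + (1 - c * c') * (t * a * c' + 1 + c * c') := by
          ring
        rw [this, hq, hcu]; ring
      refine ⟨⟨a * c', hx⟩, ?_⟩
      apply Subtype.ext
      show (colOne ((a * c').val : ℤ) : SL(2, ℤ) ⧸ Gamma0 N) = g
      rw [mk_eq_mk_iff, ← ZMod.intCast_zmod_eq_zero_iff_dvd]
      push_cast
      simp only [colOne_zero_zero, colOne_one_zero, ZMod.natCast_val, Int.cast_one, one_mul,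
        ZMod.intCast_zmod_cast]
      rw [← ha, ← hc]
      have : a * c' * c - a = a * (c * c' - 1) := by ring
      rw [this, hcu]; ring

theorem card_fixedBy_S (N : ℕ) [NeZero N] :
    Nat.card (MulAction.fixedBy (SL(2, ℤ) ⧸ Gamma0 N) ModularGroup.S) = ModularCurve.nuTwo N := by
  rw [card_fixedBy_of_form ModularGroup.S 0, ModularCurve.nuTwo]
  · simp
  · intro g
    rw [smul_mk, eq_comm, mk_eq_mk_iff, S_mul_apply_zero_zero, S_mul_apply_one_zero]
    have : g 0 0 * g 0 0 - g 1 0 * -g 1 0 = g 0 0 ^ 2 + 0 * g 0 0 * g 1 0 + g 1 0 ^ 2 := by ring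
    rw [this]

theorem card_fixedBy_ST (N : ℕ) [NeZero N] :
    Nat.card (MulAction.fixedBy (SL(2, ℤ) ⧸ Gamma0 N) (ModularGroup.S * ModularGroup.T)) =
      ModularCurve.nuThree N := by
  rw [card_fixedBy_of_form (ModularGroup.S * ModularGroup.T) 1, ModularCurve.nuThree]
  · simp
  · intro g
    rw [smul_mk, eq_comm, mk_eq_mk_iff, mul_assoc, S_mul_apply_zero_zero, S_mul_apply_one_zero,
      T_mul_apply_zero_zero, T_mul_apply_one_zero]
    have : g 0 0 * (g 0 0 + g 1 0) - g 1 0 * -g 1 0 =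
        g 0 0 ^ 2 + 1 * g 0 0 * g 1 0 + g 1 0 ^ 2 := by ring
    rw [this]

end Fermat.Agent.S20.Combinatorics
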