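import Fermat.Agent.S20.Defs

/-!
# S20, Task B: copy of Basic.lean (by helper227) in the namespace `Fermat.Agent.S20.B`, to avoid name clashes
-/

set_option autoImplicit false

open UpperHalfPlane ModularForm Matrix.SpecialLinearGroup Module
open scoped MatrixGroups ModularForm Manifold

namespace Fermat.Agent.S20.B

noncomputable section

variable {Γ : Subgroup SL(2, ℤ)}

section FiniteIndex

variable [Γ.FiniteIndex]

theorem MF_neg {k : ℤ} (hk : k < 0) : MF Γ k = ⊥ := by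
  rw [eq_bot_iff]
  intro f hf
  have h := ModularForm.isZero_of_neg_weight hk (toModularForm hf)
  have h2 : (⇑(toModularForm hf) : ℍ → ℂ) = 0 := by rw [h]; rfl
  simpa using h2

theorem MF_zero {f : ℍ → ℂ} (hf : f ∈ MF Γ 0) : ∃ c : ℂ, f = fun _ => c := by
  obtain ⟨c, hc⟩ := ModularForm.eq_const_of_weight_zero (toModularForm hf)
  exact ⟨c, hc⟩

theorem CF_nonpos {k : ℤ} (hk : k ≤ 0) : CF Γ k = ⊥ := by
  rw [eq_bot_iff]
  intro f hf
  rcases hk.lt_or_eq with hk | rfl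
  · have : f ∈ MF Γ k := CF_le_MF hf
    rwa [MF_neg hk] at this
  · obtain ⟨c, rfl⟩ := MF_zero (CF_le_MF hf)
    have h1 := hf.2.2 1
    rw [SlashAction.slash_one] at h1
    have h2 : Filter.Tendsto (fun _ : ℍ => c) atImInfty (nhds c) := tendsto_const_nhds
    have h3 : c = 0 := tendsto_nhds_unique h2 h1
    subst h3
    rfl

end FiniteIndex

theorem MF_odd (hneg : -1 ∈ Γ) {k : ℤ} (hk : Odd k) : MF Γ k = ⊥ := by
  rw [eq_bot_iff]
  intro f hf
  have hm : (-1 : GL (Fin 2) ℝ) ∈ (Γ : Subgroup (GL (Fin 2) ℝ)) := ⟨-1, hneg, by ext; simp⟩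
  have h := ModularForm.eq_zero_of_neg_one_mem hm hk (toModularForm hf)
  have h2 : (⇑(toModularForm hf) : ℍ → ℂ) = 0 := by rw [h]; rfl
  simpa using h2

/-- holomorphic functions on `ℍ` form a domain -/
theorem mul_eq_zero_of_mdiff {f g : ℍ → ℂ} (hf : MDiff f) (hg : MDiff g) (h : f * g = 0) :
    f = 0 ∨ g = 0 :=
  (UpperHalfPlane.mul_eq_zero_iff hf hg).1 h

theorem vec_mul_R {k l : ℤ} {A f : ℍ → ℂ} (hA : A ∈ R k) (q : Q Γ) :
    vec (k + l) (A * f) q = A * vec l f q := by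
  unfold vec
  rw [ModularForm.mul_slash_SL2, hA.2.1 _ trivial]

theorem vec_add (k : ℤ) (f g : ℍ → ℂ) (q : Q Γ) : vec k (f + g) q = vec k f q + vec k g q := by
  unfold vec
  rw [SlashAction.add_slash]

theorem vec_zero (k : ℤ) (q : Q Γ) : vec k (0 : ℍ → ℂ) q = 0 := by
  unfold vec
  rw [SlashAction.zero_slash]

theorem vec_neg (k : ℤ) (f : ℍ → ℂ) (q : Q Γ) : vec k (-f) q = -vec k f q := by
  unfold vec
  rw [SlashAction.neg_slash]

theorem vec_sub (k : ℤ) (f g : ℍ → ℂ) (q : Q Γ) : vec k (f - g) q = vec k f q - vec k g q := by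
  rw [sub_eq_add_neg, vec_add, vec_neg, sub_eq_add_neg]

theorem vec_smul (k : ℤ) (c : ℂ) (f : ℍ → ℂ) (q : Q Γ) : vec k (c • f) q = c • vec k f q := by
  unfold vec
  rw [ModularForm.SL_smul_slash]

theorem vec_sum {ι : Type*} (k : ℤ) (s : Finset ι) (f : ι → ℍ → ℂ) (q : Q Γ) :
    vec k (∑ i ∈ s, f i) q = ∑ i ∈ s, vec k (f i) q := by
  classical
  induction s using Finset.induction_on with
  | empty => simp [vec_zero]
  | insert a s ha ih => rw [Finset.sum_insert ha, Finset.sum_insert ha, vec_add, ih]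

theorem vec_mul (k l : ℤ) (f g : ℍ → ℂ) (q : Q Γ) :
    vec (k + l) (f * g) q = vec k f q * vec l g q := by
  unfold vec
  rw [ModularForm.mul_slash_SL2]

theorem vec_mdiff {k : ℤ} {f : ℍ → ℂ} (hf : MDiff f) (q : Q Γ) : MDiff (vec k f q) :=
  hf.slash k _

theorem vec_bdd {k : ℤ} {f : ℍ → ℂ} (hf : f ∈ MF Γ k) (q : Q Γ) :
    IsBoundedAtImInfty (vec k f q) :=
  hf.2.2 _

theorem vec_zero_at {k : ℤ} {f : ℍ → ℂ} (hf : f ∈ CF Γ k) (q : Q Γ) :
    IsZeroAtImInfty (vec k f q) :=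
  hf.2.2 _

/-- criterion for membership from the conjugates -/
theorem mem_CF_of_vec {k : ℤ} {f : ℍ → ℂ} (hf : f ∈ MF Γ k)
    (h : ∀ q : Q Γ, IsZeroAtImInfty (vec k f q)) : f ∈ CF Γ k := by
  refine ⟨hf.1, hf.2.1, fun γ => ?_⟩
  have h1 := h ((γ⁻¹ : SL(2, ℤ)) : Q Γ)
  rwa [vec_mk hf.2.1, inv_inv] at h1

/-- criterion for membership in `MF` from the conjugates -/
theorem mem_MF_of_vec {k : ℤ} {f : ℍ → ℂ} (hf : MDiff f) (hinv : ∀ γ ∈ Γ, f ∣[k] γ = f)
    (h : ∀ q : Q Γ, IsBoundedAtImInfty (vec k f q)) : f ∈ MF Γ k := by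
  refine ⟨hf, hinv, fun γ => ?_⟩
  have h1 := h ((γ⁻¹ : SL(2, ℤ)) : Q Γ)
  rwa [vec_mk hinv, inv_inv] at h1

end

end Fermat.Agent.S20.B
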