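import Fermat.Agent.S20.Defs
import Fermat.Prelude.Def_ModularCurve_GenusNumerics

/-! BLUEPRINT (statements only, WIP, never imported by S20.lean).  Each block = one task = one file. -/

set_option autoImplicit false

open UpperHalfPlane ModularForm Matrix.SpecialLinearGroup Module
open scoped MatrixGroups ModularForm Manifold

namespace Fermat.Agent.S20.Blueprint
open Fermat.Agent.S20

noncomputable section

variable {Γ : Subgroup SL(2, ℤ)} [Γ.FiniteIndex]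

/-! ### Task A : LevelOne.lean -/
theorem E4_mem : E4 ∈ R 4 := sorry
theorem E6_mem : E6 ∈ R 6 := sorry
theorem Dl_mem : Dl ∈ CF ⊤ 12 := sorry
theorem Dl_ne_zero (z : ℍ) : Dl z ≠ 0 := sorry
theorem Dl_eq (z : ℍ) : 1728 * Dl z = E4 z ^ 3 - E6 z ^ 2 := sorry
theorem E4_tendsto : Filter.Tendsto E4 atImInfty (nhds 1) := sorry
theorem E6_tendsto : Filter.Tendsto E6 atImInfty (nhds 1) := sorry
theorem finrank_R_nat (k : ℕ) (hk : Even k) :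
    finrank ℂ (R (k : ℤ)) = if k % 12 = 2 then k / 12 else k / 12 + 1 := sorry
theorem R_neg {k : ℤ} (hk : k < 0) : R k = ⊥ := sorry
theorem R_odd {k : ℤ} (hk : Odd k) : R k = ⊥ := sorry
theorem R_two : R 2 = ⊥ := sorry
theorem R_zero {f : ℍ → ℂ} (hf : f ∈ R 0) : ∃ c : ℂ, f = fun _ => c := sorry
theorem const_mem_R (c : ℂ) : (fun _ => c : ℍ → ℂ) ∈ R 0 := sorry
instance (k : ℤ) : FiniteDimensional ℂ (R k) := sorry
theorem R_pos {k : ℤ} (hk : 0 < k) {f : ℍ → ℂ} (hf : f ∈ R k) :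
    ∃ a ∈ R (k - 4), ∃ b ∈ R (k - 6), f = E4 * a + E6 * b := sorry
theorem CF_top {k : ℤ} {f : ℍ → ℂ} (hf : f ∈ CF ⊤ k) : ∃ g ∈ R (k - 12), f = Dl * g := sorry
/-- `D Δ = E₂ Δ`, i.e. the Serre derivative of `Δ` vanishes. -/
theorem serre_Dl : Derivative.serreDerivative 12 Dl = 0 := sorry

/-! ### Task B : Basic.lean (small weights, general Γ) + Koszul.lean -/
theorem MF_neg {k : ℤ} (hk : k < 0) : MF Γ k = ⊥ := sorry
theorem MF_zero {f : ℍ → ℂ} (hf : f ∈ MF Γ 0) : ∃ c : ℂ, f = fun _ => c := sorry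
theorem CF_nonpos {k : ℤ} (hk : k ≤ 0) : CF Γ k = ⊥ := sorry
theorem MF_odd (hneg : -1 ∈ Γ) {k : ℤ} (hk : Odd k) : MF Γ k = ⊥ := sorry
theorem koszul {k : ℤ} {a b : ℍ → ℂ} (ha : a ∈ MF Γ (k - 4)) (hb : b ∈ MF Γ (k - 6))
    (h : E4 * a + E6 * b = 0) : ∃ g ∈ MF Γ (k - 10), a = E6 * g ∧ b = -(E4 * g) := sorry
/-- holomorphic functions on `ℍ` form a domain -/
theorem mul_eq_zero_of_mdiff {f g : ℍ → ℂ} (hf : MDiff f) (hg : MDiff g) (h : f * g = 0) :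
    f = 0 ∨ g = 0 := sorry
theorem vec_mul_R {k l : ℤ} {A f : ℍ → ℂ} (hA : A ∈ R k) (q : Q Γ) :
    vec (k + l) (A * f) q = A * vec l f q := sorry
theorem vec_add (k : ℤ) (f g : ℍ → ℂ) (q : Q Γ) : vec k (f + g) q = vec k f q + vec k g q := sorry
theorem vec_mdiff {k : ℤ} {f : ℍ → ℂ} (hf : MDiff f) (q : Q Γ) : MDiff (vec k f q) := sorry
theorem vec_bdd {k : ℤ} {f : ℍ → ℂ} (hf : f ∈ MF Γ k) (q : Q Γ) :
    IsBoundedAtImInfty (vec k f q) := sorry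
theorem vec_zero_at {k : ℤ} {f : ℍ → ℂ} (hf : f ∈ CF Γ k) (q : Q Γ) :
    IsZeroAtImInfty (vec k f q) := sorry
/-- criterion for membership from the conjugates -/
theorem mem_CF_of_vec {k : ℤ} {f : ℍ → ℂ} (hf : f ∈ MF Γ k)
    (h : ∀ q : Q Γ, IsZeroAtImInfty (vec k f q)) : f ∈ CF Γ k := sorry

/-! ### Task C : Nakayama.lean -/
theorem exists_generators :
    ∃ (ι : Type) (wt : ι → ℤ) (F : ι → ℍ → ℂ), (∀ j, F j ∈ MF Γ (wt j)) ∧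
      (∀ w, ∀ f ∈ MF Γ w, ∃ (s : Finset ι) (A : ι → ℍ → ℂ),
        (∀ j, A j ∈ R (w - wt j)) ∧ f = ∑ j ∈ s, A j * F j) ∧
      (∀ w (s : Finset ι) (A : ι → ℍ → ℂ), (∀ j ∈ s, A j ∈ R (w - wt j)) →
        ∑ j ∈ s, A j * F j = 0 → ∀ j ∈ s, A j = 0) := sorry

/-! ### Task D : Separating.lean -/
theorem exists_separating (N : ℕ) [NeZero N] :
    ∃ h ∈ MF (CongruenceSubgroup.Gamma0 N) 12, ∀ g : SL(2, ℤ), h ∣[(12 : ℤ)] g = h →
      g ∈ CongruenceSubgroup.Gamma0 N := sorry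

/-! ### Task E : DetForms.lean + FreeBasis.lean -/
theorem det_mul_det_mem (wt wt' : Q Γ → ℤ) (F F' : Q Γ → ℍ → ℂ) (hF : ∀ j, F j ∈ MF Γ (wt j))
    (hF' : ∀ j, F' j ∈ MF Γ (wt' j)) :
    (fun z => (Phi (Γ := Γ) wt F z).det * (Phi (Γ := Γ) wt' F' z).det)
      ∈ R (∑ j, wt j + ∑ j, wt' j) := sorry
theorem exists_freeBasis
    (hsep : ∃ k : ℤ, ∃ h ∈ MF Γ k, ∀ g : SL(2, ℤ), h ∣[k] g = h → g ∈ Γ) :
    ∃ (wt : Q Γ → ℤ) (F : Q Γ → ℍ → ℂ), IsFreeBasis Γ wt F := sorry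

/-! ### Task F : Serre.lean -/
theorem serre_mem {k : ℤ} {f : ℍ → ℂ} (hf : f ∈ MF Γ k) :
    Derivative.serreDerivative k f ∈ MF Γ (k + 2) := sorry
theorem vec_serre {k : ℤ} {f : ℍ → ℂ} (hf : MDiff f) (q : Q Γ) :
    vec (k + 2) (Derivative.serreDerivative k f) q = Derivative.serreDerivative k (vec k f q) :=
  sorry

/-! ### Task G : DetODE.lean -/
theorem det_pow_eq {wt : Q Γ → ℤ} {F : Q Γ → ℍ → ℂ} (hB : IsFreeBasis Γ wt F) :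
    ∃ c : ℂ, c ≠ 0 ∧ ∀ z, (Phi (Γ := Γ) wt F z).det ^ 12 = c * Dl z ^ (∑ j, wt j) := sorry
theorem det_ne_zero {wt : Q Γ → ℤ} {F : Q Γ → ℍ → ℂ} (hB : IsFreeBasis Γ wt F) (z : ℍ) :
    (Phi (Γ := Γ) wt F z).det ≠ 0 := sorry

/-! ### Task H : Elliptic.lean -/
theorem card_fixedBy_S {wt : Q Γ → ℤ} {F : Q Γ → ℍ → ℂ} (hB : IsFreeBasis Γ wt F) :
    (Nat.card (MulAction.fixedBy (Q Γ) ModularGroup.S) : ℂ) = ∑ j, Complex.I ^ (-wt j) := sorry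
theorem card_fixedBy_ST {wt : Q Γ → ℤ} {F : Q Γ → ℍ → ℂ} (hB : IsFreeBasis Γ wt F) :
    (Nat.card (MulAction.fixedBy (Q Γ) (ModularGroup.S * ModularGroup.T)) : ℂ)
      = ∑ j, ((rho : ℂ) + 1) ^ (-wt j) := sorry

/-! ### Task M : Count.lean -/
theorem finrank_MF {wt : Q Γ → ℤ} {F : Q Γ → ℍ → ℂ} (hB : IsFreeBasis Γ wt F) (w : ℤ) :
    FiniteDimensional ℂ (MF Γ w) ∧ finrank ℂ (MF Γ w) = ∑ j, finrank ℂ (R (w - wt j)) := sorry

/-! ### Task I : Cusp*.lean.  `M` = any positive period of `T` on `Q Γ`. -/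
section cusp
variable {M : ℕ} [NeZero M] (hM : ∀ q : Q Γ, (ModularGroup.T ^ M) • q = q)
include hM

/-- I1 -/
theorem vec_periodic {w : ℤ} {f : ℍ → ℂ} (hf : ∀ γ ∈ Γ, f ∣[w] γ = f) (q : Q Γ) :
    Function.Periodic (vec w f q ∘ ofComplex) ((M : ℝ) : ℂ) := sorry
theorem coef_T {w : ℤ} {f : ℍ → ℂ} (hf : f ∈ MF Γ w) (n : ℕ) (q : Q Γ) :
    coef M w f n (ModularGroup.T⁻¹ • q) =
      Complex.exp (2 * Real.pi * Complex.I * n / M) * coef M w f n q := sorry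
/-- decay versus vanishing of coefficients, for a single function -/
theorem isBigO_iff_coeff {φ : ℍ → ℂ} (hper : Function.Periodic (φ ∘ ofComplex) ((M : ℝ) : ℂ))
    (hhol : MDiff φ) (hbdd : IsBoundedAtImInfty φ) (m : ℕ) :
    (∀ n < m, (qExpansion (M : ℝ) φ).coeff n = 0) ↔
      φ =O[atImInfty] fun τ => Real.exp (-2 * Real.pi * m * τ.im / M) := sorry
/-- I2 -/
theorem coef_eq_zero_of_ell {w : ℤ} {f : ℍ → ℂ} (hf : f ∈ MF Γ w) {v : Q Γ → ℂ} {m : ℕ}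
    (hm : m < M) (hv : ∀ q, v (ModularGroup.T⁻¹ • q) =
      Complex.exp (2 * Real.pi * Complex.I * m / M) * v q) (h : ell M w f = v) :
    coef M w f m = v ∧ ∀ n < M, n ≠ m → coef (Γ := Γ) M w f n = 0 := sorry
theorem ell_eq_zero_iff {w : ℤ} {f : ℍ → ℂ} (hf : f ∈ MF Γ w) :
    ell (Γ := Γ) M w f = 0 ↔ ∃ g ∈ MF Γ (w - 12), f = Dl * g := sorry
theorem div_Dl_mem_CF {w : ℤ} {f : ℍ → ℂ} (hf : f ∈ MF Γ w)
    (h : ∀ n ≤ M, coef (Γ := Γ) M w f n = 0) : ∃ g ∈ CF Γ (w - 12), f = Dl * g := sorry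
theorem ell_surjective {w : ℤ} [FiniteDimensional ℂ (MF Γ w)]
    (hcount : finrank ℂ (MF Γ w) = finrank ℂ (MF Γ (w - 12)) + Nat.card (Q Γ)) (v : Q Γ → ℂ) :
    ∃ f ∈ MF Γ w, ell M w f = v := sorry
/-- I3 -/
theorem finrank_MF_eq_CF_add {w : ℤ} [FiniteDimensional ℂ (MF Γ w)]
    (hsurj : ∀ v : Q Γ → ℂ, ∃ f ∈ MF Γ w, ell M w f = v) :
    finrank ℂ (MF Γ w) = finrank ℂ (CF Γ w) +
      Nat.card (MulAction.orbitRel.Quotient (Subgroup.zpowers ModularGroup.T) (Q Γ)) := sorry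
theorem coeff_trP {w w' : ℤ} {f g : ℍ → ℂ} (hf : f ∈ MF Γ w) (hg : g ∈ MF Γ w') (n : ℕ) :
    (qExpansion (M : ℝ) (trP Γ w w' f g)).coeff n =
      ∑ p ∈ Finset.HasAntidiagonal.antidiagonal n, ∑ q : Q Γ, coef M w f p.1 q * coef M w' g p.2 q := sorry
/-- local duality at the cusps -/
theorem local_duality {w w' : ℤ} (hsurj : ∀ v : Q Γ → ℂ, ∃ f ∈ MF Γ w, ell M w f = v)
    {g : ℍ → ℂ} (hg : g ∈ CF Γ w')
    (h : ∀ f ∈ MF Γ w, (qExpansion (M : ℝ) (trP Γ w w' f g)).coeff M = 0) :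
    ∃ g' ∈ CF Γ (w' - 12), g = Dl * g' := sorry
end cusp

/-! ### Task J : Dual.lean -/
theorem trP_mem {k l : ℤ} {f g : ℍ → ℂ} (hf : f ∈ MF Γ k) (hg : g ∈ MF Γ l) :
    trP Γ k l f g ∈ R (k + l) := sorry
theorem trP_mem_CF {k l : ℤ} {f g : ℍ → ℂ} (hf : f ∈ MF Γ k) (hg : g ∈ CF Γ l) :
    trP Γ k l f g ∈ CF ⊤ (k + l) := sorry
/-- the dual basis: cusp forms `G j` of weight `12 - wt j` with `∑_q (G j)_q (F i)_q = δ_ij Δ`. -/
theorem exists_dual {wt : Q Γ → ℤ} {F : Q Γ → ℍ → ℂ} (hB : IsFreeBasis Γ wt F) :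
    ∃ G : Q Γ → ℍ → ℂ, (∀ j, G j ∈ CF Γ (12 - wt j)) ∧
      ∀ i j, trP Γ (wt i) (12 - wt j) (F i) (G j) = if i = j then Dl else 0 := sorry
theorem finrank_CF {wt : Q Γ → ℤ} {F : Q Γ → ℍ → ℂ} (hB : IsFreeBasis Γ wt F) (w : ℤ) :
    finrank ℂ (CF Γ w) = ∑ j, finrank ℂ (R (w + wt j - 12)) := sorry

/-! ### Task K : Numerics.lean -/
theorem numerics {ι : Type} [Fintype ι] (wt : ι → ℤ) (d s : ℤ → ℕ)
    (hd : ∀ w, d w = ∑ j, finrank ℂ (R (w - wt j)))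
    (hs : ∀ w, s w = ∑ j, finrank ℂ (R (w + wt j - 12)))
    (hd0 : d 0 = 1) (hdneg : ∀ w < 0, d w = 0) (hs0 : ∀ w ≤ 0, s w = 0)
    (heven : ∀ j, Even (wt j)) (e2 e3 c : ℕ)
    (h2 : (e2 : ℂ) = ∑ j, Complex.I ^ (-wt j))
    (h3 : (e3 : ℂ) = ∑ j, ((rho : ℂ) + 1) ^ (-wt j))
    (hc : ∀ w, (∀ j, wt j + 4 ≤ w) → Even w → d w = s w + c) :
    (s 2 : ℚ) = 1 + (Fintype.card ι : ℚ) / 12 - (e2 : ℚ) / 4 - (e3 : ℚ) / 3 - (c : ℚ) / 2 := sorry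

/-! ### Core theorem (assembly; shape requested by the S21 team) -/
theorem core (hneg : -1 ∈ Γ)
    (hsep : ∃ k : ℤ, ∃ h ∈ MF Γ k, ∀ g : SL(2, ℤ), h ∣[k] g = h → g ∈ Γ) :
    (finrank ℂ (CuspForm (Γ : Subgroup (GL (Fin 2) ℝ)) 2) : ℚ) =
      1 + (Nat.card (Q Γ) : ℚ) / 12
        - (Nat.card (MulAction.fixedBy (Q Γ) ModularGroup.S) : ℚ) / 4
        - (Nat.card (MulAction.fixedBy (Q Γ) (ModularGroup.S * ModularGroup.T)) : ℚ) / 3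
        - (Nat.card (MulAction.orbitRel.Quotient (Subgroup.zpowers ModularGroup.T) (Q Γ)) : ℚ) / 2 :=
  sorry

/-! ### Task L : combinatorics of `Q (Gamma0 N)` -/
theorem card_Q (N : ℕ) [NeZero N] :
    Nat.card (Q (CongruenceSubgroup.Gamma0 N)) = ModularCurve.dedekindPsi N := sorry
theorem card_fix_S (N : ℕ) [NeZero N] :
    Nat.card (MulAction.fixedBy (Q (CongruenceSubgroup.Gamma0 N)) ModularGroup.S)
      = ModularCurve.nuTwo N := sorry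
theorem card_fix_ST (N : ℕ) [NeZero N] :
    Nat.card (MulAction.fixedBy (Q (CongruenceSubgroup.Gamma0 N))
      (ModularGroup.S * ModularGroup.T)) = ModularCurve.nuThree N := sorry
theorem card_orbits_T (N : ℕ) [NeZero N] :
    Nat.card (MulAction.orbitRel.Quotient (Subgroup.zpowers ModularGroup.T)
      (Q (CongruenceSubgroup.Gamma0 N))) = ModularCurve.cuspCount N := sorry

end

end Fermat.Agent.S20.Blueprint
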