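import Mathlib
import Fermat.Agent.S20.Defs
import Fermat.Agent.S21.OrbitCount
import Fermat.Prelude.Thm_Subgroup_IsArithmetic_exists_nat_mem_strictPeriods_conj

/-!
# The constant term map in weight two

`dim M₂(Γ) + 1 ≤ dim S₂(Γ) + #(T-orbits on SL(2,ℤ)/Γ)`.
-/

set_option autoImplicit false

open UpperHalfPlane Filter Topology Function Module
open scoped Real MatrixGroups Manifold ModularForm Pointwise

namespace Fermat.Agent.S20.ConstTerm

open Fermat.Agent.S21.CohomBound Fermat.Agent.S21.OrbitCount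

variable {Γ : Subgroup SL(2, ℤ)} [Γ.FiniteIndex] {k : ℤ}

/-- Every translate of a modular form is periodic. -/
lemma exists_periodic_slash {f : ℍ → ℂ} (hf : f ∈ MF Γ k) (γ : SL(2, ℤ)) :
    ∃ M : ℕ, 0 < M ∧ Periodic ((f ∣[k] γ) ∘ ofComplex) M := by
  obtain ⟨M, hM, hMper⟩ := Subgroup.IsArithmetic.exists_nat_mem_strictPeriods_conj
    (Γ : Subgroup (GL (Fin 2) ℝ))
  refine ⟨M, hM, ?_⟩
  have hmem : (M : ℝ) ∈ (ConjAct.toConjAct (Matrix.SpecialLinearGroup.mapGL ℝ γ)⁻¹ •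
      (Γ : Subgroup (GL (Fin 2) ℝ))).strictPeriods := by
    have := hMper γ⁻¹
    rwa [map_inv] at this
  exact SlashInvariantFormClass.periodic_comp_ofComplex
    (ModularForm.translate (toModularForm hf) (Matrix.SpecialLinearGroup.mapGL ℝ γ)) (h := M) hmem

/-- Every translate of a modular form has a limit at `i∞`. -/
lemma tendsto_slash {f : ℍ → ℂ} (hf : f ∈ MF Γ k) (γ : SL(2, ℤ)) :
    Tendsto (f ∣[k] γ) atImInfty (𝓝 (valueAtInfty (f ∣[k] γ))) := by
  obtain ⟨M, hM, hper⟩ := exists_periodic_slash hf γ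
  have hM' : (0 : ℝ) < M := by exact_mod_cast hM
  have han := analyticAt_cuspFunction_zero hM' hper (hf.1.slash k γ) (hf.2.2 γ)
  rw [← cuspFunction_apply_zero hM' han hper]
  have : (cuspFunction M (f ∣[k] γ) ∘ fun τ : ℍ ↦ Periodic.qParam M τ : ℍ → ℂ) = f ∣[k] γ := by
    funext τ
    simpa using eq_cuspFunction τ hM'.ne' hper
  simpa [this] using han.continuousAt.tendsto.comp (qParam_tendsto_atImInfty hM')

lemma tendsto_vec {f : ℍ → ℂ} (hf : f ∈ MF Γ k) (q : Q Γ) :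
    Tendsto (vec k f q) atImInfty (𝓝 (valueAtInfty (vec k f q))) :=
  tendsto_slash hf _

lemma vec_add (f g : ℍ → ℂ) (q : Q Γ) : vec k (f + g) q = vec k f q + vec k g q :=
  SlashAction.add_slash _ _ _ _

lemma vec_smul (c : ℂ) (f : ℍ → ℂ) (q : Q Γ) : vec k (c • f) q = c • vec k f q :=
  ModularForm.SL_smul_slash _ _ _ _

variable (Γ k)

/-- The constant term map. -/
noncomputable def ct : MF Γ k →ₗ[ℂ] (Q Γ → ℂ) where
  toFun f q := valueAtInfty (vec k f.1 q)
  map_add' f g := by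
    funext q
    simp only [Submodule.coe_add, Pi.add_apply, vec_add]
    exact ((tendsto_vec f.2 q).add (tendsto_vec g.2 q)).limUnder_eq
  map_smul' c f := by
    funext q
    simp only [Submodule.coe_smul, Pi.smul_apply, vec_smul, RingHom.id_apply]
    exact ((tendsto_vec f.2 q).const_smul c).limUnder_eq

variable {Γ k}

lemma ct_apply (f : MF Γ k) (q : Q Γ) : ct Γ k f q = valueAtInfty (vec k f.1 q) := rfl

lemma map_ker_ct : (LinearMap.ker (ct Γ k)).map (MF Γ k).subtype = CF Γ k := by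
  apply le_antisymm
  · rintro _ ⟨f, hf, rfl⟩
    rw [SetLike.mem_coe, LinearMap.mem_ker] at hf
    refine ⟨f.2.1, f.2.2.1, fun γ => ?_⟩
    have h1 := tendsto_vec f.2 ((γ⁻¹ : SL(2, ℤ)) : Q Γ)
    have h2 : valueAtInfty (vec k f.1 ((γ⁻¹ : SL(2, ℤ)) : Q Γ)) = 0 := congrFun hf _
    rw [h2, vec_mk f.2.2.1, inv_inv] at h1
    exact h1
  · intro f hf
    refine ⟨⟨f, CF_le_MF hf⟩, ?_, rfl⟩
    rw [SetLike.mem_coe, LinearMap.mem_ker]
    funext q
    exact (hf.2.2 _).valueAtInfty_eq_zero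

open ModularGroup in
lemma slash_T_inv_apply (g : ℍ → ℂ) (z : ℍ) : (g ∣[k] (T⁻¹ : SL(2, ℤ))) z = g (T⁻¹ • z) := by
  rw [ModularForm.SL_slash_apply]
  have : denom ((T⁻¹ : SL(2, ℤ)) : GL (Fin 2) ℝ) z = 1 := by
    rw [ModularGroup.denom_apply, coe_T_inv]
    simp
  rw [this]
  simp

open ModularGroup in
lemma tendsto_T_inv_smul : Tendsto (fun w : ℍ => ((T⁻¹ : SL(2, ℤ)) • w : ℍ)) atImInfty atImInfty := by
  rw [atImInfty, tendsto_comap_iff]
  have : (im ∘ fun w : ℍ => ((T⁻¹ : SL(2, ℤ)) • w : ℍ)) = im := by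
    funext w
    have := im_T_zpow_smul w (-1)
    simpa using this
  rw [this]
  exact tendsto_comap

open ModularGroup in
lemma ct_mem_inv (f : MF Γ k) : ct Γ k f ∈ inv Γ (T : SL(2, ℤ)) := by
  rw [inv, LinearMap.mem_ker]
  funext q
  simp only [LinearMap.sub_apply, Module.End.one_apply, Pi.sub_apply, Fermat.Agent.S21.CohomBound.L_apply,
    Pi.zero_apply, ct_apply]
  rw [sub_eq_zero]
  have h1 : vec k f.1 (T • q) = vec k f.1 q ∣[k] (T⁻¹ : SL(2, ℤ)) := by
    rw [vec_slash f.2.2.1, inv_inv]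
  have h2 : Tendsto (vec k f.1 (T • q)) atImInfty (𝓝 (valueAtInfty (vec k f.1 q))) := by
    rw [h1]
    have := (tendsto_vec f.2 q).comp tendsto_T_inv_smul
    refine this.congr fun z => ?_
    rw [slash_T_inv_apply]
    rfl
  exact h2.limUnder_eq

/-- The trace of a form to level one. -/
lemma sum_vec_mem_R {f : ℍ → ℂ} (hf : f ∈ MF Γ k) : ∑ q : Q Γ, vec k f q ∈ R k := by
  have hinv : ∀ γ : SL(2, ℤ), (∑ q : Q Γ, vec k f q) ∣[k] γ = ∑ q : Q Γ, vec k f q := by
    intro γ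
    rw [SlashAction.sum_slash]
    simp only [vec_slash hf.2.1]
    exact Equiv.sum_comp (MulAction.toPerm (γ⁻¹ : SL(2, ℤ))) (fun q : Q Γ => vec k f q)
  refine ⟨?_, fun γ _ => hinv γ, fun γ => ?_⟩
  · exact MDifferentiable.sum fun q _ => hf.1.slash k _
  · rw [hinv γ]
    have : ∀ s : Finset (Q Γ), IsBoundedAtImInfty (∑ q ∈ s, vec k f q) := by
      intro s
      induction s using Finset.induction_on with
      | empty => simpa using zero_form_isBoundedAtImInfty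
      | insert a s ha ih =>
        rw [Finset.sum_insert ha]
        exact (hf.2.2 _).add ih
    exact this _

lemma R_two_eq_bot : R 2 = ⊥ := by
  rw [eq_bot_iff]
  intro f hf
  have h0 : Module.rank ℂ (ModularForm 𝒮ℒ 2) = 0 := ModularForm.levelOne_weight_two_rank_zero
  rw [rank_zero_iff_forall_zero] at h0
  have := h0 (toLevelOne hf)
  have h2 : f = ⇑(toLevelOne hf) := rfl
  rw [Submodule.mem_bot, h2, this]
  rfl

lemma sum_ct_eq_zero (f : MF Γ 2) : ∑ q : Q Γ, ct Γ 2 f q = 0 := by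
  have h1 : ∑ q : Q Γ, vec 2 f.1 q = 0 := by
    have := sum_vec_mem_R f.2
    rwa [R_two_eq_bot, Submodule.mem_bot] at this
  have h2 : Tendsto (fun z => ∑ q : Q Γ, vec 2 f.1 q z) atImInfty (𝓝 (∑ q : Q Γ, ct Γ 2 f q)) :=
    tendsto_finsetSum _ fun q _ => tendsto_vec f.2 q
  have h3 : (fun z => ∑ q : Q Γ, vec 2 f.1 q z) = fun _ => (0 : ℂ) := by
    funext z
    have := congrFun h1 z
    simpa using this
  rw [h3] at h2
  exact (tendsto_nhds_unique h2 tendsto_const_nhds)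

variable (Γ) in
/-- The sum functional. -/
noncomputable def sumL : (Q Γ → ℂ) →ₗ[ℂ] ℂ := ∑ q : Q Γ, LinearMap.proj q

lemma sumL_apply (v : Q Γ → ℂ) : sumL Γ v = ∑ q, v q := by simp [sumL]

open ModularGroup in
/-- `dim M₂(Γ) + 1 ≤ dim S₂(Γ) + dim (T-invariant functions on SL(2,ℤ)/Γ)`. -/
theorem finrank_MF_two_add_one_le :
    finrank ℂ (MF Γ 2) + 1 ≤ finrank ℂ (CF Γ 2) + finrank ℂ (inv Γ (T : SL(2, ℤ))) := by
  have hlt : inv Γ (T : SL(2, ℤ)) ⊓ LinearMap.ker (sumL Γ) < inv Γ (T : SL(2, ℤ)) := by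
    refine lt_of_le_of_ne inf_le_left fun h => ?_
    have h1 : (fun _ => (1 : ℂ)) ∈ inv Γ (T : SL(2, ℤ)) := by
      rw [inv, LinearMap.mem_ker]
      funext q
      simp
    rw [← h] at h1
    have h2 := h1.2
    rw [SetLike.mem_coe, LinearMap.mem_ker, sumL_apply] at h2
    simp at h2
  have h1 := Submodule.finrank_lt_finrank_of_lt hlt
  by_cases hfin : Module.Finite ℂ (MF Γ 2)
  · have hrange : LinearMap.range (ct Γ 2) ≤ inv Γ (T : SL(2, ℤ)) ⊓ LinearMap.ker (sumL Γ) := by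
      rintro _ ⟨f, rfl⟩
      refine ⟨ct_mem_inv f, ?_⟩
      rw [SetLike.mem_coe, LinearMap.mem_ker, sumL_apply]
      exact sum_ct_eq_zero f
    have h2 := lt_of_le_of_lt (Submodule.finrank_mono hrange) h1
    have h3 := LinearMap.finrank_range_add_finrank_ker (ct Γ 2)
    have h4 := Submodule.finrank_map_subtype_eq (MF Γ 2) (LinearMap.ker (ct Γ 2))
    rw [map_ker_ct] at h4
    omega
  · rw [Module.finrank_of_not_finite hfin]
    omega

open ModularGroup in
/-- `dim M₂(Γ) + 1 ≤ dim S₂(Γ) + #(T-orbits on SL(2,ℤ)/Γ)`. -/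
theorem finrank_MF_two_le :
    finrank ℂ (MF Γ 2) + 1 ≤ finrank ℂ (CF Γ 2)
      + Nat.card (MulAction.orbitRel.Quotient (Subgroup.zpowers (T : SL(2, ℤ))) (Q Γ)) := by
  have := finrank_MF_two_add_one_le (Γ := Γ)
  rwa [finrank_inv_eq_card_orbits] at this

end Fermat.Agent.S20.ConstTerm
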