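import Fermat.Agent.S20.CuspCoef

/-!
# S20, task I2 (owner: helper120): the map `ell`, division by `Δ`, surjectivity

Statements = block "I2" of `Blueprint.lean`:
`coef_eq_zero_of_ell`, `ell_eq_zero_iff`, `div_Dl_mem_CF`, `ell_surjective`.
Helper lemmas live in the namespace `Fermat.Agent.S20.CuspEll`.
-/

set_option autoImplicit false
set_option linter.unusedSectionVars false

open UpperHalfPlane ModularForm Matrix.SpecialLinearGroup Module
open scoped MatrixGroups ModularForm Manifold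

namespace Fermat.Agent.S20

noncomputable section

variable {Γ : Subgroup SL(2, ℤ)} [Γ.FiniteIndex]

namespace CuspEll

lemma vec_add' (k : ℤ) (f g : ℍ → ℂ) (q : Q Γ) : vec k (f + g) q = vec k f q + vec k g q := by
  unfold vec; exact SlashAction.add_slash _ _ _ _

lemma vec_smul' (k : ℤ) (c : ℂ) (f : ℍ → ℂ) (q : Q Γ) : vec k (c • f) q = c • vec k f q := by
  unfold vec; exact ModularForm.SL_smul_slash _ _ _ _

lemma vec_mdiff' {k : ℤ} {f : ℍ → ℂ} (hf : MDiff f) (q : Q Γ) : MDiff (vec k f q) := by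
  unfold vec; exact hf.slash k _

lemma vec_bdd' {k : ℤ} {f : ℍ → ℂ} (hf : f ∈ MF Γ k) (q : Q Γ) :
    IsBoundedAtImInfty (vec k f q) := hf.2.2 _

lemma Dl_slash (γ : SL(2, ℤ)) : Dl ∣[(12 : ℤ)] γ = Dl :=
  CuspForm.discriminant.slash_action_eq' _ ⟨γ, rfl⟩

lemma Dl_mdiff : MDiff Dl := CuspForm.discriminant.holo'

lemma Dl_ne (z : ℍ) : Dl z ≠ 0 := ModularForm.discriminant_ne_zero z

lemma Dl_isBigO : Dl =O[atImInfty] fun τ : ℍ => Real.exp (-2 * Real.pi * τ.im) := by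
  have := CuspFormClass.exp_decay_atImInfty (h := 1) CuspForm.discriminant one_pos
    one_mem_strictPeriods_SL
  simpa [Dl] using this

lemma exp_isBigO_Dl : (fun τ : ℍ => Real.exp (-2 * Real.pi * τ.im)) =O[atImInfty] Dl :=
  ModularForm.exp_isBigO_discriminant

lemma vec_Dl_mul (w : ℤ) (g : ℍ → ℂ) (q : Q Γ) :
    vec w (Dl * g) q = Dl * vec (w - 12) g q := by
  unfold vec
  have : w = 12 + (w - 12) := by ring
  conv_lhs => rw [this]
  rw [ModularForm.mul_slash_SL2, Dl_slash]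

/-- decay of a quotient by `Δ` -/
lemma div_Dl_isBigO {F : ℍ → ℂ} {a : ℝ}
    (hF : F =O[atImInfty] fun τ : ℍ => Real.exp (-a * τ.im)) :
    (F / Dl) =O[atImInfty] fun τ : ℍ => Real.exp (-(a - 2 * Real.pi) * τ.im) := by
  have h1 : (fun τ => (Dl τ)⁻¹) =O[atImInfty] fun τ : ℍ => (Real.exp (-2 * Real.pi * τ.im))⁻¹ :=
    exp_isBigO_Dl.inv_rev (Filter.Eventually.of_forall fun τ h => absurd h (Real.exp_pos _).ne')
  have h2 := hF.mul h1
  refine h2.congr (fun τ => by simp [div_eq_mul_inv]) (fun τ => ?_)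
  rw [← Real.exp_neg, ← Real.exp_add]
  congr 1
  ring

lemma slash_eq_vec {w : ℤ} {f : ℍ → ℂ} (hf : ∀ γ ∈ Γ, f ∣[w] γ = f) (γ : SL(2, ℤ)) :
    f ∣[w] γ = vec w f ((γ⁻¹ : SL(2, ℤ)) : Q Γ) := by
  rw [vec_mk hf, inv_inv]

lemma div_Dl_slash {w : ℤ} (f : ℍ → ℂ) (γ : SL(2, ℤ)) :
    (f / Dl) ∣[w - 12] γ = (f ∣[w] γ) / Dl := by
  rw [ModularForm.div_slash_SL2, Dl_slash]

lemma div_mem_MF {w : ℤ} {f : ℍ → ℂ} (hf : f ∈ MF Γ w)
    (h : ∀ q : Q Γ, IsBoundedAtImInfty (vec w f q / Dl)) : f / Dl ∈ MF Γ (w - 12) := by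
  refine ⟨hf.1.div Dl_mdiff Dl_ne, fun γ hγ => ?_, fun γ => ?_⟩
  · rw [div_Dl_slash, hf.2.1 γ hγ]
  · rw [div_Dl_slash, slash_eq_vec hf.2.1]; exact h _

lemma div_mem_CF {w : ℤ} {f : ℍ → ℂ} (hf : f ∈ MF Γ w)
    (h : ∀ q : Q Γ, IsZeroAtImInfty (vec w f q / Dl)) : f / Dl ∈ CF Γ (w - 12) := by
  refine ⟨hf.1.div Dl_mdiff Dl_ne, fun γ hγ => ?_, fun γ => ?_⟩
  · rw [div_Dl_slash, hf.2.1 γ hγ]
  · rw [div_Dl_slash, slash_eq_vec hf.2.1]; exact h _

lemma eq_Dl_mul_div (f : ℍ → ℂ) : f = Dl * (f / Dl) := by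
  funext z
  simp only [Pi.mul_apply, Pi.div_apply]
  rw [mul_div_cancel₀ _ (Dl_ne z)]

lemma tendsto_exp_neg_mul_im {c : ℝ} (hc : 0 < c) :
    Filter.Tendsto (fun τ : ℍ => Real.exp (-c * τ.im)) atImInfty (nhds 0) := by
  have h1 : Filter.Tendsto (fun τ : ℍ => τ.im) atImInfty Filter.atTop := Filter.tendsto_comap
  have h2 : Filter.Tendsto (fun τ : ℍ => c * τ.im) atImInfty Filter.atTop :=
    h1.const_mul_atTop hc
  have := Real.tendsto_exp_neg_atTop_nhds_zero.comp h2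
  refine this.congr (fun τ => ?_)
  simp


/-- the shift operator `v ↦ v ∘ (T⁻¹ • ·)` on `Q Γ → ℂ` -/
def tau (Γ : Subgroup SL(2, ℤ)) : Module.End ℂ (Q Γ → ℂ) :=
  LinearMap.funLeft ℂ ℂ (fun q : Q Γ => ModularGroup.T⁻¹ • q)

lemma tau_apply (v : Q Γ → ℂ) (q : Q Γ) : tau Γ v q = v (ModularGroup.T⁻¹ • q) := rfl

/-- `ζ_M ^ n` -/
def zeta (M : ℕ) (n : ℕ) : ℂ := Complex.exp (2 * Real.pi * Complex.I * n / M)

lemma zeta_inj {M : ℕ} [NeZero M] {a b : ℕ} (ha : a < M) (hb : b < M)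
    (h : zeta M a = zeta M b) : a = b := by
  unfold zeta at h
  rw [Complex.exp_eq_exp_iff_exists_int] at h
  obtain ⟨k, hk⟩ := h
  have hM : (M : ℂ) ≠ 0 := Nat.cast_ne_zero.mpr (NeZero.ne M)
  have hpi : (2 * Real.pi * Complex.I : ℂ) ≠ 0 := Complex.two_pi_I_ne_zero
  have h1 : (a : ℂ) = b + k * M := by
    field_simp at hk
    linear_combination hk
  have h2 : (a : ℤ) = b + k * M := by exact_mod_cast h1
  have hk0 : k = 0 := by
    by_contra hk0
    rcases lt_or_gt_of_ne hk0 with hneg | hpos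
    · have : k * (M : ℤ) ≤ -1 * M := by
        apply mul_le_mul_of_nonneg_right (by omega) (by positivity)
      omega
    · have : 1 * (M : ℤ) ≤ k * M := by
        apply mul_le_mul_of_nonneg_right (by omega) (by positivity)
      omega
  subst hk0
  simpa using h2

lemma eq_zero_of_sum_eq_zero {M : ℕ} [NeZero M] (b : ℕ → Q Γ → ℂ)
    (hb : ∀ n < M, tau Γ (b n) = zeta M n • b n) (hsum : ∑ n ∈ Finset.range M, b n = 0) :
    ∀ n < M, b n = 0 := by
  have hind := ((tau Γ).eigenspaces_iSupIndep).comp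
    (f := fun i : Fin M => zeta M i) (fun i j hij => Fin.ext (zeta_inj i.2 j.2 hij))
  rw [iSupIndep_iff_finsetSum_eq_zero_imp_eq_zero] at hind
  intro n hn
  have := hind Finset.univ (fun i => b i) (fun i _ => by
    simp only [Function.comp]
    rw [Module.End.mem_eigenspace_iff]
    exact hb i i.2) (by rw [← hsum, Finset.sum_range]) ⟨n, hn⟩ (Finset.mem_univ _)
  simpa using this

lemma Dl_mem_MF : Dl ∈ MF Γ 12 :=
  ⟨Dl_mdiff, fun γ _ => Dl_slash γ, fun γ => by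
    rw [Dl_slash]; exact ModularForm.discriminant_isZeroAtImInfty.isBoundedAtImInfty⟩

lemma Dl_mul_mem_MF {w : ℤ} {g : ℍ → ℂ} (hg : g ∈ MF Γ (w - 12)) : Dl * g ∈ MF Γ w := by
  have := mul_mem_MF (Dl_mem_MF (Γ := Γ)) hg
  rwa [show (12 : ℤ) + (w - 12) = w by ring] at this

/-- multiplication by `Δ` as a linear map. -/
def mulDl (Γ : Subgroup SL(2, ℤ)) [Γ.FiniteIndex] (w : ℤ) : MF Γ (w - 12) →ₗ[ℂ] MF Γ w where
  toFun g := ⟨Dl * g.1, Dl_mul_mem_MF g.2⟩
  map_add' f g := by ext1; simp [mul_add]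
  map_smul' c f := by ext1; simp

lemma mulDl_injective (w : ℤ) : Function.Injective (mulDl Γ w) := by
  intro f g h
  have h1 : Dl * f.1 = Dl * g.1 := congrArg Subtype.val h
  ext1
  funext z
  have := congrFun h1 z
  simpa [Dl_ne z] using this

end CuspEll

section cusp
variable {M : ℕ} [NeZero M] (hM : ∀ q : Q Γ, (ModularGroup.T ^ M) • q = q)
include hM

open CuspEll in
theorem coef_eq_zero_of_ell {w : ℤ} {f : ℍ → ℂ} (hf : f ∈ MF Γ w) {v : Q Γ → ℂ} {m : ℕ}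
    (hm : m < M) (hv : ∀ q, v (ModularGroup.T⁻¹ • q) =
      Complex.exp (2 * Real.pi * Complex.I * m / M) * v q) (h : ell M w f = v) :
    coef M w f m = v ∧ ∀ n < M, n ≠ m → coef (Γ := Γ) M w f n = 0 := by
  set b : ℕ → Q Γ → ℂ := fun n => coef M w f n - (if n = m then v else 0) with hb
  have hb1 : ∀ n < M, tau Γ (b n) = zeta M n • b n := by
    intro n _
    funext q
    simp only [hb, tau_apply, Pi.sub_apply, Pi.smul_apply, smul_eq_mul, coef_T hM hf n q]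
    split_ifs with hnm
    · subst hnm
      rw [hv q]; unfold zeta; ring
    · simp [zeta]
  have hsum : ∑ n ∈ Finset.range M, b n = 0 := by
    simp only [hb, Finset.sum_sub_distrib]
    rw [Finset.sum_ite_eq' (Finset.range M) m (fun _ => v), if_pos (Finset.mem_range.mpr hm)]
    rw [← h, ell, sub_self]
  have key := eq_zero_of_sum_eq_zero b hb1 hsum
  refine ⟨?_, fun n hn hnm => ?_⟩
  · have := key m hm
    simpa [hb, sub_eq_zero] using this
  · have := key n hn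
    simpa [hb, hnm] using this


namespace CuspEll

lemma vec_isBigO_of_coef {w : ℤ} {f : ℍ → ℂ} (hf : f ∈ MF Γ w) (m : ℕ)
    (h : ∀ n < m, coef (Γ := Γ) M w f n = 0) (q : Q Γ) :
    vec w f q =O[atImInfty] fun τ : ℍ => Real.exp (-(2 * Real.pi * m / M) * τ.im) := by
  have := (isBigO_iff_coeff (vec_periodic hM hf.2.1 q) (vec_mdiff' hf.1 q) (vec_bdd' hf q) m).mp
    (fun n hn => congrFun (h n hn) q)
  refine this.congr_right (fun τ => ?_)
  congr 1
  ring

lemma coef_of_vec_isBigO {w : ℤ} {f : ℍ → ℂ} (hf : f ∈ MF Γ w) (m : ℕ)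
    (h : ∀ q : Q Γ, vec w f q =O[atImInfty]
      fun τ : ℍ => Real.exp (-(2 * Real.pi * m / M) * τ.im)) :
    ∀ n < m, coef (Γ := Γ) M w f n = 0 := by
  intro n hn
  funext q
  refine (isBigO_iff_coeff (vec_periodic hM hf.2.1 q) (vec_mdiff' hf.1 q)
    (vec_bdd' hf q) m).mpr ((h q).congr_right (fun τ => ?_)) n hn
  congr 1
  ring

end CuspEll

open CuspEll in
theorem div_Dl_mem_CF {w : ℤ} {f : ℍ → ℂ} (hf : f ∈ MF Γ w)
    (h : ∀ n ≤ M, coef (Γ := Γ) M w f n = 0) : ∃ g ∈ CF Γ (w - 12), f = Dl * g := by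
  refine ⟨f / Dl, div_mem_CF hf (fun q => ?_), eq_Dl_mul_div f⟩
  have h1 := vec_isBigO_of_coef hM hf (M + 1) (fun n hn => h n (Nat.lt_succ_iff.mp hn)) q
  have h2 := div_Dl_isBigO h1
  have hM0 : (0 : ℝ) < M := Nat.cast_pos.mpr (NeZero.pos M)
  have hc : 0 < 2 * Real.pi * ((M + 1 : ℕ) : ℝ) / M - 2 * Real.pi := by
    have : 2 * Real.pi * ((M + 1 : ℕ) : ℝ) / M - 2 * Real.pi = 2 * Real.pi / M := by
      push_cast; field_simp; ring
    rw [this]; positivity
  exact h2.trans_tendsto (tendsto_exp_neg_mul_im hc)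

open CuspEll in
theorem ell_eq_zero_iff {w : ℤ} {f : ℍ → ℂ} (hf : f ∈ MF Γ w) :
    ell (Γ := Γ) M w f = 0 ↔ ∃ g ∈ MF Γ (w - 12), f = Dl * g := by
  have hM0 : (M : ℝ) ≠ 0 := Nat.cast_ne_zero.mpr (NeZero.ne M)
  constructor
  · intro h
    obtain ⟨h0, h1⟩ := coef_eq_zero_of_ell hM hf (v := 0) (m := 0) (NeZero.pos M)
      (fun q => by simp) h
    have hall : ∀ n < M, coef (Γ := Γ) M w f n = 0 := by
      intro n hn
      rcases eq_or_ne n 0 with rfl | hn0
      · exact h0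
      · exact h1 n hn hn0
    refine ⟨f / Dl, div_mem_MF hf (fun q => ?_), eq_Dl_mul_div f⟩
    have h2 := div_Dl_isBigO (vec_isBigO_of_coef hM hf M hall q)
    refine h2.congr_right (fun τ => ?_)
    have : 2 * Real.pi * (M : ℝ) / M - 2 * Real.pi = 0 := by field_simp; ring
    rw [this]; simp
  · rintro ⟨g, hg, rfl⟩
    have hall := coef_of_vec_isBigO hM hf M (fun q => by
      rw [vec_Dl_mul]
      have h2 := Dl_isBigO.mul (vec_bdd' hg q)
      refine h2.congr_right (fun τ => ?_)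
      have : 2 * Real.pi * (M : ℝ) / M = 2 * Real.pi := by field_simp
      rw [this]; simp)
    unfold ell
    exact Finset.sum_eq_zero (fun n hn => hall n (Finset.mem_range.mp hn))

namespace CuspEll

lemma analyticAt_vec {w : ℤ} {f : ℍ → ℂ} (hf : f ∈ MF Γ w) (q : Q Γ) :
    AnalyticAt ℂ (cuspFunction (M : ℝ) (vec w f q)) 0 :=
  analyticAt_cuspFunction_zero (Nat.cast_pos.mpr (NeZero.pos M)) (vec_periodic hM hf.2.1 q)
    (vec_mdiff' hf.1 q) (vec_bdd' hf q)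

lemma coef_add {w : ℤ} {f g : ℍ → ℂ} (hf : f ∈ MF Γ w) (hg : g ∈ MF Γ w) (n : ℕ) :
    coef (Γ := Γ) M w (f + g) n = coef M w f n + coef M w g n := by
  funext q
  simp only [coef, Pi.add_apply, vec_add']
  rw [qExpansion_add (analyticAt_vec hM hf q) (analyticAt_vec hM hg q), map_add]

lemma coef_smul {w : ℤ} {f : ℍ → ℂ} (hf : f ∈ MF Γ w) (c : ℂ) (n : ℕ) :
    coef (Γ := Γ) M w (c • f) n = c • coef M w f n := by
  funext q
  simp only [coef, Pi.smul_apply, vec_smul']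
  rw [qExpansion_smul (analyticAt_vec hM hf q), map_smul]

/-- `ell` as a linear map on `MF Γ w`. -/
def ellLin (w : ℤ) : MF Γ w →ₗ[ℂ] (Q Γ → ℂ) where
  toFun f := ell M w f.1
  map_add' f g := by
    simp only [ell, Submodule.coe_add, coef_add hM f.2 g.2, Finset.sum_add_distrib]
  map_smul' c f := by
    simp only [ell, Submodule.coe_smul, coef_smul hM f.2, Finset.smul_sum, RingHom.id_apply]

lemma range_mulDl (w : ℤ) : LinearMap.range (mulDl Γ w) = LinearMap.ker (ellLin hM w) := by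
  ext f
  rw [LinearMap.mem_ker, LinearMap.mem_range]
  change _ ↔ ell M w f.1 = 0
  rw [ell_eq_zero_iff hM f.2]
  constructor
  · rintro ⟨g, rfl⟩; exact ⟨g.1, g.2, rfl⟩
  · rintro ⟨g, hg, h⟩; exact ⟨⟨g, hg⟩, Subtype.ext h.symm⟩

end CuspEll

open CuspEll in
theorem ell_surjective {w : ℤ} [FiniteDimensional ℂ (MF Γ w)]
    (hcount : finrank ℂ (MF Γ w) = finrank ℂ (MF Γ (w - 12)) + Nat.card (Q Γ)) (v : Q Γ → ℂ) :
    ∃ f ∈ MF Γ w, ell M w f = v := by
  have h1 := LinearMap.finrank_range_add_finrank_ker (ellLin hM w)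
  rw [← range_mulDl hM w, LinearMap.finrank_range_of_inj (mulDl_injective w), hcount] at h1
  have h2 : finrank ℂ (LinearMap.range (ellLin hM w)) = finrank ℂ (Q Γ → ℂ) := by
    rw [Module.finrank_fintype_fun_eq_card, ← Nat.card_eq_fintype_card]
    omega
  have h3 : LinearMap.range (ellLin hM w) = ⊤ := Submodule.eq_top_of_finrank_eq h2
  obtain ⟨f, hf⟩ : v ∈ LinearMap.range (ellLin hM w) := h3 ▸ Submodule.mem_top
  exact ⟨f.1, f.2, hf⟩

end cusp
end
end Fermat.Agent.S20
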