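import Fermat.Agent.S20.InfBridge
import Fermat.Agent.S20.Count

/-!
# S20, Task J: the dual basis `Δ Φ^{-T}` consists of cusp forms; `finrank CF`
-/

set_option autoImplicit false

open UpperHalfPlane hiding I
open ModularForm Matrix.SpecialLinearGroup Filter Topology ModularGroup Asymptotics Module
open scoped MatrixGroups ModularForm Manifold Real

namespace Fermat.Agent.S20.DualBasis

open Fermat.Agent.S20 Fermat.Agent.S20.Infinity Fermat.Agent.S20.LevelOne
  Fermat.Agent.S20.InfBridge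

noncomputable section

variable {Γ : Subgroup SL(2, ℤ)} [Γ.FiniteIndex] {k l w : ℤ}

/-- the dual frame `Δ Φ^{-1}`. -/
def X (wt : Q Γ → ℤ) (F : Q Γ → ℍ → ℂ) (j q : Q Γ) (z : ℍ) : ℂ :=
  Dl z * (Phi (Γ := Γ) wt F z)⁻¹ j q

/-- the base coset. -/
def q0 (Γ : Subgroup SL(2, ℤ)) : Q Γ := ((1 : SL(2, ℤ)) : Q Γ)

lemma Dl_isBigO : Dl =O[atImInfty] fun τ => Real.exp (-2 * π * τ.im) := by
  have h := IsZeroAtImInfty.exp_decay_atImInfty (f := Dl) tendsto_Dl one_pos
    (periodic_comp_ofComplex_of (fun z => R_periodic Dl_mem z)) Dl_mem.1 (R_bdd Dl_mem)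
  simpa using h

section frame

variable {wt : Q Γ → ℤ} {F : Q Γ → ℍ → ℂ}

lemma sum_mul_X (hB : IsFreeBasis Γ wt F) (i j : Q Γ) (z : ℍ) :
    ∑ q, vec (wt i) (F i) q z * X wt F j q z = if i = j then Dl z else 0 := by
  have hu : IsUnit (Phi (Γ := Γ) wt F z).det := isUnit_iff_ne_zero.mpr (hB.det_ne_zero z)
  have h1 := congrFun (congrFun (Matrix.nonsing_inv_mul _ hu) j) i
  rw [Matrix.mul_apply] at h1
  have h2 : ∑ q, vec (wt i) (F i) q z * X wt F j q z
      = Dl z * ∑ q, (Phi (Γ := Γ) wt F z)⁻¹ j q * Phi (Γ := Γ) wt F z q i := by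
    rw [Finset.mul_sum]
    refine Finset.sum_congr rfl fun q _ => ?_
    simp only [X, Phi, Matrix.of_apply]
    ring
  rw [h2, h1, Matrix.one_apply]
  split_ifs with h3 h4 h4
  · simp
  · exact absurd h3.symm h4
  · exact absurd h4.symm h3
  · simp

/-- uniqueness of solutions of the transposed system. -/
lemma eq_of_sum_eq (hB : IsFreeBasis Γ wt F) (z : ℍ) {Y Y' : Q Γ → ℂ}
    (h : ∀ i, ∑ q, vec (wt i) (F i) q z * Y q = ∑ q, vec (wt i) (F i) q z * Y' q) : Y = Y' := by
  have hu : IsUnit (Phi (Γ := Γ) wt F z).det := isUnit_iff_ne_zero.mpr (hB.det_ne_zero z)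
  have h1 : Matrix.vecMul Y (Phi (Γ := Γ) wt F z) = Matrix.vecMul Y' (Phi (Γ := Γ) wt F z) := by
    funext i
    simp only [Matrix.vecMul, dotProduct, Phi, Matrix.of_apply]
    have := h i
    simpa [mul_comm] using this
  have h2 := congrArg (fun v => Matrix.vecMul v (Phi (Γ := Γ) wt F z)⁻¹) h1
  simpa [Matrix.vecMul_vecMul, Matrix.mul_nonsing_inv _ hu] using h2

lemma mdiff_X (hB : IsFreeBasis Γ wt F) (j q : Q Γ) : MDiff (X wt F j q) := by
  classical
  have hdet : MDiff (fun z => (Phi (Γ := Γ) wt F z).det) :=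
    SerreDet.mdiff_detFun (f := fun i x => vec (wt i) (F i) x)
      (fun i x => mdiff_vec (hB.mem i).1 x)
  have hadj : MDiff (fun z => (Phi (Γ := Γ) wt F z).adjugate j q) := by
    have h1 : (fun z => (Phi (Γ := Γ) wt F z).adjugate j q) =
        SerreDet.detFun (fun i x => if x = q then (fun _ => (Pi.single j 1 : Q Γ → ℂ) i)
          else vec (wt i) (F i) x) := by
      funext z
      rw [Matrix.adjugate_apply, SerreDet.detFun_apply]
      congr 1
      ext x i
      by_cases hx : x = q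
      · subst hx; simp [Matrix.updateRow_self]
      · simp [Matrix.updateRow_ne hx, hx, Phi]
    rw [h1]
    refine SerreDet.mdiff_detFun fun i x => ?_
    split_ifs
    · exact mdifferentiable_const
    · exact mdiff_vec (hB.mem i).1 x
  have h2 : X wt F j q = Dl * ((fun z => (Phi (Γ := Γ) wt F z).adjugate j q) /
      (fun z => (Phi (Γ := Γ) wt F z).det)) := by
    funext z
    simp only [X, Pi.mul_apply, Pi.div_apply, Matrix.inv_def, Matrix.smul_apply, smul_eq_mul,
      Ring.inverse_eq_inv']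
    ring
  rw [h2]
  exact Dl_mem.1.mul (hadj.div hdet (fun z => hB.det_ne_zero z))

lemma X_slash (hB : IsFreeBasis Γ wt F) (j q : Q Γ) (h : SL(2, ℤ)) :
    X wt F j q ∣[12 - wt j] h = X wt F j (h⁻¹ • q) := by
  -- the functional identity
  have hid : ∀ i, ∑ q, vec (wt i) (F i) q * X wt F j q = if i = j then Dl else 0 := by
    intro i
    funext z
    rw [Finset.sum_apply]
    simp only [Pi.mul_apply]
    rw [sum_mul_X hB]
    split_ifs <;> rfl
  have key : ∀ q', X wt F j (h • q') ∣[12 - wt j] h = X wt F j q' := by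
    have hz : ∀ z, (fun q' => (X wt F j (h • q') ∣[12 - wt j] h) z) = fun q' => X wt F j q' z := by
      intro z
      apply eq_of_sum_eq hB z
      intro i
      rw [sum_mul_X hB]
      have h1 := congrArg (fun φ : ℍ → ℂ => φ ∣[wt i + (12 - wt j)] h) (hid i)
      simp only [SlashAction.sum_slash, ModularForm.mul_slash_SL2, vec_slash (hB.mem i).2.1] at h1
      have h2 : (∑ q, vec (wt i) (F i) (h⁻¹ • q) * X wt F j q ∣[12 - wt j] h)
          = ∑ q', vec (wt i) (F i) q' * X wt F j (h • q') ∣[12 - wt j] h := by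
        rw [← Equiv.sum_comp (MulAction.toPerm h)]
        refine Finset.sum_congr rfl fun q' _ => ?_
        simp
      rw [h2] at h1
      have h3 := congrFun h1 z
      rw [Finset.sum_apply] at h3
      simp only [Pi.mul_apply] at h3
      rw [h3]
      split_ifs with hij
      · subst hij
        have e : wt i + (12 - wt i) = 12 := by ring
        rw [e, Dl_mem.2.1 h trivial]
      · simp
    intro q'
    funext z
    exact congrFun (hz z) q'
  have := key (h⁻¹ • q)
  rwa [smul_inv_smul] at this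

lemma X_zero_at (hB : IsFreeBasis Γ wt F) (heven : ∀ j, Even (wt j)) (j q : Q Γ) :
    IsZeroAtImInfty (X wt F j q) := by
  refine isZeroAtImInfty_of_dual (σ := sig Γ) (N := per Γ) per_ne_zero sig_per
    (f := fun i => vec (wt i) (F i)) (fun i => isAdm_vec (hB.mem i))
    (det_ldMat_ne_zero hB heven) (X := X wt F j) (g := fun i => if i = j then Dl else 0)
    (fun i => ?_) (fun i z => ?_) q
  · split_ifs
    · exact Dl_isBigO
    · exact isBigO_zero _ _
  · rw [sum_mul_X hB]
    split_ifs <;> rfl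

/-- the dual basis. -/
def G (wt : Q Γ → ℤ) (F : Q Γ → ℍ → ℂ) (j : Q Γ) : ℍ → ℂ := X wt F j (q0 Γ)

lemma smul_q0 (g : SL(2, ℤ)) : g • q0 Γ = (g : Q Γ) := by
  simp [q0, MulAction.Quotient.smul_coe]

lemma G_slash (hB : IsFreeBasis Γ wt F) (j : Q Γ) (h : SL(2, ℤ)) :
    G wt F j ∣[12 - wt j] h = X wt F j ((h⁻¹ : SL(2, ℤ)) : Q Γ) := by
  rw [G, X_slash hB, smul_q0]

lemma G_mem (hB : IsFreeBasis Γ wt F) (heven : ∀ j, Even (wt j)) (j : Q Γ) :
    G wt F j ∈ CF Γ (12 - wt j) := by
  refine ⟨mdiff_X hB j _, fun γ hγ => ?_, fun γ => ?_⟩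
  · rw [G_slash hB, G, q0]
    congr 1
    rw [QuotientGroup.eq]
    simpa using hγ
  · rw [G_slash hB]
    exact X_zero_at hB heven j _

lemma vec_G (hB : IsFreeBasis Γ wt F) (j q : Q Γ) : vec (12 - wt j) (G wt F j) q = X wt F j q := by
  unfold vec
  rw [G_slash hB, inv_inv, QuotientGroup.out_eq']

/-- Blueprint `exists_dual`. -/
theorem exists_dual (hB : IsFreeBasis Γ wt F) (heven : ∀ j, Even (wt j)) :
    ∃ G : Q Γ → ℍ → ℂ, (∀ j, G j ∈ CF Γ (12 - wt j)) ∧
      ∀ i j, trP Γ (wt i) (12 - wt j) (F i) (G j) = if i = j then Dl else 0 := by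
  refine ⟨G wt F, G_mem hB heven, fun i j => ?_⟩
  funext z
  simp only [trP, Finset.sum_apply, Pi.mul_apply, vec_G hB]
  rw [sum_mul_X hB]
  split_ifs <;> rfl

end frame

/-- the trace pairing of a modular form and a cusp form is a level one cusp form. -/
theorem trP_mem {f g : ℍ → ℂ} (hf : f ∈ MF Γ k) (hg : g ∈ CF Γ l) :
    trP Γ k l f g ∈ R (k + l) ∧ Tendsto (trP Γ k l f g) atImInfty (𝓝 0) := by
  have hlim : Tendsto (trP Γ k l f g) atImInfty (𝓝 0) := by
    have h0 : (0 : ℂ) = ∑ _q : Q Γ, (0 : ℂ) := by simp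
    have h1 : trP Γ k l f g = fun z => ∑ q : Q Γ, vec k f q z * vec l g q z := by
      funext z; simp [trP, Finset.sum_apply]
    rw [h1, h0]
    refine tendsto_finsetSum _ fun q _ => ?_
    have hb : IsBoundedAtImInfty (vec k f q) := hf.2.2 _
    have hz : IsZeroAtImInfty (vec l g q) := hg.2.2 _
    exact hb.mul_zeroAtFilter hz
  have hinv : ∀ γ : SL(2, ℤ), trP Γ k l f g ∣[k + l] γ = trP Γ k l f g := by
    intro γ
    simp only [trP, SlashAction.sum_slash, ModularForm.mul_slash_SL2, vec_slash hf.2.1,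
      vec_slash hg.2.1]
    exact Equiv.sum_comp (MulAction.toPerm γ⁻¹) (fun q => vec k f q * vec l g q)
  refine ⟨⟨?_, fun γ _ => hinv γ, fun γ => ?_⟩, hlim⟩
  · unfold trP
    exact MDifferentiable.sum fun q _ => (mdiff_vec hf.1 q).mul (mdiff_vec hg.1 q)
  · rw [hinv γ]
    exact IsZeroAtImInfty.isBoundedAtImInfty hlim

variable {wt : Q Γ → ℤ} {F : Q Γ → ℍ → ℂ}

lemma vec_sum_mul_G (hB : IsFreeBasis Γ wt F) (B : Q Γ → ℍ → ℂ)
    (hBm : ∀ j, B j ∈ R (w + wt j - 12)) (q : Q Γ) :
    vec w (∑ j, B j * G wt F j) q = ∑ j, B j * X wt F j q := by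
  rw [vec_sum_mul Finset.univ (fun j => 12 - wt j) B (G wt F)
    (fun j _ => by
      have e : w - (12 - wt j) = w + wt j - 12 := by ring
      rw [e]; exact hBm j) q]
  exact Finset.sum_congr rfl fun j _ => by rw [vec_G hB]

lemma sum_mul_comb (hB : IsFreeBasis Γ wt F) (B : Q Γ → ℍ → ℂ) (i : Q Γ) (z : ℍ) :
    ∑ q, vec (wt i) (F i) q z * (∑ j, B j z * X wt F j q z) = B i z * Dl z := by
  simp only [Finset.mul_sum]
  rw [Finset.sum_comm]
  have h1 : ∀ j, ∑ q, vec (wt i) (F i) q z * (B j z * X wt F j q z)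
      = B j z * (if i = j then Dl z else 0) := by
    intro j
    rw [← sum_mul_X hB i j z, Finset.mul_sum]
    exact Finset.sum_congr rfl fun q _ => by ring
  simp only [h1]
  simp

/-- Blueprint `finrank_CF`. -/
theorem finrank_CF (hB : IsFreeBasis Γ wt F) (heven : ∀ j, Even (wt j)) (w : ℤ) :
    FiniteDimensional ℂ (CF Γ w) ∧ finrank ℂ (CF Γ w) = ∑ j, finrank ℂ (R (w + wt j - 12)) := by
  refine finrank_CF_of_free (G := G wt F) w (G_mem hB heven) ?_ ?_
  · intro g hg
    have hex : ∀ j, ∃ s ∈ R (w + wt j - 12), trP Γ (wt j) w (F j) g = Dl * s := fun j => by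
      obtain ⟨h1, h2⟩ := trP_mem (hB.mem j) hg
      obtain ⟨s, hs, hs'⟩ := exists_eq_Dl_mul h1 h2
      have e : wt j + w - 12 = w + wt j - 12 := by ring
      exact ⟨s, e ▸ hs, hs'⟩
    choose B hBm hBeq using hex
    refine ⟨B, hBm, ?_⟩
    funext z
    have hv : (fun q => vec w g q z) = fun q => ∑ j, B j z * X wt F j q z := by
      apply eq_of_sum_eq hB z
      intro i
      rw [sum_mul_comb hB]
      have := congrFun (hBeq i) z
      simp only [trP, Finset.sum_apply, Pi.mul_apply] at this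
      rw [this, mul_comm]
    have h1 := congrFun hv (q0 Γ)
    simp only [q0] at h1
    rw [vec_one (CF_le_MF hg).2.1] at h1
    rw [h1, Finset.sum_apply]
    rfl
  · intro B hBm hzero i
    funext z
    have h1 : ∀ q : Q Γ, ∑ j, B j z * X wt F j q z = 0 := by
      intro q
      have h2 := vec_sum_mul_G hB B hBm q
      rw [hzero] at h2
      have h3 : vec w (0 : ℍ → ℂ) q = 0 := by
        unfold vec; exact SlashAction.zero_slash _ _
      rw [h3] at h2
      have h4 := congrFun h2 z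
      rw [Finset.sum_apply] at h4
      simpa using h4.symm
    have h5 := sum_mul_comb hB B i z
    simp only [h1, mul_zero, Finset.sum_const_zero] at h5
    rcases mul_eq_zero.mp h5.symm with h | h
    · exact h
    · exact absurd h (Dl_ne_zero z)

end

end Fermat.Agent.S20.DualBasis
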