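import Fermat.Agent.S20.DualBasis

/-!
# S20: `dim M_w - dim S_w = number of cusps` for large even `w`
-/

set_option autoImplicit false

open UpperHalfPlane hiding I
open ModularForm Matrix.SpecialLinearGroup Filter Topology ModularGroup Asymptotics Module
open scoped MatrixGroups ModularForm Manifold Real

namespace Fermat.Agent.S20.EisCount

open Fermat.Agent.S20 Fermat.Agent.S20.Infinity Fermat.Agent.S20.LevelOne
  Fermat.Agent.S20.InfBridge

noncomputable section

section orbits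

variable {G : Type*} [Group G] {α : Type*} [MulAction G α] (g : G)

lemma apply_pow_smul {h : G} {v : α → ℂ} (hv : ∀ a, v (h • a) = v a) (n : ℕ) (a : α) :
    v (h ^ n • a) = v a := by
  induction n with
  | zero => simp
  | succ n ih => rw [pow_succ', mul_smul, hv, ih]

lemma apply_zpow_smul {v : α → ℂ} (hv : ∀ a, v (g⁻¹ • a) = v a) (n : ℤ) (a : α) :
    v (g ^ n • a) = v a := by
  have h1 : ∀ a, v (g • a) = v a := fun a => by
    have := hv (g • a)
    rw [inv_smul_smul] at this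
    exact this.symm
  obtain ⟨m, rfl | rfl⟩ := n.eq_nat_or_neg
  · rw [zpow_natCast]; exact apply_pow_smul h1 m a
  · rw [zpow_neg, zpow_natCast, ← inv_pow]; exact apply_pow_smul hv m a

/-- functions invariant under `g⁻¹` are the functions on the orbit space of `⟨g⟩`. -/
def invEquiv : (MulAction.orbitRel.Quotient (Subgroup.zpowers g) α → ℂ) ≃ₗ[ℂ]
    invSub (fun a : α => g⁻¹ • a) where
  toFun φ := ⟨fun a => φ (Quotient.mk'' a), fun a => by
    show φ (Quotient.mk'' (g⁻¹ • a)) = φ (Quotient.mk'' a)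
    congr 1
    apply Quotient.sound'
    show (MulAction.orbitRel (Subgroup.zpowers g) α).r _ _
    rw [MulAction.orbitRel_apply]
    exact ⟨⟨g⁻¹, Subgroup.inv_mem _ (Subgroup.mem_zpowers g)⟩, rfl⟩⟩
  map_add' _ _ := rfl
  map_smul' _ _ := rfl
  invFun v := fun x => Quotient.liftOn' x v.1 (fun a b hab => by
    have hab' : (MulAction.orbitRel (Subgroup.zpowers g) α).r a b := hab
    rw [MulAction.orbitRel_apply] at hab'
    obtain ⟨⟨t, ht⟩, rfl⟩ := hab'
    obtain ⟨n, rfl⟩ := Subgroup.mem_zpowers_iff.mp ht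
    exact apply_zpow_smul g v.2 n b)
  left_inv φ := by
    funext x
    induction x using Quotient.inductionOn' with
    | h a => rfl
  right_inv v := by
    ext a
    rfl

lemma finrank_invSub [Finite α] :
    finrank ℂ (invSub (fun a : α => g⁻¹ • a)) =
      Nat.card (MulAction.orbitRel.Quotient (Subgroup.zpowers g) α) := by
  classical
  haveI : Finite (MulAction.orbitRel.Quotient (Subgroup.zpowers g) α) := Quotient.finite _
  haveI := Fintype.ofFinite (MulAction.orbitRel.Quotient (Subgroup.zpowers g) α)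
  rw [← (invEquiv g).finrank_eq, Module.finrank_fintype_fun_eq_card, Nat.card_eq_fintype_card]

end orbits

variable {Γ : Subgroup SL(2, ℤ)} [Γ.FiniteIndex] {w : ℤ}

lemma vec_add' (k : ℤ) (f g : ℍ → ℂ) : (vec k (f + g) : Q Γ → ℍ → ℂ) = vec k f + vec k g := by
  funext q
  unfold vec
  exact SlashAction.add_slash _ _ _ _

lemma vec_smul' (k : ℤ) (c : ℂ) (f : ℍ → ℂ) : (vec k (c • f) : Q Γ → ℍ → ℂ) = c • vec k f := by
  funext q
  unfold vec
  exact ModularForm.SL_smul_slash _ _ _ _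

/-- the constant term map `f ↦ (lim vec w f q)_q`, written through the leading vector. -/
def L0 (Γ : Subgroup SL(2, ℤ)) [Γ.FiniteIndex] (w : ℤ) : MF Γ w →ₗ[ℂ] (Q Γ → ℂ) where
  toFun f := proj (sig Γ) (per Γ) 0 (ld Γ w f.1)
  map_add' f g := by
    simp only [ld, Submodule.coe_add, vec_add']
    rw [(isAdm_vec f.2).lead_add (isAdm_vec g.2) sig_per, proj_add]
  map_smul' c f := by
    simp only [ld, Submodule.coe_smul, vec_smul', RingHom.id_apply]
    rw [(isAdm_vec f.2).lead_const_smul sig_per, proj_smul]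

lemma L0_apply (f : MF Γ w) : L0 Γ w f = proj (sig Γ) (per Γ) 0 (ld Γ w f.1) := rfl

lemma mem_ker_L0 (f : MF Γ w) : f ∈ LinearMap.ker (L0 Γ w) ↔ f.1 ∈ CF Γ w := by
  rw [LinearMap.mem_ker, L0_apply, ld, ← (isAdm_vec f.2).isZeroAtImInfty_iff per_ne_zero sig_per]
  constructor
  · intro h
    refine ⟨f.2.1, f.2.2.1, fun γ => ?_⟩
    rw [vec_mk' f.2.2.1]
    exact h _
  · intro h q
    exact h.2.2 _

lemma finrank_ker_L0 : finrank ℂ (LinearMap.ker (L0 Γ w)) = finrank ℂ (CF Γ w) := by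
  have h : (LinearMap.ker (L0 Γ w)).map (MF Γ w).subtype = CF Γ w := by
    ext f
    constructor
    · rintro ⟨g, hg, rfl⟩
      exact (mem_ker_L0 g).mp hg
    · intro hf
      exact ⟨⟨f, CF_le_MF hf⟩, (mem_ker_L0 _).mpr hf, rfl⟩
  rw [← h, Submodule.finrank_map_subtype_eq]

lemma range_L0 {wt : Q Γ → ℤ} {F : Q Γ → ℍ → ℂ} (hB : IsFreeBasis Γ wt F)
    (heven : ∀ j, Even (wt j)) (hw : Even w) (hww : ∀ j, wt j + 4 ≤ w) :
    LinearMap.range (L0 Γ w) = invSub (sig Γ) := by
  apply le_antisymm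
  · rintro _ ⟨f, rfl⟩
    exact proj_zero_mem_invSub per_ne_zero sig_per _
  · intro v hv
    have hu : IsUnit (ldMat Γ wt F).det := isUnit_iff_ne_zero.mpr (det_ldMat_ne_zero hB heven)
    obtain ⟨A, -, -, hmem, hld⟩ := exists_form_ld hB.mem heven hw hww ((ldMat Γ wt F)⁻¹.mulVec v)
    refine ⟨⟨_, hmem⟩, ?_⟩
    rw [L0_apply]
    simp only
    rw [hld, Matrix.mulVec_mulVec, Matrix.mul_nonsing_inv _ hu, Matrix.one_mulVec]
    exact proj_zero_of_mem_invSub per_ne_zero hv

/-- **`dim M_w = dim S_w + #cusps`** for even `w ≥ wt j + 4`. -/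
theorem finrank_MF_eq {wt : Q Γ → ℤ} {F : Q Γ → ℍ → ℂ} (hB : IsFreeBasis Γ wt F)
    (heven : ∀ j, Even (wt j)) (hw : Even w) (hww : ∀ j, wt j + 4 ≤ w) :
    finrank ℂ (MF Γ w) = finrank ℂ (CF Γ w) +
      Nat.card (MulAction.orbitRel.Quotient (Subgroup.zpowers T) (Q Γ)) := by
  haveI := (finrank_MF hB w).1
  have h := LinearMap.finrank_range_add_finrank_ker (L0 Γ w)
  rw [range_L0 hB heven hw hww, finrank_ker_L0] at h
  have h2 : finrank ℂ (invSub (sig Γ)) =
      Nat.card (MulAction.orbitRel.Quotient (Subgroup.zpowers T) (Q Γ)) := finrank_invSub T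
  omega

end

end Fermat.Agent.S20.EisCount
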