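import Mathlib
import Fermat.Agent.S20.Defs
import Fermat.Agent.S20.DetNe
import Fermat.Agent.S20.ConstTerm

set_option autoImplicit false

open UpperHalfPlane ModularForm Matrix.SpecialLinearGroup Filter Topology ModularGroup Module
open scoped MatrixGroups ModularForm Manifold

namespace Fermat.Agent.S20

variable {Γ : Subgroup SL(2, ℤ)} {k : ℤ} {f : ℍ → ℂ}

/-! ### Vanishing of spaces of modular forms -/

lemma eq_zero_of_mem_MF_neg [Γ.FiniteIndex] (hk : k < 0) (hf : f ∈ MF Γ k) : f = 0 := by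
  have h1 := ModularForm.isZero_of_neg_weight hk (toModularForm hf)
  have h2 : ⇑(toModularForm hf) = f := rfl
  rw [← h2, h1]
  rfl

lemma eq_zero_of_mem_MF_odd (hneg : (-1 : SL(2, ℤ)) ∈ Γ) (hk : Odd k) (hf : f ∈ MF Γ k) :
    f = 0 := by
  have h1 := ModularForm.eq_zero_of_neg_one_mem
    (Γ := (Γ : Subgroup (GL (Fin 2) ℝ))) (show (-1 : GL (Fin 2) ℝ) ∈ _ from
      ⟨-1, hneg, by ext; simp⟩) hk (toModularForm hf)
  have h2 : ⇑(toModularForm hf) = f := rfl
  rw [← h2, h1]
  rfl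

lemma exists_const_of_mem_R_zero {g : ℍ → ℂ} (hg : g ∈ R 0) : ∃ c : ℂ, g = fun _ => c := by
  obtain ⟨c, hc⟩ := ModularFormClass.levelOne_weight_zero_const (toLevelOne hg)
  exact ⟨c, hc⟩

lemma eq_zero_of_mem_R_neg {g : ℍ → ℂ} (hk : k < 0) (hg : g ∈ R k) : g = 0 :=
  ModularFormClass.levelOne_neg_weight_eq_zero hk (toLevelOne hg)


lemma const_mem_R_zero (c : ℂ) : (fun _ : ℍ => c) ∈ R 0 :=
  coe_mem_R (ModularForm.const c)

/-! ### Consequences of a free basis -/

section FreeBasis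

variable [Γ.FiniteIndex] {wt : Q Γ → ℤ} {F : Q Γ → ℍ → ℂ}

lemma IsFreeBasis.ne_zero (hB : IsFreeBasis Γ wt F) (j : Q Γ) : F j ≠ 0 := by
  intro h0
  obtain ⟨z, hz⟩ := hB.det_ne
  apply hz
  apply Matrix.det_eq_zero_of_column_eq_zero j
  intro q
  simp only [Phi, Matrix.of_apply, h0, vec]
  rw [SlashAction.zero_slash]
  rfl

lemma IsFreeBasis.wt_nonneg (hB : IsFreeBasis Γ wt F) (j : Q Γ) : 0 ≤ wt j := by
  by_contra h
  exact hB.ne_zero j (eq_zero_of_mem_MF_neg (not_le.mp h) (hB.mem j))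

lemma IsFreeBasis.wt_even (hB : IsFreeBasis Γ wt F) (hneg : (-1 : SL(2, ℤ)) ∈ Γ) (j : Q Γ) :
    wt j % 2 = 0 := by
  by_contra h
  have : Odd (wt j) := Int.odd_iff.mpr (by omega)
  exact hB.ne_zero j (eq_zero_of_mem_MF_odd hneg this (hB.mem j))

omit [Γ.FiniteIndex] in
lemma sum_eq_sum_subtype_two [Fintype (Q Γ)] (wt : Q Γ → ℤ) (g : Q Γ → ℍ → ℂ)
    (hg : ∀ j, wt j ≠ 2 → g j = 0) :
    ∑ j, g j = ∑ j : {j : Q Γ // wt j = 2}, g j.1 := by
  classical
  rw [← Finset.sum_subtype (Finset.univ.filter fun j => wt j = 2) (by simp) g, Finset.sum_filter]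
  refine Finset.sum_congr rfl fun j _ => ?_
  split_ifs with h
  · rfl
  · exact hg j h

/-- The generators of weight `2` form a basis of `MF Γ 2`. -/
theorem IsFreeBasis.exists_equivTwo (hB : IsFreeBasis Γ wt F) (hneg : (-1 : SL(2, ℤ)) ∈ Γ) :
    Nonempty (({j : Q Γ // wt j = 2} → ℂ) ≃ₗ[ℂ] MF Γ 2) := by
  classical
  let φ : ({j : Q Γ // wt j = 2} → ℂ) →ₗ[ℂ] MF Γ 2 :=
    { toFun := fun c => ⟨∑ j : {j : Q Γ // wt j = 2}, c j • F j,
        Submodule.sum_mem _ fun j _ => Submodule.smul_mem _ _ (by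
          have := hB.mem j.1
          rwa [j.2] at this)⟩
      map_add' := fun c d => by
        apply Subtype.ext
        simp [add_smul, Finset.sum_add_distrib]
      map_smul' := fun a c => by
        apply Subtype.ext
        simp [mul_smul, Finset.smul_sum] }
  refine ⟨LinearEquiv.ofBijective φ ⟨?_, ?_⟩⟩
  · rw [injective_iff_map_eq_zero]
    intro c hc
    have hc' : ∑ j : {j : Q Γ // wt j = 2}, c j • F j = 0 := congrArg Subtype.val hc
    let A : Q Γ → ℍ → ℂ := fun j => if h : wt j = 2 then (fun _ => c ⟨j, h⟩) else 0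
    have hA : ∀ j, A j ∈ R (2 - wt j) := by
      intro j
      by_cases h : wt j = 2
      · simp only [A, dif_pos h, h, sub_self]
        exact const_mem_R_zero _
      · simp only [A, dif_neg h]
        exact Submodule.zero_mem _
    have hsum : ∑ j, A j * F j = 0 := by
      rw [← hc', sum_eq_sum_subtype_two wt (fun j => A j * F j)
        (fun j hj => by simp only [A, dif_neg hj, zero_mul])]
      refine Finset.sum_congr rfl fun j _ => ?_
      funext z
      simp [A, dif_pos j.2]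
    have := hB.indep 2 A hA hsum
    funext j
    have h1 := congrFun (this j.1) I
    simpa [A, dif_pos j.2] using h1
  · rintro ⟨f, hf⟩
    obtain ⟨A, hA, hfA⟩ := hB.span 2 f hf
    have hA0 : ∀ j, wt j ≠ 2 → A j = 0 := by
      intro j hj
      have h0 := hB.wt_nonneg j
      have h2 := hB.wt_even hneg j
      have hAj := hA j
      rcases lt_or_ge 2 (wt j) with h | h
      · exact eq_zero_of_mem_R_neg (by omega) hAj
      · have : wt j = 0 := by omega
        rw [this, sub_zero] at hAj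
        exact eq_zero_of_mem_R_two hAj
    have hAc : ∀ j : {j : Q Γ // wt j = 2}, ∃ c : ℂ, A j.1 = fun _ => c := by
      intro j
      have hAj := hA j.1
      rw [j.2, sub_self] at hAj
      exact exists_const_of_mem_R_zero hAj
    choose c hc using hAc
    refine ⟨c, Subtype.ext ?_⟩
    show ∑ j : {j : Q Γ // wt j = 2}, c j • F j = f
    rw [hfA, sum_eq_sum_subtype_two wt (fun j => A j * F j)
        (fun j hj => by simp only [hA0 j hj, zero_mul])]
    refine Finset.sum_congr rfl fun j _ => ?_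
    funext z
    simp [hc j]

theorem IsFreeBasis.finiteDimensional_two (hB : IsFreeBasis Γ wt F)
    (hneg : (-1 : SL(2, ℤ)) ∈ Γ) : FiniteDimensional ℂ (MF Γ 2) := by
  obtain ⟨e⟩ := hB.exists_equivTwo hneg
  exact Module.Finite.equiv e

theorem IsFreeBasis.finrank_two (hB : IsFreeBasis Γ wt F) (hneg : (-1 : SL(2, ℤ)) ∈ Γ) :
    finrank ℂ (MF Γ 2) = (Finset.univ.filter fun j => wt j = 2).card := by
  classical
  obtain ⟨e⟩ := hB.exists_equivTwo hneg
  rw [← e.finrank_eq, Module.finrank_fintype_fun_eq_card, Fintype.card_subtype]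


lemma pointwise_ineq (k : ℤ) (h0 : 0 ≤ k) (h2 : k % 2 = 0) :
    (if k % 6 = 0 then 6 else 0) + (if k % 6 = 2 then 14 else 0) + (if k % 6 = 4 then 10 else 0)
      ≤ k + (if k = 2 then 12 else 0) + (if k % 4 = 0 then (6 : ℤ) else 0) := by
  split_ifs <;> omega

omit [Γ.FiniteIndex] in
lemma sum_ite_const [Fintype (Q Γ)] (p : Q Γ → Prop) [DecidablePred p] (a : ℤ) :
    ∑ j, (if p j then a else 0) = a * ((Finset.univ.filter p).card : ℤ) := by
  rw [Finset.sum_ite, Finset.sum_const_zero, add_zero, Finset.sum_const, nsmul_eq_mul, mul_comm]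

/-- Weight inequality obtained by summing `pointwise_ineq`. -/
theorem IsFreeBasis.weight_ineq (hB : IsFreeBasis Γ wt F) (hneg : (-1 : SL(2, ℤ)) ∈ Γ) :
    6 * ((Finset.univ.filter fun j => wt j % 6 = 0).card : ℤ)
      + 14 * ((Finset.univ.filter fun j => wt j % 6 = 2).card : ℤ)
      + 10 * ((Finset.univ.filter fun j => wt j % 6 = 4).card : ℤ)
    ≤ ∑ j, wt j + 12 * ((Finset.univ.filter fun j => wt j = 2).card : ℤ)
      + 6 * ((Finset.univ.filter fun j => wt j % 4 = 0).card : ℤ) := by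
  have h := Finset.sum_le_sum (s := Finset.univ) fun j _ =>
    pointwise_ineq (wt j) (hB.wt_nonneg j) (hB.wt_even hneg j)
  simp only [Finset.sum_add_distrib, sum_ite_const] at h
  exact h

/-- **The lower bound** for `dim S₂(Γ)`, from a free basis, the elliptic counts and the bound
on the total weight. -/
theorem IsFreeBasis.lower_bound (hB : IsFreeBasis Γ wt F) (hneg : (-1 : SL(2, ℤ)) ∈ Γ)
    (e₂ e₃ : ℕ)
    (hS : 2 * (Finset.univ.filter fun j => wt j % 4 = 0).card = Fintype.card (Q Γ) + e₂)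
    (hU0 : 3 * (Finset.univ.filter fun j => wt j % 6 = 0).card = Fintype.card (Q Γ) + 2 * e₃)
    (hU2 : 3 * (Finset.univ.filter fun j => wt j % 6 = 2).card + e₃ = Fintype.card (Q Γ))
    (hU4 : 3 * (Finset.univ.filter fun j => wt j % 6 = 4).card + e₃ = Fintype.card (Q Γ))
    (hK : ∑ j, wt j + 6 * (Nat.card (MulAction.orbitRel.Quotient
      (Subgroup.zpowers (T : SL(2, ℤ))) (Q Γ)) : ℤ) ≤ 6 * (Fintype.card (Q Γ) : ℤ)) :
    12 + Fintype.card (Q Γ) ≤ 12 * finrank ℂ (CF Γ 2) + 3 * e₂ + 4 * e₃ +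
      6 * Nat.card (MulAction.orbitRel.Quotient (Subgroup.zpowers (T : SL(2, ℤ))) (Q Γ)) := by
  have h1 := hB.weight_ineq hneg
  have := hB.finiteDimensional_two hneg
  have h2 : finrank ℂ (MF Γ 2) + 1 ≤ finrank ℂ (CF Γ 2) + Nat.card (MulAction.orbitRel.Quotient
      (Subgroup.zpowers (T : SL(2, ℤ))) (Q Γ)) := ConstTerm.finrank_MF_two_le (Γ := Γ)
  rw [hB.finrank_two hneg] at h2
  omega

end FreeBasis

end Fermat.Agent.S20
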