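import Fermat.Agent.S20.Defs
import Fermat.Agent.S20.LevelOne
import Fermat.Agent.S20.DetNe
import Fermat.Agent.S20.Infinity.Dual

/-!
# S20: bridge between the analysis at infinity and the interface `Defs.lean`
-/

set_option autoImplicit false

open UpperHalfPlane hiding I
open ModularForm Matrix.SpecialLinearGroup Filter Topology ModularGroup Asymptotics
open scoped MatrixGroups ModularForm Manifold Real

namespace Fermat.Agent.S20.InfBridge

open Fermat.Agent.S20 Fermat.Agent.S20.Infinity Fermat.Agent.S20.LevelOne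

noncomputable section

variable {Γ : Subgroup SL(2, ℤ)} {k w : ℤ} {f : ℍ → ℂ}

/-- Slash by `T` is the translation by one. -/
lemma slash_T_apply (g : ℍ → ℂ) (k : ℤ) (z : ℍ) : (g ∣[k] T) z = g ((1 : ℝ) +ᵥ z) := by
  rw [ModularForm.SL_slash_apply, UpperHalfPlane.modular_T_smul]
  have : denom (T : GL (Fin 2) ℝ) z = 1 := by
    have := ModularGroup.denom_apply T z
    simpa [ModularGroup.T] using this
  rw [this, one_zpow, mul_one]

/-- the permutation of the cosets induced by `z ↦ z + 1`. -/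
def sig (Γ : Subgroup SL(2, ℤ)) : Q Γ → Q Γ := fun q => T⁻¹ • q

lemma sig_iterate (n : ℕ) (q : Q Γ) : (sig Γ)^[n] q = (T⁻¹) ^ n • q := by
  induction n with
  | zero => simp
  | succ n ih => rw [Function.iterate_succ_apply', ih, pow_succ', mul_smul]; rfl

/-- a period of `T` on the cosets. -/
def per (Γ : Subgroup SL(2, ℤ)) : ℕ := orderOf (MulAction.toPermHom SL(2, ℤ) (Q Γ) T)

lemma per_ne_zero [Γ.FiniteIndex] : per Γ ≠ 0 := (orderOf_pos _).ne'

lemma T_pow_per_smul (q : Q Γ) : T ^ per Γ • q = q := by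
  have h := pow_orderOf_eq_one (MulAction.toPermHom SL(2, ℤ) (Q Γ) T)
  rw [← map_pow] at h
  have := congrArg (fun e : Equiv.Perm (Q Γ) => e q) h
  exact this

lemma sig_per (q : Q Γ) : (sig Γ)^[per Γ] q = q := by
  rw [sig_iterate, inv_pow]
  conv_lhs => rw [← T_pow_per_smul q]
  rw [inv_smul_smul]

lemma vec_mk' (hf : ∀ γ ∈ Γ, f ∣[k] γ = f) (g : SL(2, ℤ)) :
    f ∣[k] g = vec k f ((g⁻¹ : SL(2, ℤ)) : Q Γ) := by
  rw [vec_mk hf, inv_inv]

lemma isAdm_vec (hf : f ∈ MF Γ k) : IsAdm (sig Γ) (vec k f : Q Γ → ℍ → ℂ) where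
  holo q := mdiff_vec hf.1 q
  bdd q := hf.2.2 _
  shift q z := by
    rw [← slash_T_apply (vec k f q) k, vec_slash hf.2.1]
    rfl

/-- the leading vector of a modular form. -/
def ld (Γ : Subgroup SL(2, ℤ)) (k : ℤ) (f : ℍ → ℂ) : Q Γ → ℂ :=
  lead (sig Γ) (per Γ) (vec k f)

lemma div_Dl_slash (f : ℍ → ℂ) (k : ℤ) (γ : SL(2, ℤ)) :
    (f / Dl) ∣[k - 12] γ = (f ∣[k] γ) / Dl := by
  have h := ModularForm.div_slash_SL2 k 12 γ f Dl
  rw [h, Dl_mem.2.1 γ trivial]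

/-- **Division by `Δ`.** -/
theorem exists_eq_Dl_mul_of_isBigO (hf : f ∈ MF Γ k)
    (h : ∀ q : Q Γ, vec k f q =O[atImInfty] fun τ => Real.exp (-2 * π * τ.im)) :
    ∃ g ∈ MF Γ (k - 12), f = Dl * g := by
  refine ⟨f / Dl, ⟨hf.1.div Dl_mem.1 Dl_ne_zero, fun γ hγ => ?_, fun γ => ?_⟩, ?_⟩
  · rw [div_Dl_slash, hf.2.1 γ hγ]
  · rw [div_Dl_slash, vec_mk' hf.2.1]
    have h1 := (h ((γ⁻¹ : SL(2, ℤ)) : Q Γ)).trans exp_isBigO_discriminant
    exact (div_isBoundedUnder_of_isBigO h1).isBigO_one ℝ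
  · funext z
    simp only [Pi.mul_apply, Pi.div_apply]
    rw [mul_div_cancel₀ _ (Dl_ne_zero z)]

theorem exists_eq_Dl_mul_of_ld [Γ.FiniteIndex] (hf : f ∈ MF Γ k) (h : ld Γ k f = 0) :
    ∃ g ∈ MF Γ (k - 12), f = Dl * g :=
  exists_eq_Dl_mul_of_isBigO hf
    (fun q => (isAdm_vec hf).isBigO_of_lead_eq_zero per_ne_zero sig_per h q)

lemma R_periodic {A : ℍ → ℂ} (hA : A ∈ R k) (z : ℍ) : A ((1 : ℝ) +ᵥ z) = A z := by
  rw [← slash_T_apply A k, hA.2.1 T trivial]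

lemma R_bdd {A : ℍ → ℂ} (hA : A ∈ R k) : IsBoundedAtImInfty A := by
  have := hA.2.2 1
  simpa using this

/-- `vec` of a combination with level one coefficients. -/
lemma vec_sum_mul {ι : Type*} (s : Finset ι) (wt : ι → ℤ) (A F : ι → ℍ → ℂ)
    (hA : ∀ j ∈ s, A j ∈ R (w - wt j)) (q : Q Γ) :
    vec w (∑ j ∈ s, A j * F j) q = ∑ j ∈ s, A j * vec (wt j) (F j) q := by
  have h0 : vec w (∑ j ∈ s, A j * F j) q = ∑ j ∈ s, vec w (A j * F j) q := by
    unfold vec; exact SlashAction.sum_slash _ _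
  rw [h0]
  refine Finset.sum_congr rfl fun j hj => ?_
  exact vec_mul_of_mem_R (hA j hj) (by ring) _ _

/-- the leading vector of a combination with level one coefficients. -/
theorem ld_sum_mul [Γ.FiniteIndex] {ι : Type*} (s : Finset ι) (wt : ι → ℤ) (A F : ι → ℍ → ℂ)
    (hA : ∀ j ∈ s, A j ∈ R (w - wt j)) (hF : ∀ j ∈ s, F j ∈ MF Γ (wt j)) :
    ld Γ w (∑ j ∈ s, A j * F j) = ∑ j ∈ s, valueAtInfty (A j) • ld Γ (wt j) (F j) := by
  unfold ld
  have h1 : (vec w (∑ j ∈ s, A j * F j) : Q Γ → ℍ → ℂ)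
      = fun q => ∑ j ∈ s, A j * vec (wt j) (F j) q := by
    funext q; exact vec_sum_mul s wt A F hA q
  rw [h1]
  exact (lead_sum_fun_smul s (f := fun j => vec (wt j) (F j)) (fun j hj => isAdm_vec (hF j hj))
    sig_per (fun j hj => (hA j hj).1) (fun j hj => R_bdd (hA j hj))
    (fun j hj => R_periodic (hA j hj)) (fun j hj => tendsto_of_mem_R (hA j hj))).2

/-- the matrix of leading vectors of a family. -/
def ldMat (Γ : Subgroup SL(2, ℤ)) (wt : Q Γ → ℤ) (F : Q Γ → ℍ → ℂ) : Matrix (Q Γ) (Q Γ) ℂ :=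
  leadMat (sig Γ) (per Γ) (fun j => vec (wt j) (F j))

lemma ldMat_apply (wt : Q Γ → ℤ) (F : Q Γ → ℍ → ℂ) (q j : Q Γ) :
    ldMat Γ wt F q j = ld Γ (wt j) (F j) q := rfl

variable [Γ.FiniteIndex]

/-- a common even weight, at least `wt j + 4` for all `j`. -/
lemma exists_big_weight (wt : Q Γ → ℤ) : ∃ K : ℤ, Even K ∧ ∀ j, wt j + 4 ≤ K := by
  classical
  obtain ⟨B, hB⟩ : ∃ B : ℤ, ∀ j, wt j ≤ B := by
    refine ⟨∑ j, |wt j|, fun j => ?_⟩
    calc wt j ≤ |wt j| := le_abs_self _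
      _ ≤ ∑ j, |wt j| := Finset.single_le_sum (f := fun j => |wt j|) (fun i _ => abs_nonneg _)
          (Finset.mem_univ j)
  refine ⟨2 * (|B| + 2), even_two_mul _, fun j => ?_⟩
  have := hB j
  have := le_abs_self B
  have := abs_nonneg B
  linarith

/-- For even `K ≥ wt j + 4` every vector `ldMat *ᵥ a` is the leading vector of a form. -/
theorem exists_form_ld {wt : Q Γ → ℤ} {F : Q Γ → ℍ → ℂ} (hF : ∀ j, F j ∈ MF Γ (wt j))
    (heven : ∀ j, Even (wt j)) {K : ℤ} (hK : Even K) (hKw : ∀ j, wt j + 4 ≤ K) (a : Q Γ → ℂ) :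
    ∃ A : Q Γ → ℍ → ℂ, (∀ j, A j ∈ R (K - wt j)) ∧ (∀ j, Tendsto (A j) atImInfty (𝓝 (a j))) ∧
      (∑ j, A j * F j) ∈ MF Γ K ∧ ld Γ K (∑ j, A j * F j) = (ldMat Γ wt F).mulVec a := by
  have hH : ∀ j, ∃ H ∈ R (K - wt j), Tendsto H atImInfty (𝓝 1) := fun j => by
    obtain ⟨H, hH, hl, -⟩ := exists_H' (k := K - wt j) (by have := hKw j; omega)
      (hK.sub (heven j))
    exact ⟨H, hH, hl⟩
  choose H hHmem hHlim using hH
  have hA : ∀ j, a j • H j ∈ R (K - wt j) := fun j => (R (K - wt j)).smul_mem _ (hHmem j)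
  have hAlim : ∀ j, Tendsto (a j • H j) atImInfty (𝓝 (a j)) := fun j => by
    have := (hHlim j).const_mul (a j)
    rw [mul_one] at this
    exact this
  refine ⟨fun j => a j • H j, hA, hAlim, ?_, ?_⟩
  · refine Submodule.sum_mem _ fun j _ => ?_
    have := mul_mem_MF (R_le_MF (Γ := Γ) (hA j)) (hF j)
    rwa [sub_add_cancel] at this
  · rw [ld_sum_mul Finset.univ wt _ F (fun j _ => hA j) (fun j _ => hF j)]
    funext q
    simp only [Matrix.mulVec, dotProduct, Finset.sum_apply, Pi.smul_apply, smul_eq_mul,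
      ldMat_apply]
    refine Finset.sum_congr rfl fun j _ => ?_
    rw [mul_comm]
    congr 1
    exact (hAlim j).limUnder_eq

/-- **The frame of a free basis is invertible at infinity.** -/
theorem det_ldMat_ne_zero {wt : Q Γ → ℤ} {F : Q Γ → ℍ → ℂ} (hB : IsFreeBasis Γ wt F)
    (heven : ∀ j, Even (wt j)) : (ldMat Γ wt F).det ≠ 0 := by
  intro hdet
  obtain ⟨a, ha0, ha⟩ := Matrix.exists_mulVec_eq_zero_iff.mpr hdet
  obtain ⟨K, hK, hKw⟩ := exists_big_weight wt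
  obtain ⟨A, hA, hAlim, hmem, hld⟩ := exists_form_ld hB.mem heven hK hKw a
  rw [ha] at hld
  obtain ⟨g, hg, hfg⟩ := exists_eq_Dl_mul_of_ld hmem hld
  obtain ⟨B, hBm, hgB⟩ := hB.span _ g hg
  have hcoef : ∀ j, A j - Dl * B j ∈ R (K - wt j) := fun j => by
    refine Submodule.sub_mem _ (hA j) ?_
    have := mul_mem_MF Dl_mem (hBm j)
    have e : 12 + (K - 12 - wt j) = K - wt j := by ring
    rwa [e] at this
  have hzero : ∑ j, (A j - Dl * B j) * F j = 0 := by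
    have : ∑ j, (A j - Dl * B j) * F j = ∑ j, A j * F j - Dl * ∑ j, B j * F j := by
      rw [Finset.mul_sum, ← Finset.sum_sub_distrib]
      exact Finset.sum_congr rfl fun j _ => by ring
    rw [this, ← hgB, ← hfg, sub_self]
  have hall := hB.indep K _ hcoef hzero
  apply ha0
  funext j
  have h1 : A j = Dl * B j := sub_eq_zero.mp (hall j)
  have h2 : Tendsto (Dl * B j) atImInfty (𝓝 (0 * valueAtInfty (B j))) :=
    tendsto_Dl.mul (tendsto_of_mem_R (hBm j))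
  rw [← h1, zero_mul] at h2
  exact tendsto_nhds_unique (hAlim j) h2

end

end Fermat.Agent.S20.InfBridge
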