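import Fermat.Agent.S20.Defs
import Fermat.Agent.S20.EllipticH

/-!
# S20: numerics for the lower bound route (no duality)

If `wt j ≥ 0` are even, `e₂ = ∑ I^(-wt j)`, `e₃ = ∑ (ρ+1)^(-wt j)` and `∑ wt j ≤ 6 (μ - c)` then
`#{j | wt j = 2} ≥ μ/12 + c/2 - e₂/4 - e₃/3`.
-/

set_option autoImplicit false

open UpperHalfPlane ModularForm Module
open scoped MatrixGroups ModularForm Manifold

namespace Fermat.Agent.S20.NumericsLB

open Fermat.Agent.S20 Fermat.Agent.S20.Elliptic

noncomputable section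

lemma rho_re : (rho : ℂ).re = -1 / 2 := by
  have hr : (rho : ℂ) = -1 / 2 + ((Real.sqrt 3 / 2 : ℝ) : ℂ) * Complex.I := rfl
  rw [hr]
  simp

lemma rho_im : (rho : ℂ).im = Real.sqrt 3 / 2 := by
  have hr : (rho : ℂ) = -1 / 2 + ((Real.sqrt 3 / 2 : ℝ) : ℂ) * Complex.I := rfl
  rw [hr]
  simp

lemma pointwise (k : ℤ) (h0 : 0 ≤ k) (he : Even k) :
    (-(k : ℝ) + 7) - 3 * (Complex.I ^ (-k)).re - 4 * (((rho : ℂ) + 1) ^ (-k)).re
      - (4 * Real.sqrt 3 / 3) * (((rho : ℂ) + 1) ^ (-k)).im ≤ 12 * (if k = 2 then (1 : ℝ) else 0) := by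
  have hs : Real.sqrt 3 * Real.sqrt 3 = 3 := Real.mul_self_sqrt (by norm_num)
  obtain ⟨m, rfl⟩ := he
  have h4 : (m + m) % 4 = 0 ∨ (m + m) % 4 = 2 := by omega
  have h6 : (m + m) % 6 = 0 ∨ (m + m) % 6 = 2 ∨ (m + m) % 6 = 4 := by omega
  have hρ : (rho : ℂ) = (UpperHalfPlane.ρ : ℂ) := by rw [rho_eq]
  have e0 := @ξ_zpow_neg_of_mod_six_eq_zero (m + m)
  have e2 := @ξ_zpow_neg_of_mod_six_eq_two (m + m)
  have e4 := @ξ_zpow_neg_of_mod_six_eq_four (m + m)
  rw [← hρ] at e0 e2 e4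
  rcases h4 with h4 | h4
  · rw [I_zpow_neg_of_mod_four_eq_zero h4]
    rcases h6 with h6 | h6 | h6
    · rw [e0 h6]
      have hk : m + m ≠ 2 := by omega
      have : (0 : ℝ) ≤ ((m + m : ℤ) : ℝ) := by exact_mod_cast h0
      simp only [hk, if_false, Complex.one_re, Complex.one_im]
      linarith
    · rw [e2 h6]
      have hk : m + m ≠ 2 := by omega
      have h8 : (8 : ℤ) ≤ m + m := by omega
      have : (8 : ℝ) ≤ ((m + m : ℤ) : ℝ) := by exact_mod_cast h8
      simp only [hk, if_false, Complex.one_re, Complex.sub_re, Complex.neg_re, Complex.sub_im,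
        Complex.neg_im, Complex.one_im, rho_re, rho_im]
      nlinarith
    · rw [e4 h6]
      have hk : m + m ≠ 2 := by omega
      have h8 : (4 : ℤ) ≤ m + m := by omega
      have : (4 : ℝ) ≤ ((m + m : ℤ) : ℝ) := by exact_mod_cast h8
      simp only [hk, if_false, Complex.one_re, rho_re, rho_im]
      nlinarith
  · rw [I_zpow_neg_of_mod_four_eq_two h4]
    rcases h6 with h6 | h6 | h6
    · rw [e0 h6]
      have hk : m + m ≠ 2 := by omega
      have h8 : (6 : ℤ) ≤ m + m := by omega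
      have : (6 : ℝ) ≤ ((m + m : ℤ) : ℝ) := by exact_mod_cast h8
      simp only [hk, if_false, Complex.one_re, Complex.one_im, Complex.neg_re]
      linarith
    · rw [e2 h6]
      by_cases hk : m + m = 2
      · rw [hk]
        simp only [if_true, Complex.one_re, Complex.sub_re, Complex.neg_re, Complex.sub_im,
          Complex.neg_im, Complex.one_im, rho_re, rho_im]
        push_cast
        nlinarith
      · have h8 : (14 : ℤ) ≤ m + m := by omega
        have : (14 : ℝ) ≤ ((m + m : ℤ) : ℝ) := by exact_mod_cast h8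
        simp only [hk, if_false, Complex.one_re, Complex.sub_re, Complex.neg_re, Complex.sub_im,
          Complex.neg_im, Complex.one_im, rho_re, rho_im]
        nlinarith
    · rw [e4 h6]
      have hk : m + m ≠ 2 := by omega
      have h8 : (10 : ℤ) ≤ m + m := by omega
      have : (10 : ℝ) ≤ ((m + m : ℤ) : ℝ) := by exact_mod_cast h8
      simp only [hk, if_false, Complex.one_re, Complex.neg_re, rho_re, rho_im]
      nlinarith

/-- Numerics of the lower bound route. -/
theorem numerics_lb {ι : Type} [Fintype ι] (wt : ι → ℤ) (hnonneg : ∀ j, 0 ≤ wt j)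
    (heven : ∀ j, Even (wt j)) (e2 e3 c : ℕ)
    (h2 : (e2 : ℂ) = ∑ j, Complex.I ^ (-wt j))
    (h3 : (e3 : ℂ) = ∑ j, ((rho : ℂ) + 1) ^ (-wt j))
    (hK : ∑ j, wt j + 6 * (c : ℤ) ≤ 6 * (Fintype.card ι : ℤ)) :
    (Fintype.card ι : ℚ) / 12 + (c : ℚ) / 2 - (e2 : ℚ) / 4 - (e3 : ℚ) / 3
      ≤ ((Finset.univ.filter fun j => wt j = 2).card : ℚ) := by
  have hsum := Finset.sum_le_sum (s := Finset.univ) fun j _ => pointwise (wt j) (hnonneg j) (heven j)
  simp only [Finset.sum_sub_distrib, Finset.sum_add_distrib, ← Finset.mul_sum, Finset.sum_neg_distrib,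
    Finset.sum_const, Finset.card_univ, Finset.sum_boole, nsmul_eq_mul] at hsum
  have h2re : ∑ j, (Complex.I ^ (-wt j)).re = (e2 : ℝ) := by
    have := congrArg Complex.re h2
    rw [Complex.re_sum] at this
    simpa using this.symm
  have h3re : ∑ j, (((rho : ℂ) + 1) ^ (-wt j)).re = (e3 : ℝ) := by
    have := congrArg Complex.re h3
    rw [Complex.re_sum] at this
    simpa using this.symm
  have h3im : ∑ j, (((rho : ℂ) + 1) ^ (-wt j)).im = 0 := by
    have := congrArg Complex.im h3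
    rw [Complex.im_sum] at this
    simpa using this.symm
  rw [h2re, h3re, h3im] at hsum
  have hK' : (∑ j, (wt j : ℝ)) + 6 * (c : ℝ) ≤ 6 * (Fintype.card ι : ℝ) := by exact_mod_cast hK
  have key : (Fintype.card ι : ℝ) / 12 + (c : ℝ) / 2 - (e2 : ℝ) / 4 - (e3 : ℝ) / 3
      ≤ ((Finset.univ.filter fun j => wt j = 2).card : ℝ) := by
    linarith
  rw [← Rat.cast_le (K := ℝ)]
  push_cast
  exact key

end

end Fermat.Agent.S20.NumericsLB
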