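import Fermat.Agent.S20.Final
import Fermat.Agent.S20.EllipticH
import Fermat.Agent.S20.NumericsLB
import Fermat.Agent.S20.FixedPoints
import Fermat.Agent.S20.IndexGamma0
import Fermat.Agent.S20.CuspOrbits
import Fermat.Prelude.Def_ModularCurve_GenusNumerics

/-!
# S20: the lower bound `genusFormula N ≤ dim S₂(Γ₀(N))` from a free basis and the weight bound
(owner: helper261)
-/

set_option autoImplicit false

open UpperHalfPlane ModularForm Matrix.SpecialLinearGroup Module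
open scoped MatrixGroups ModularForm Manifold

namespace Fermat.Agent.S20.Lower

open Fermat.Agent.S20

variable {Γ : Subgroup SL(2, ℤ)} [Γ.FiniteIndex] {wt : Q Γ → ℤ} {F : Q Γ → ℍ → ℂ}

/-- General lower bound, in terms of the coset combinatorics. -/
theorem lower_CF (hB : IsFreeBasis Γ wt F) (hneg : (-1 : SL(2, ℤ)) ∈ Γ)
    (hK : ∑ j, wt j + 6 * (Nat.card (MulAction.orbitRel.Quotient
      (Subgroup.zpowers (ModularGroup.T : SL(2, ℤ))) (Q Γ)) : ℤ) ≤ 6 * (Nat.card (Q Γ) : ℤ)) :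
    1 + (Nat.card (Q Γ) : ℚ) / 12
        - (Nat.card (MulAction.fixedBy (Q Γ) ModularGroup.S) : ℚ) / 4
        - (Nat.card (MulAction.fixedBy (Q Γ) (ModularGroup.S * ModularGroup.T)) : ℚ) / 3
        - (Nat.card (MulAction.orbitRel.Quotient
            (Subgroup.zpowers (ModularGroup.T : SL(2, ℤ))) (Q Γ)) : ℚ) / 2
      ≤ (finrank ℂ (CF Γ 2) : ℚ) := by
  have hcard : Nat.card (Q Γ) = Fintype.card (Q Γ) := Nat.card_eq_fintype_card
  rw [hcard] at hK ⊢
  have h1 := NumericsLB.numerics_lb wt hB.wt_nonneg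
    (fun j => Int.even_iff.mpr (hB.wt_even hneg j)) _ _ _
    (card_fixedBy_S hB) (card_fixedBy_ST hB) hK
  have h2 := ConstTerm.finrank_MF_two_le (Γ := Γ)
  rw [hB.finrank_two hneg] at h2
  have h2' : (((Finset.univ.filter fun j => wt j = 2).card : ℕ) : ℚ) + 1 ≤
      (finrank ℂ (CF Γ 2) : ℚ) + (Nat.card (MulAction.orbitRel.Quotient
            (Subgroup.zpowers (ModularGroup.T : SL(2, ℤ))) (Q Γ)) : ℚ) := by
    exact_mod_cast h2
  linarith

/-- The lower bound for `Γ₀(N)`. -/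
theorem lower_Gamma0 (N : ℕ) [NeZero N]
    {wt : Q (CongruenceSubgroup.Gamma0 N) → ℤ} {F : Q (CongruenceSubgroup.Gamma0 N) → ℍ → ℂ}
    (hB : IsFreeBasis (CongruenceSubgroup.Gamma0 N) wt F)
    (hK : ∑ j, wt j + 6 * (Nat.card (MulAction.orbitRel.Quotient
      (Subgroup.zpowers (ModularGroup.T : SL(2, ℤ))) (Q (CongruenceSubgroup.Gamma0 N))) : ℤ)
        ≤ 6 * (Nat.card (Q (CongruenceSubgroup.Gamma0 N)) : ℤ)) :
    ModularCurve.genusFormula N
      ≤ (finrank ℂ (CuspForm (CongruenceSubgroup.Gamma0 N) 2) : ℚ) := by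
  have hneg : (-1 : SL(2, ℤ)) ∈ CongruenceSubgroup.Gamma0 N := by
    simp [CongruenceSubgroup.Gamma0_mem]
  have h := lower_CF hB hneg hK
  rw [Combinatorics.card_quotient, Combinatorics.card_fixedBy_S, Combinatorics.card_fixedBy_ST,
    Combinatorics.card_orbits_T] at h
  rw [(CFequiv (CongruenceSubgroup.Gamma0 N) 2).finrank_eq]
  unfold ModularCurve.genusFormula
  exact h

end Fermat.Agent.S20.Lower
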