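import Mathlib
import Fermat.Agent.S20.Defs

set_option autoImplicit false

open UpperHalfPlane ModularForm CongruenceSubgroup Matrix Filter Topology
open scoped MatrixGroups Manifold Real

noncomputable section

namespace Fermat.Agent.S20.Nondeg

open Fermat.Agent.S20

/-- Finitely many holomorphic functions on `ℍ`, none identically zero, have a common
non-zero point. -/
theorem exists_forall_ne_zero {ι : Type*} [Finite ι] (d : ι → ℍ → ℂ) (hd : ∀ i, MDiff (d i))
    (hne : ∀ i, d i ≠ 0) : ∃ z : ℍ, ∀ i, d i z ≠ 0 := by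
  classical
  have hopen : IsOpen {z : ℂ | 0 < z.im} := isOpen_upperHalfPlaneSet
  have hconn : IsPreconnected {z : ℂ | 0 < z.im} := (convex_halfSpace_im_gt 0).isPreconnected
  have han : ∀ i, AnalyticOnNhd ℂ (d i ∘ ofComplex) {z : ℂ | 0 < z.im} := fun i =>
    (UpperHalfPlane.mdifferentiable_iff.mp (hd i)).analyticOnNhd hopen
  have hI : (Complex.I : ℂ) ∈ {z : ℂ | 0 < z.im} := by simp
  have hev : ∀ i, ∀ᶠ w in 𝓝[≠] Complex.I, (d i ∘ ofComplex) w ≠ 0 := by
    intro i
    rcases (han i Complex.I hI).eventually_eq_zero_or_eventually_ne_zero with h | h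
    · exfalso
      apply hne i
      have h0 := (han i).eqOn_zero_of_preconnected_of_eventuallyEq_zero hconn hI h
      funext z
      have := h0 z.2
      simpa [Function.comp, ofComplex_apply] using this
    · exact h
  have hall : ∀ᶠ w in 𝓝[≠] Complex.I, ∀ i, (d i ∘ ofComplex) w ≠ 0 := by
    rw [eventually_all]
    exact hev
  have hmem : ∀ᶠ w in 𝓝[≠] Complex.I, w ∈ {z : ℂ | 0 < z.im} :=
    eventually_nhdsWithin_of_eventually_nhds (hopen.mem_nhds hI)
  obtain ⟨w, hw1, hw2⟩ := (hall.and hmem).exists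
  refine ⟨⟨w, hw2⟩, fun i => ?_⟩
  have := hw1 i
  simpa [Function.comp, ofComplex_apply_of_im_pos hw2] using this

theorem pow_slash (k : ℤ) (h : ℍ → ℂ) (g : SL(2, ℤ)) (n : ℕ) :
    (h ^ n) ∣[(n : ℤ) * k] g = (h ∣[k] g) ^ n := by
  induction n with
  | zero => simpa using ModularForm.is_invariant_one g
  | succ n ih =>
    rw [pow_succ, pow_succ, ← ih, ← ModularForm.mul_slash_SL2]
    congr 1
    push_cast
    ring

theorem one_mem_MF (Γ : Subgroup SL(2, ℤ)) : (1 : ℍ → ℂ) ∈ MF Γ 0 :=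
  ⟨mdifferentiable_const, fun γ _ => ModularForm.is_invariant_one γ, fun γ => by
    rw [ModularForm.is_invariant_one γ]
    exact Filter.const_boundedAtFilter _ (1 : ℂ)⟩

theorem pow_mem_MF {Γ : Subgroup SL(2, ℤ)} {k : ℤ} {h : ℍ → ℂ} (hh : h ∈ MF Γ k) (n : ℕ) :
    h ^ n ∈ MF Γ ((n : ℤ) * k) := by
  induction n with
  | zero => simpa using one_mem_MF Γ
  | succ n ih =>
    have := mul_mem_MF ih hh
    rw [pow_succ]
    convert this using 2
    push_cast
    ring

theorem vec_pow {Γ : Subgroup SL(2, ℤ)} (k : ℤ) (h : ℍ → ℂ) (n : ℕ) (q : Q Γ) :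
    vec ((n : ℤ) * k) (h ^ n) q = (vec k h q) ^ n :=
  pow_slash k h _ n

/-- The conjugates of a separating form are pairwise distinct. -/
theorem vec_injective {Γ : Subgroup SL(2, ℤ)} {k : ℤ} {h : ℍ → ℂ} (hh : h ∈ MF Γ k)
    (hsep : ∀ g : SL(2, ℤ), h ∣[k] g = h → g ∈ Γ) :
    Function.Injective (vec (Γ := Γ) k h) := by
  intro q q' hq
  induction q using QuotientGroup.induction_on with
  | H g =>
  induction q' using QuotientGroup.induction_on with
  | H g' =>
    rw [vec_mk hh.2.1, vec_mk hh.2.1] at hq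
    have h1 : h ∣[k] (g⁻¹ * g') = h := by
      rw [SlashAction.slash_mul, hq, ← SlashAction.slash_mul]
      simp
    exact QuotientGroup.eq.mpr (hsep _ h1)

/-- From a separating form to a nondegenerate family (Vandermonde). -/
theorem exists_nondegenerate {Γ : Subgroup SL(2, ℤ)} [Γ.FiniteIndex]
    (hsep : ∃ k : ℤ, ∃ h ∈ MF Γ k, ∀ g : SL(2, ℤ), h ∣[k] g = h → g ∈ Γ) :
    ∃ (wt0 : Q Γ → ℤ) (F0 : Q Γ → ℍ → ℂ), (∀ j, F0 j ∈ MF Γ (wt0 j)) ∧
      ∃ z, (Phi (Γ := Γ) wt0 F0 z).det ≠ 0 := by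
  classical
  obtain ⟨k, h, hh, hs⟩ := hsep
  let e : Q Γ ≃ Fin (Fintype.card (Q Γ)) := Fintype.equivFin _
  refine ⟨fun j => ((e j : ℕ) : ℤ) * k, fun j => h ^ (e j : ℕ), fun j => pow_mem_MF hh _, ?_⟩
  have hinj := vec_injective hh hs
  -- a point where all the conjugates take distinct values
  obtain ⟨z, hz⟩ := exists_forall_ne_zero
    (fun p : {p : Q Γ × Q Γ // p.1 ≠ p.2} => vec k h p.1.1 - vec k h p.1.2)
    (fun p => (hh.1.slash k _).sub (hh.1.slash k _))
    (fun p hp => p.2 (hinj (sub_eq_zero.mp hp)))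
  refine ⟨z, ?_⟩
  have hinjz : Function.Injective (fun i : Fin (Fintype.card (Q Γ)) => vec k h (e.symm i) z) := by
    intro i i' hi
    by_contra hne
    have hne' : e.symm i ≠ e.symm i' := fun hc => hne (e.symm.injective hc)
    exact hz ⟨(e.symm i, e.symm i'), hne'⟩ (by simpa [sub_eq_zero] using hi)
  have hV := Matrix.det_vandermonde_ne_zero_iff.mpr hinjz
  have hPhi : Phi (Γ := Γ) (fun j => ((e j : ℕ) : ℤ) * k) (fun j => h ^ (e j : ℕ)) z =
      Matrix.reindex e.symm e.symm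
        (Matrix.vandermonde (fun i : Fin (Fintype.card (Q Γ)) => vec k h (e.symm i) z)) := by
    ext q j
    simp [Phi, vec_pow, Matrix.vandermonde_apply]
  rw [hPhi, Matrix.det_reindex_self]
  exact hV

end Fermat.Agent.S20.Nondeg
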