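import Fermat.Agent.S20.Defs
import Fermat.Agent.S20.LevelOne
import Fermat.Agent.S20.DetNe
import Fermat.Agent.Lib.VecCusp
import Fermat.Agent.S21.OrbitCount

/-!
# S20: the sum of the weights of a free basis

For a free homogeneous basis `F j ∈ MF Γ (wt j)` of the module of modular forms over the ring of
level one forms we show `∑ wt j = 6 (μ - c)`, with `μ` the index and `c` the number of cusps
(orbits of `T` on the cosets).
-/

set_option autoImplicit false

open UpperHalfPlane hiding I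
open ModularForm Matrix.SpecialLinearGroup Filter Topology ModularGroup Asymptotics
open scoped MatrixGroups ModularForm Manifold Real

namespace Fermat.Agent.S20.WeightSum

open Fermat.Agent.S20 Fermat.Agent.S20.LevelOne Fermat.Agent.Lib.VecCusp

noncomputable section

variable {Γ : Subgroup SL(2, ℤ)} {k w : ℤ} {f : ℍ → ℂ}

/-- Slash by `T` is the translation by one. -/
lemma slash_T_apply (g : ℍ → ℂ) (k : ℤ) (z : ℍ) : (g ∣[k] T) z = g ((1 : ℝ) +ᵥ z) := by
  rw [ModularForm.SL_slash_apply, UpperHalfPlane.modular_T_smul]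
  have : denom (T : GL (Fin 2) ℝ) z = 1 := by
    have := ModularGroup.denom_apply T z
    simpa [ModularGroup.T] using this
  rw [this, one_zpow, mul_one]

/-- the permutation of the cosets induced by `z ↦ z + 1`. -/
def sg (Γ : Subgroup SL(2, ℤ)) : Equiv.Perm (Q Γ) := MulAction.toPermHom SL(2, ℤ) (Q Γ) T⁻¹

lemma sg_apply (q : Q Γ) : sg Γ q = T⁻¹ • q := rfl

/-- a period of `T` on the cosets. -/
def pr (Γ : Subgroup SL(2, ℤ)) : ℕ := orderOf (sg Γ)

instance instNeZeroPr [Γ.FiniteIndex] : NeZero (pr Γ) := ⟨(orderOf_pos _).ne'⟩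

lemma sg_pow_pr : sg Γ ^ pr Γ = 1 := pow_orderOf_eq_one _

lemma isTVec_vec (hf : f ∈ MF Γ k) : IsTVec (sg Γ) (vec k f : Q Γ → ℍ → ℂ) where
  holo q := mdiff_vec hf.1 q
  bdd q := hf.2.2 _
  shift q z := by
    rw [← slash_T_apply (vec k f q) k, vec_slash hf.2.1]
    rfl

lemma div_Dl_slash (f : ℍ → ℂ) (k : ℤ) (γ : SL(2, ℤ)) :
    (f / Dl) ∣[k - 12] γ = (f ∣[k] γ) / Dl := by
  have h := ModularForm.div_slash_SL2 k 12 γ f Dl
  rw [h, Dl_mem.2.1 γ trivial]

/-- **Division by `Δ`.** -/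
theorem exists_eq_Dl_mul_of_isBigO (hf : f ∈ MF Γ k)
    (h : ∀ q : Q Γ, vec k f q =O[atImInfty] fun τ => Real.exp (-2 * π * τ.im)) :
    ∃ g ∈ MF Γ (k - 12), f = Dl * g := by
  refine ⟨f / Dl, ⟨hf.1.div Dl_mem.1 Dl_ne_zero, fun γ hγ => ?_, fun γ => ?_⟩, ?_⟩
  · rw [div_Dl_slash, hf.2.1 γ hγ]
  · rw [div_Dl_slash]
    have e : f ∣[k] γ = vec k f ((γ⁻¹ : SL(2, ℤ)) : Q Γ) := by rw [vec_mk hf.2.1, inv_inv]
    rw [e]
    have h1 := (h ((γ⁻¹ : SL(2, ℤ)) : Q Γ)).trans exp_isBigO_discriminant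
    exact (div_isBoundedUnder_of_isBigO h1).isBigO_one ℝ
  · funext z
    simp only [Pi.mul_apply, Pi.div_apply]
    rw [mul_div_cancel₀ _ (Dl_ne_zero z)]

/-- The family of vector valued functions attached to a family of forms. -/
def fam (wt : Q Γ → ℤ) (F : Q Γ → ℍ → ℂ) : Q Γ → Q Γ → ℍ → ℂ := fun j q => vec (wt j) (F j) q

lemma matM_fam (wt : Q Γ → ℤ) (F : Q Γ → ℍ → ℂ) (z : ℍ) :
    matM (fam wt F) z = Phi (Γ := Γ) wt F z := rfl

variable [Γ.FiniteIndex]

/-- the leading vector of a combination with coefficients having limits. -/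
lemma lead_sum_mul {ι : Type*} (s : Finset ι) (v : ι → Q Γ → ℍ → ℂ) (A : ι → ℍ → ℂ) (a : ι → ℂ)
    (hv : ∀ j ∈ s, IsTVec (sg Γ) (v j))
    (hAv : ∀ j ∈ s, IsTVec (sg Γ) (fun y τ => A j τ * v j y τ))
    (hA : ∀ j ∈ s, Tendsto (A j) atImInfty (𝓝 (a j))) :
    IsTVec (sg Γ) (∑ j ∈ s, fun y τ => A j τ * v j y τ) ∧
    lead (sg Γ) (pr Γ) (∑ j ∈ s, fun y τ => A j τ * v j y τ)
      = ∑ j ∈ s, a j • lead (sg Γ) (pr Γ) (v j) := by
  classical
  induction s using Finset.induction_on with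
  | empty =>
    simp only [Finset.sum_empty]
    refine ⟨⟨fun _ => mdifferentiable_const, fun _ => zero_form_isBoundedAtImInfty,
      fun _ _ => rfl⟩, lead_zero⟩
  | insert i s hi ih =>
    have ih' := ih (fun j hj => hv j (Finset.mem_insert_of_mem hj))
      (fun j hj => hAv j (Finset.mem_insert_of_mem hj))
      (fun j hj => hA j (Finset.mem_insert_of_mem hj))
    rw [Finset.sum_insert hi, Finset.sum_insert hi]
    have hi' := hAv i (Finset.mem_insert_self i s)
    refine ⟨hi'.add ih'.1, ?_⟩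
    rw [hi'.lead_add ih'.1 sg_pow_pr, ih'.2,
      (hv i (Finset.mem_insert_self i s)).lead_mul sg_pow_pr (hA i (Finset.mem_insert_self i s))]

/-- a common even weight, at least `wt j + 4` for all `j`. -/
lemma exists_big_weight (wt : Q Γ → ℤ) : ∃ K : ℤ, Even K ∧ ∀ j, wt j + 4 ≤ K := by
  classical
  obtain ⟨B, hB⟩ : ∃ B : ℤ, ∀ j, wt j ≤ B := by
    refine ⟨∑ j, |wt j|, fun j => ?_⟩
    calc wt j ≤ |wt j| := le_abs_self _
      _ ≤ ∑ j, |wt j| := Finset.single_le_sum (f := fun j => |wt j|) (fun i _ => abs_nonneg _)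
          (Finset.mem_univ j)
  refine ⟨2 * (|B| + 2), even_two_mul _, fun j => ?_⟩
  have := hB j
  have := le_abs_self B
  have := abs_nonneg B
  linarith

/-- **The frame of a free basis is invertible at infinity.** -/
theorem det_matL_ne_zero {wt : Q Γ → ℤ} {F : Q Γ → ℍ → ℂ} (hB : IsFreeBasis Γ wt F)
    (heven : ∀ j, Even (wt j)) : (matL (sg Γ) (pr Γ) (fam wt F)).det ≠ 0 := by
  intro hdet
  obtain ⟨a, ha0, ha⟩ := Matrix.exists_mulVec_eq_zero_iff.mpr hdet
  obtain ⟨K, hK, hKw⟩ := exists_big_weight wt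
  have hH : ∀ j, ∃ H ∈ R (K - wt j), Tendsto H atImInfty (𝓝 1) := fun j => by
    obtain ⟨H, hH, hl, -⟩ := exists_H' (k := K - wt j) (by have := hKw j; omega)
      (hK.sub (heven j))
    exact ⟨H, hH, hl⟩
  choose H hHmem hHlim using hH
  set A : Q Γ → ℍ → ℂ := fun j => a j • H j with hAdef
  have hA : ∀ j, A j ∈ R (K - wt j) := fun j => (R (K - wt j)).smul_mem _ (hHmem j)
  have hAlim : ∀ j, Tendsto (A j) atImInfty (𝓝 (a j)) := fun j => by
    have := (hHlim j).const_mul (a j)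
    rw [mul_one] at this
    exact this
  have hAF : ∀ j, A j * F j ∈ MF Γ K := fun j => by
    have := mul_mem_MF (R_le_MF (Γ := Γ) (hA j)) (hB.mem j)
    rwa [sub_add_cancel] at this
  have hmem : (∑ j, A j * F j) ∈ MF Γ K := Submodule.sum_mem _ fun j _ => hAF j
  have hvecj : ∀ j, (vec K (A j * F j) : Q Γ → ℍ → ℂ)
      = fun y τ => A j τ * fam wt F j y τ := fun j => by
    funext y τ
    rw [vec_mul_of_mem_R (b := wt j) (hA j) (by ring)]
    rfl
  have hvec : (vec K (∑ j, A j * F j) : Q Γ → ℍ → ℂ)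
      = ∑ j, fun y τ => A j τ * fam wt F j y τ := by
    funext y
    rw [vec_finset_sum, Finset.sum_apply]
    exact Finset.sum_congr rfl fun j _ => congrFun (hvecj j) y
  have hlead := (lead_sum_mul Finset.univ (fam wt F) A a
    (fun j _ => isTVec_vec (hB.mem j))
    (fun j _ => by rw [← hvecj j]; exact isTVec_vec (hAF j)) (fun j _ => hAlim j)).2
  have hlead0 : lead (sg Γ) (pr Γ) (vec K (∑ j, A j * F j) : Q Γ → ℍ → ℂ) = 0 := by
    rw [hvec, hlead, ← ha]
    funext q
    simp only [Matrix.mulVec, dotProduct, Finset.sum_apply, Pi.smul_apply, smul_eq_mul, matL,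
      Matrix.of_apply]
    exact Finset.sum_congr rfl fun j _ => mul_comm _ _
  obtain ⟨g, hg, hfg⟩ := exists_eq_Dl_mul_of_isBigO hmem
    (fun q => (isTVec_vec hmem).isBigO_of_lead_eq_zero sg_pow_pr hlead0 q)
  obtain ⟨B, hBm, hgB⟩ := hB.span _ g hg
  have hcoef : ∀ j, A j - Dl * B j ∈ R (K - wt j) := fun j => by
    refine Submodule.sub_mem _ (hA j) ?_
    have := mul_mem_MF Dl_mem (hBm j)
    have e : 12 + (K - 12 - wt j) = K - wt j := by ring
    rwa [e] at this
  have hzero : ∑ j, (A j - Dl * B j) * F j = 0 := by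
    have : ∑ j, (A j - Dl * B j) * F j = ∑ j, A j * F j - Dl * ∑ j, B j * F j := by
      rw [Finset.mul_sum, ← Finset.sum_sub_distrib]
      exact Finset.sum_congr rfl fun j _ => by ring
    rw [this, ← hgB, ← hfg, sub_self]
  have hall := hB.indep K _ hcoef hzero
  apply ha0
  funext j
  have h1 : A j = Dl * B j := sub_eq_zero.mp (hall j)
  have h2 : Tendsto (Dl * B j) atImInfty (𝓝 (0 * valueAtInfty (B j))) :=
    tendsto_Dl.mul (tendsto_of_mem_R (hBm j))
  rw [← h1, zero_mul] at h2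
  exact tendsto_nhds_unique (hAlim j) h2

/-- the invariants of `sg Γ` are counted by the orbits of `T`. -/
lemma finrank_invSub_sg :
    Module.finrank ℂ (invSub (sg Γ)) =
      Nat.card (MulAction.orbitRel.Quotient (Subgroup.zpowers (T : SL(2, ℤ))) (Q Γ)) := by
  rw [← Fermat.Agent.S21.OrbitCount.finrank_inv_eq_card_orbits Γ T]
  have : invSub (sg Γ) = Fermat.Agent.S21.CohomBound.inv Γ (T : SL(2, ℤ)) := by
    have e : sg Γ = (MulAction.toPermHom SL(2, ℤ) (Q Γ) T)⁻¹ := by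
      rw [sg, map_inv]
    rw [e, invSub_inv]
    ext v
    rw [Fermat.Agent.S21.CohomBound.inv, LinearMap.mem_ker]
    constructor
    · intro h
      funext q
      have := h q
      simp only [LinearMap.sub_apply, Pi.sub_apply, Fermat.Agent.S21.CohomBound.L_apply,
        Module.End.one_apply, Pi.zero_apply]
      rw [sub_eq_zero]
      exact this
    · intro h q
      have := congrFun h q
      simp only [LinearMap.sub_apply, Pi.sub_apply, Fermat.Agent.S21.CohomBound.L_apply,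
        Module.End.one_apply, Pi.zero_apply] at this
      exact sub_eq_zero.mp this
  rw [this]

lemma card_orbits_le :
    Nat.card (MulAction.orbitRel.Quotient (Subgroup.zpowers (T : SL(2, ℤ))) (Q Γ))
      ≤ Fintype.card (Q Γ) := by
  rw [← Nat.card_eq_fintype_card]
  exact Nat.card_le_card_of_surjective (Quotient.mk'' : Q Γ → _) Quotient.mk''_surjective

/-- **The sum of the weights of a free basis** (all weights even). -/
theorem weight_sum_of_even {wt : Q Γ → ℤ} {F : Q Γ → ℍ → ℂ} (hB : IsFreeBasis Γ wt F)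
    (heven : ∀ j, Even (wt j)) :
    ∑ j, wt j + 6 * (Nat.card (MulAction.orbitRel.Quotient
      (Subgroup.zpowers (T : SL(2, ℤ))) (Q Γ)) : ℤ) = 6 * (Fintype.card (Q Γ) : ℤ) := by
  obtain ⟨c, -, hc⟩ := hB.det_pow_twelve
  have h := weight_eq (σ := sg Γ) (N := pr Γ) sg_pow_pr (f := fam wt F)
    (fun j => isTVec_vec (hB.mem j)) (det_matL_ne_zero hB heven) (κ := c) (K := ∑ j, wt j)
    (fun τ => by rw [matM_fam]; exact hc τ)
  rw [finrank_invSub_sg] at h
  have hle := card_orbits_le (Γ := Γ)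
  rw [h]
  push_cast [Nat.cast_sub hle]
  ring

/-- the weights of a free basis are even if `-1 ∈ Γ`. -/
lemma even_wt {wt : Q Γ → ℤ} {F : Q Γ → ℍ → ℂ} (hB : IsFreeBasis Γ wt F)
    (hneg : (-1 : SL(2, ℤ)) ∈ Γ) (j : Q Γ) : Even (wt j) := by
  by_contra hodd
  rw [Int.not_even_iff_odd] at hodd
  have h1 := ModularForm.eq_zero_of_neg_one_mem
    (Γ := (Γ : Subgroup (GL (Fin 2) ℝ))) (show (-1 : GL (Fin 2) ℝ) ∈ _ from
      ⟨-1, hneg, by ext; simp⟩) hodd (toModularForm (hB.mem j))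
  have h2 : ⇑(toModularForm (hB.mem j)) = F j := rfl
  have h0 : F j = 0 := by
    rw [← h2, h1]
    rfl
  obtain ⟨z, hz⟩ := hB.det_ne
  apply hz
  apply Matrix.det_eq_zero_of_column_eq_zero j
  intro q
  simp only [Phi, Matrix.of_apply, h0, vec]
  rw [SlashAction.zero_slash]
  rfl

/-- **The sum of the weights of a free basis**: `∑ wt + 6 c = 6 μ`. -/
theorem weight_sum {wt : Q Γ → ℤ} {F : Q Γ → ℍ → ℂ} (hB : IsFreeBasis Γ wt F)
    (hneg : (-1 : SL(2, ℤ)) ∈ Γ) :
    ∑ j, wt j + 6 * (Nat.card (MulAction.orbitRel.Quotient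
      (Subgroup.zpowers (T : SL(2, ℤ))) (Q Γ)) : ℤ) = 6 * (Fintype.card (Q Γ) : ℤ) :=
  weight_sum_of_even hB (even_wt hB hneg)

end

end Fermat.Agent.S20.WeightSum
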